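/-
S25lib / Sec / LocGen  (helper6)  --  Project L (S25), block `Sec/**` (synthesis on a two-chart cover).
Pure algebra: **local generators of a module and their coordinate functions.**
* `IsAwayHom σ h`: the ring homomorphism `σ : A →+* S` is a localisation away from `h` (by hand, no
  `Algebra` instance).
* `IsLocGen h w`: `w ∈ W` generates `W` freely after inverting `h`.
* `coord hσ hw : W → S`: the coordinate `x / w` in `S = A[1/h]`; additive, `σ`-semilinear, `coord w = 1`,
  `coord x = 0 ↔ h ^ n • x = 0`, the chain rule `coord_chain` and the base change rule `coord_map`.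
-/
import Mathlib

set_option autoImplicit false

noncomputable section

namespace Fermat.Agent.S25lib.Sec

/-- `σ : A →+* S` is a localisation away from `h` -/
structure IsAwayHom {A S : Type*} [CommRing A] [CommRing S] (σ : A →+* S) (h : A) : Prop where
  unit : IsUnit (σ h)
  surj : ∀ s : S, ∃ (a : A) (n : ℕ), s * σ h ^ n = σ a
  ker : ∀ a : A, σ a = 0 → ∃ n : ℕ, h ^ n * a = 0

theorem isAwayHom_algebraMap {A S : Type*} [CommRing A] [CommRing S] [Algebra A S] (h : A)
    [IsLocalization.Away h S] : IsAwayHom (algebraMap A S) h where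
  unit := IsLocalization.Away.algebraMap_isUnit h
  surj s := by
    obtain ⟨n, a, ha⟩ := IsLocalization.Away.surj h s
    exact ⟨a, n, ha⟩
  ker a ha := by
    obtain ⟨⟨_, n, rfl⟩, hm⟩ := (IsLocalization.map_eq_zero_iff (Submonoid.powers h) S a).mp ha
    exact ⟨n, hm⟩

/-- `w` generates `W` freely after inverting `h` -/
structure IsLocGen {A : Type*} [CommRing A] {W : Type*} [AddCommGroup W] [Module A W]
    (h : A) (w : W) : Prop where
  gen : ∀ x : W, ∃ (n : ℕ) (a : A), h ^ n • x = a • w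
  free : ∀ a : A, a • w = 0 → ∃ n : ℕ, h ^ n * a = 0

section

variable {A : Type*} [CommRing A] {W : Type*} [AddCommGroup W] [Module A W] {h : A} {w : W}

theorem IsLocGen.mul_left (hw : IsLocGen h w) (g : A) : IsLocGen (g * h) w where
  gen x := by
    obtain ⟨n, a, ha⟩ := hw.gen x
    refine ⟨n, g ^ n * a, ?_⟩
    rw [mul_pow, mul_smul, ha, mul_smul]
  free a ha := by
    obtain ⟨n, hn⟩ := hw.free a ha
    refine ⟨n, ?_⟩
    rw [mul_pow, mul_assoc, hn, mul_zero]

theorem IsLocGen.mul_right (hw : IsLocGen h w) (g : A) : IsLocGen (h * g) w := by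
  rw [mul_comm]
  exact hw.mul_left g

/-- if `h ^ n • x = a • w` and `h ^ m • x = b • w` then `h ^ m * a` and `h ^ n * b` agree up to
`h`-torsion -/
theorem IsLocGen.exists_pow_mul_eq (hw : IsLocGen h w) {x : W} {n m : ℕ} {a b : A}
    (ha : h ^ n • x = a • w) (hb : h ^ m • x = b • w) :
    ∃ l : ℕ, h ^ l * (h ^ m * a) = h ^ l * (h ^ n * b) := by
  have h0 : (h ^ m * a - h ^ n * b) • w = 0 := by
    rw [sub_smul, mul_smul, mul_smul, ← ha, ← hb, smul_smul, smul_smul, mul_comm, sub_self]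
  obtain ⟨l, hl⟩ := hw.free _ h0
  refine ⟨l, ?_⟩
  rw [mul_sub] at hl
  exact sub_eq_zero.mp hl

variable {S : Type*} [CommRing S] {σ : A →+* S}

/-- a chosen presentation `h ^ n • x = a • w` -/
def IsLocGen.pres (hw : IsLocGen h w) (x : W) : {p : ℕ × A // h ^ p.1 • x = p.2 • w} :=
  ⟨((hw.gen x).choose, (hw.gen x).choose_spec.choose), (hw.gen x).choose_spec.choose_spec⟩

/-- the coordinate `x / w ∈ S = A[1/h]` -/
def coord (hσ : IsAwayHom σ h) (hw : IsLocGen h w) (x : W) : S :=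
  σ (hw.pres x).1.2 * ((hσ.unit.unit⁻¹ : Sˣ) : S) ^ (hw.pres x).1.1

theorem coord_spec (hσ : IsAwayHom σ h) (hw : IsLocGen h w) {x : W} {n : ℕ} {a : A}
    (hx : h ^ n • x = a • w) : coord hσ hw x * σ h ^ n = σ a := by
  unfold coord
  generalize hw.pres x = p
  obtain ⟨⟨n₀, a₀⟩, h0⟩ := p
  simp only at h0 ⊢
  obtain ⟨l, hl⟩ := hw.exists_pow_mul_eq h0 hx
  have h1 := congrArg σ hl
  simp only [map_mul, map_pow] at h1
  have h2 : σ h ^ n * σ a₀ = σ h ^ n₀ * σ a := (hσ.unit.pow l).mul_left_cancel h1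
  have hu : ((hσ.unit.unit⁻¹ : Sˣ) : S) * σ h = 1 := by
    have := hσ.unit.unit.inv_mul
    rwa [IsUnit.unit_spec] at this
  apply (hσ.unit.pow n₀).mul_left_cancel
  calc σ h ^ n₀ * (σ a₀ * ((hσ.unit.unit⁻¹ : Sˣ) : S) ^ n₀ * σ h ^ n)
      = (((hσ.unit.unit⁻¹ : Sˣ) : S) * σ h) ^ n₀ * (σ h ^ n * σ a₀) := by rw [mul_pow]; ring
    _ = σ h ^ n₀ * σ a := by rw [hu, one_pow, one_mul, h2]

theorem coord_eq (hσ : IsAwayHom σ h) (hw : IsLocGen h w) {x : W} {n : ℕ} {a : A} {r : S}
    (hx : h ^ n • x = a • w) (hr : r * σ h ^ n = σ a) : coord hσ hw x = r := by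
  have := coord_spec hσ hw hx
  exact (hσ.unit.pow n).mul_right_cancel (this.trans hr.symm)

theorem coord_self (hσ : IsAwayHom σ h) (hw : IsLocGen h w) : coord hσ hw w = 1 := by
  apply coord_eq hσ hw (n := 0) (a := 1)
  · rw [pow_zero]
  · rw [pow_zero, mul_one, map_one]

theorem coord_add (hσ : IsAwayHom σ h) (hw : IsLocGen h w) (x y : W) :
    coord hσ hw (x + y) = coord hσ hw x + coord hσ hw y := by
  obtain ⟨n, a, ha⟩ := hw.gen x
  obtain ⟨m, b, hb⟩ := hw.gen y
  apply coord_eq hσ hw (n := n + m) (a := h ^ m * a + h ^ n * b)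
  · rw [smul_add, add_smul, mul_smul, mul_smul, ← ha, ← hb, smul_smul, smul_smul, pow_add,
      mul_comm (h ^ m)]
  · rw [map_add, map_mul, map_mul, map_pow, map_pow, ← coord_spec hσ hw ha, ← coord_spec hσ hw hb,
      pow_add]
    ring

theorem coord_zero (hσ : IsAwayHom σ h) (hw : IsLocGen h w) : coord hσ hw (0 : W) = 0 := by
  have := coord_add hσ hw 0 0
  rw [add_zero] at this
  exact left_eq_add.mp this

theorem coord_smul (hσ : IsAwayHom σ h) (hw : IsLocGen h w) (c : A) (x : W) :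
    coord hσ hw (c • x) = σ c * coord hσ hw x := by
  obtain ⟨n, a, ha⟩ := hw.gen x
  apply coord_eq hσ hw (n := n) (a := c * a)
  · rw [smul_comm, ha, mul_smul]
  · rw [map_mul, ← coord_spec hσ hw ha, mul_assoc]

theorem coord_eq_zero_iff (hσ : IsAwayHom σ h) (hw : IsLocGen h w) (x : W) :
    coord hσ hw x = 0 ↔ ∃ n : ℕ, h ^ n • x = 0 := by
  constructor
  · intro hx
    obtain ⟨n, a, ha⟩ := hw.gen x
    have h1 := coord_spec hσ hw ha
    rw [hx, zero_mul] at h1
    obtain ⟨m, hm⟩ := hσ.ker a h1.symm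
    refine ⟨m + n, ?_⟩
    rw [pow_add, mul_smul, ha, smul_smul, hm, zero_smul]
  · rintro ⟨n, hn⟩
    apply coord_eq hσ hw (n := n) (a := 0)
    · rw [hn, zero_smul]
    · rw [zero_mul, map_zero]

/-- every element of `S` is a coordinate up to a power of `h` -/
theorem exists_coord_eq (hσ : IsAwayHom σ h) (hw : IsLocGen h w) (s : S) :
    ∃ (x : W) (n : ℕ), coord hσ hw x = s * σ h ^ n := by
  obtain ⟨a, n, ha⟩ := hσ.surj s
  refine ⟨a • w, n, ?_⟩
  rw [coord_smul, coord_self, mul_one, ha]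

/-- the coordinate as an additive map -/
def coordHom (hσ : IsAwayHom σ h) (hw : IsLocGen h w) : W →+ S where
  toFun := coord hσ hw
  map_zero' := coord_zero hσ hw
  map_add' := coord_add hσ hw

/-- **chain rule**: two local generators `(h, w)`, `(h', w')` with coordinates in `S`, `S'`, and a common
target `T` of `S`, `S'` under `A`: `x / w' = (x / w) * (w / w')` in `T`. -/
theorem coord_chain {S' T : Type*} [CommRing S'] [CommRing T] {σ' : A →+* S'} {h' : A} {w' : W}
    (hσ : IsAwayHom σ h) (hw : IsLocGen h w) (hσ' : IsAwayHom σ' h') (hw' : IsLocGen h' w')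
    (τ : S →+* T) (τ' : S' →+* T) (hτ : τ.comp σ = τ'.comp σ') (x : W) :
    τ' (coord hσ' hw' x) = τ (coord hσ hw x) * τ' (coord hσ' hw' w) := by
  have hπ : ∀ a : A, τ (σ a) = τ' (σ' a) := fun a => congrArg (fun f => f a) hτ
  obtain ⟨n, a, ha⟩ := hw.gen x
  obtain ⟨m, b, hb⟩ := hw'.gen w
  obtain ⟨l, d, hd⟩ := hw'.gen x
  have e1 := congrArg τ (coord_spec hσ hw ha)
  have e2 := congrArg τ' (coord_spec hσ' hw' hb)
  have e3 := congrArg τ' (coord_spec hσ' hw' hd)
  simp only [map_mul, map_pow] at e1 e2 e3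
  -- the relation `h ^ n * h' ^ m * d = h' ^ l * a * b` up to `h'`-torsion
  have h0 : (h ^ n * h' ^ m * d - h' ^ l * (a * b)) • w' = 0 := by
    have t1 : (h ^ n * h' ^ m * d) • w' = (h ^ n * h' ^ m * h' ^ l) • x := by
      rw [mul_smul, ← hd, smul_smul]
    have t2 : (h' ^ l * (a * b)) • w' = (h ^ n * h' ^ m * h' ^ l) • x := by
      rw [mul_smul, mul_smul, ← hb, smul_comm a (h' ^ m) w, ← ha, smul_smul, smul_smul]
      congr 1
      ring
    rw [sub_smul, t1, t2, sub_self]
  obtain ⟨k, hk⟩ := hw'.free _ h0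
  have e4 := congrArg (fun y => τ' (σ' y)) hk
  simp only [map_mul, map_pow, map_sub, map_zero] at e4
  have hu' : IsUnit (τ' (σ' h')) := hσ'.unit.map τ'
  have hu : IsUnit (τ (σ h)) := hσ.unit.map τ
  have e5 : τ' (σ' h) ^ n * τ' (σ' h') ^ m * τ' (σ' d) = τ' (σ' h') ^ l * (τ' (σ' a) * τ' (σ' b)) :=
    sub_eq_zero.mp ((hu'.pow k).mul_left_cancel (by rw [mul_zero]; exact e4))
  rw [← hπ h, ← hπ a] at e5
  apply (hu'.pow l).mul_right_cancel
  apply (hu.pow n).mul_right_cancel
  apply (hu'.pow m).mul_right_cancel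
  rw [e3]
  calc τ' (σ' d) * τ (σ h) ^ n * τ' (σ' h') ^ m
      = τ (σ h) ^ n * τ' (σ' h') ^ m * τ' (σ' d) := by ring
    _ = τ' (σ' h') ^ l * (τ (σ a) * τ' (σ' b)) := e5
    _ = τ (coord hσ hw x) * τ' (coord hσ' hw' w) * τ' (σ' h') ^ l * τ (σ h) ^ n *
          τ' (σ' h') ^ m := by rw [← e1, ← e2]; ring

end

section Map

variable {A A' : Type*} [CommRing A] [CommRing A'] {W W' : Type*} [AddCommGroup W] [Module A W]
  [AddCommGroup W'] [Module A' W'] {S S' : Type*} [CommRing S] [CommRing S']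

/-- **base change rule**: `ρ : W → W'` semilinear over `α : A → A'`, mapping the local generator `(h, w)` to
the local generator `(α h, ρ w)`: the coordinates correspond. -/
theorem coord_map {σ : A →+* S} {σ' : A' →+* S'} {h : A} {w : W} (α : A →+* A') (ρ : W →+ W')
    (hρ : ∀ (a : A) (x : W), ρ (a • x) = α a • ρ x)
    (hσ : IsAwayHom σ h) (hw : IsLocGen h w) (hσ' : IsAwayHom σ' (α h)) (hw' : IsLocGen (α h) (ρ w))
    (τ : S →+* S') (hτ : τ.comp σ = σ'.comp α) (x : W) :
    coord hσ' hw' (ρ x) = τ (coord hσ hw x) := by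
  have hπ : ∀ a : A, τ (σ a) = σ' (α a) := fun a => congrArg (fun f => f a) hτ
  obtain ⟨n, a, ha⟩ := hw.gen x
  apply coord_eq hσ' hw' (n := n) (a := α a)
  · rw [← map_pow, ← hρ, ha, hρ]
  · rw [← hπ, ← hπ, ← map_pow, ← map_mul, coord_spec hσ hw ha]

end Map

section Cech

variable {A : Type*} [CommRing A] {W : Type*} [AddCommGroup W] [Module A W]

/-- an element which is torsion for a family of elements spanning the unit ideal vanishes -/
theorem eq_zero_of_forall_pow_smul (s : Set A) (hs : Ideal.span s = ⊤) (x : W)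
    (H : ∀ r ∈ s, ∃ n : ℕ, r ^ n • x = 0) : x = 0 := by
  have := Submodule.mem_of_span_eq_top_of_smul_pow_mem (⊥ : Submodule A W) s hs x
    (fun r => by
      obtain ⟨n, hn⟩ := H r.1 r.2
      exact ⟨n, by rw [hn]; exact Submodule.zero_mem _⟩)
  exact (Submodule.mem_bot A).mp this

/-- **gluing**: elements `β k ∈ W` and `g k ∈ A` (`k` in a finite set) with `g l • β k = g k • β l` and
`(g k)` spanning the unit ideal: there is `x` with `g k • x = β k`. -/
theorem exists_glue {κ : Type*} (F : Finset κ) (g : κ → A) (β : κ → W)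
    (hg : Ideal.span (g '' (F : Set κ)) = ⊤)
    (hβ : ∀ k ∈ F, ∀ l ∈ F, g l • β k = g k • β l) :
    ∃ x : W, ∀ l ∈ F, g l • x = β l := by
  have h1 : (1 : A) ∈ Ideal.span (g '' (F : Set κ)) := by rw [hg]; trivial
  obtain ⟨e, he⟩ := (Submodule.mem_span_image_finset_iff_exists_fun' (R := A)).mp h1
  refine ⟨∑ k ∈ F, e k • β k, fun l hl => ?_⟩
  rw [Finset.smul_sum]
  calc ∑ k ∈ F, g l • e k • β k = ∑ k ∈ F, (e k * g k) • β l := by
        refine Finset.sum_congr rfl fun k hk => ?_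
        rw [smul_comm, hβ k hk l hl, smul_smul]
    _ = (∑ k ∈ F, e k * g k) • β l := by rw [Finset.sum_smul]
    _ = β l := by
        have : ∑ k ∈ F, e k * g k = 1 := by
          simpa [smul_eq_mul] using he
        rw [this, one_smul]

end Cech

end Fermat.Agent.S25lib.Sec
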