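/-
S25lib / Sec / DualIdeal  (helper6)  --  Project L (S25), block `Sec/**`.
Pure algebra: **the dual `I⁻¹ = Hom_A(I, A)` of an ideal.**
* `dual_apply_mul_comm`: `ψ x * y = ψ y * x`.
* `dualEval ρ I hI : Dual A I →+ S` for a ring homomorphism `ρ : A →+* S` with `I S = S`: the unique `r` with
  `ρ (ψ i) = r * ρ i` ("`ψ` is multiplication by `r`").
* `isLocGen_dual_of_apply_eq_pow`: `ψ y = h ^ n` makes `ψ` a local generator of `I⁻¹` on `D(h)`; the converse
  `exists_apply_eq_pow_of_isLocGen` for invertible `I`.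
* `dualMap α I : Dual A I →+ Dual A' (I A')` for `α : A →+* A'` with `I A'` faithful (e.g. invertible): the base
  change of linear forms, `dualMap ψ (α i) = α (ψ i)`.
-/
import Mathlib
import Fermat.Agent.S25lib.Sec.LocGen

set_option autoImplicit false

noncomputable section

namespace Fermat.Agent.S25lib.Sec

section Comm

variable {A : Type*} [CommRing A] (I : Ideal A)

/-- linear forms on an ideal are "multiplications": `ψ x * y = ψ y * x` -/
theorem dual_apply_mul_comm (ψ : Module.Dual A I) (x y : I) :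
    ψ x * (y : A) = ψ y * (x : A) := by
  have e : (y : A) • x = (x : A) • y := Subtype.ext (by
    change (y : A) * (x : A) = (x : A) * (y : A)
    exact mul_comm _ _)
  have h := congrArg ψ e
  rw [map_smul, map_smul, smul_eq_mul, smul_eq_mul] at h
  rw [mul_comm, h, mul_comm]

/-- the same for two linear forms: `ψ x * ψ' y = ψ' x * ψ y` -/
theorem dual_apply_mul_apply_comm (ψ ψ' : Module.Dual A I) (x y : I) :
    ψ x * ψ' y = ψ' x * ψ y := by
  have e : ψ x • y = ψ y • x := Subtype.ext (by
    change ψ x * (y : A) = ψ y * (x : A)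
    exact dual_apply_mul_comm I ψ x y)
  have h := congrArg ψ' e
  rw [map_smul, map_smul, smul_eq_mul, smul_eq_mul] at h
  rw [h, mul_comm]

/-- `ψ y = h ^ n` makes `ψ` a local generator of the dual on `D(h)` -/
theorem isLocGen_dual_of_apply_eq_pow {h : A} {ψ : Module.Dual A I} (y : I) (n : ℕ)
    (hy : ψ y = h ^ n) : IsLocGen h ψ where
  gen ψ' := by
    refine ⟨n, ψ' y, LinearMap.ext fun x => ?_⟩
    rw [LinearMap.smul_apply, LinearMap.smul_apply, smul_eq_mul, smul_eq_mul, ← hy]
    exact dual_apply_mul_apply_comm I ψ ψ' y x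
  free a ha := by
    refine ⟨n, ?_⟩
    have := congrArg (fun φ : Module.Dual A I => φ y) ha
    simp only [LinearMap.smul_apply, LinearMap.zero_apply, smul_eq_mul] at this
    rw [← hy, mul_comm]
    exact this

/-- **the trace condition**: the values `ψ x` (`ψ ∈ I⁻¹`, `x ∈ I`) generate the unit ideal -/
def IsInvIdeal : Prop :=
  Ideal.span (Set.range fun p : Module.Dual A I × I => p.1 p.2) = ⊤

variable {I}

/-- invertible modules satisfy the trace condition -/
theorem isInvIdeal_of_invertible [Module.Invertible A I] : IsInvIdeal I := by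
  have key : ∀ t : TensorProduct A (Module.Dual A I) I,
      contractLeft A I t ∈ Ideal.span (Set.range fun p : Module.Dual A I × I => p.1 p.2) := by
    intro t
    induction t using TensorProduct.induction_on with
    | zero => rw [map_zero]; exact Ideal.zero_mem _
    | tmul φ x =>
      rw [contractLeft_apply]
      exact Ideal.subset_span ⟨(φ, x), rfl⟩
    | add t t' ht ht' =>
      rw [map_add]
      exact Ideal.add_mem _ ht ht'
  obtain ⟨t, ht⟩ := (Module.Invertible.bijective (R := A) (M := I)).2 1
  unfold IsInvIdeal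
  rw [Ideal.eq_top_iff_one, ← ht]
  exact key t

/-- an ideal of the ring containing all `ψ x` is the unit ideal -/
theorem IsInvIdeal.eq_top (hI : IsInvIdeal I) {K : Ideal A}
    (hK : ∀ (ψ : Module.Dual A I) (x : I), ψ x ∈ K) : K = ⊤ := by
  rw [eq_top_iff, ← hI, Ideal.span_le]
  rintro _ ⟨p, rfl⟩
  exact hK p.1 p.2

/-- the dual of an ideal with the trace condition is locally free of rank one -/
theorem IsInvIdeal.span_isLocGen (hI : IsInvIdeal I) :
    Ideal.span {h : A | ∃ w : Module.Dual A I, IsLocGen h w} = ⊤ := by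
  apply hI.eq_top
  intro ψ x
  apply Ideal.subset_span
  exact ⟨ψ, isLocGen_dual_of_apply_eq_pow I x 1 (by rw [pow_one])⟩

/-- an ideal with the trace condition is a faithful module -/
theorem IsInvIdeal.eq_zero_of_forall_mul (hI : IsInvIdeal I) {z : A}
    (hz : ∀ x : I, z * (x : A) = 0) : z = 0 := by
  have hK : (LinearMap.ker (LinearMap.mulLeft A z) : Ideal A) = ⊤ := by
    apply hI.eq_top
    intro ψ x
    rw [LinearMap.mem_ker, LinearMap.mulLeft_apply]
    have := congrArg ψ (show z • x = 0 from Subtype.ext (hz x))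
    rw [map_smul, map_zero, smul_eq_mul] at this
    exact this
  have h1 : (1 : A) ∈ (LinearMap.ker (LinearMap.mulLeft A z) : Ideal A) := by
    rw [hK]; trivial
  rw [LinearMap.mem_ker, LinearMap.mulLeft_apply, mul_one] at h1
  exact h1

theorem IsInvIdeal.faithfulSMul (hI : IsInvIdeal I) : FaithfulSMul A I where
  eq_of_smul_eq_smul {a b} h := by
    rw [← sub_eq_zero]
    apply hI.eq_zero_of_forall_mul
    intro x
    have := congrArg Subtype.val (h x)
    change a * (x : A) = b * (x : A) at this
    rw [sub_mul, this, sub_self]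

/-- for an ideal with the trace condition, every local generator of the dual on `D(h)` takes a value
`h ^ n` -/
theorem exists_apply_eq_pow_of_isLocGen (hI : IsInvIdeal I) {h : A} {ψ : Module.Dual A I}
    (hψ : IsLocGen h ψ) : ∃ (y : I) (n : ℕ), ψ y = h ^ n := by
  let K : Ideal A :=
    { carrier := {a | ∃ (n : ℕ) (y : I), h ^ n * a = ψ y}
      add_mem' := by
        rintro a a' ⟨n, y, hn⟩ ⟨n', y', hn'⟩
        refine ⟨n + n', h ^ n' • y + h ^ n • y', ?_⟩
        rw [map_add, map_smul, map_smul, smul_eq_mul, smul_eq_mul, ← hn, ← hn']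
        ring
      zero_mem' := ⟨0, 0, by rw [map_zero, mul_zero]⟩
      smul_mem' := by
        rintro c a ⟨n, y, hn⟩
        refine ⟨n, c • y, ?_⟩
        rw [map_smul, smul_eq_mul, smul_eq_mul, ← hn]
        ring }
  have hK : K = ⊤ := by
    apply hI.eq_top
    intro φ x
    obtain ⟨n, a, ha⟩ := hψ.gen φ
    refine ⟨n, a • x, ?_⟩
    have := congrArg (fun θ : Module.Dual A I => θ x) ha
    simp only [LinearMap.smul_apply, smul_eq_mul] at this
    rw [this, map_smul, smul_eq_mul]
  have h1 : (1 : A) ∈ K := by rw [hK]; trivial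
  obtain ⟨n, y, hn⟩ := h1
  rw [mul_one] at hn
  exact ⟨y, n, hn.symm⟩

/-- `i • ψ = ψ i • incl` for `i ∈ I` -/
theorem smul_eq_apply_smul_subtype (ψ : Module.Dual A I) (i : I) :
    (i : A) • ψ = ψ i • (Submodule.subtype I : Module.Dual A I) := by
  apply LinearMap.ext
  intro x
  rw [LinearMap.smul_apply, LinearMap.smul_apply, smul_eq_mul, smul_eq_mul, Submodule.subtype_apply,
    mul_comm]
  exact dual_apply_mul_comm I ψ x i

/-- **the ideal is determined by the pair `(I⁻¹, incl)`**: `a ∈ I` iff `a • I⁻¹ ⊆ A • incl` -/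
theorem IsInvIdeal.mem_iff_forall_smul (hI : IsInvIdeal I) (a : A) :
    a ∈ I ↔ ∀ ψ : Module.Dual A I, ∃ b : A, a • ψ = b • (Submodule.subtype I : Module.Dual A I) := by
  constructor
  · intro ha ψ
    exact ⟨ψ ⟨a, ha⟩, smul_eq_apply_smul_subtype ψ ⟨a, ha⟩⟩
  · intro h
    let K : Ideal A :=
      { carrier := {r | r * a ∈ I}
        add_mem' := by
          intro r r' hr hr'
          change (r + r') * a ∈ I
          rw [add_mul]
          exact I.add_mem hr hr'
        zero_mem' := by
          change 0 * a ∈ I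
          rw [zero_mul]
          exact I.zero_mem
        smul_mem' := by
          intro c r hr
          change c • r * a ∈ I
          rw [smul_eq_mul, mul_assoc]
          exact I.mul_mem_left c hr }
    have hK : K = ⊤ := by
      apply hI.eq_top
      intro ψ x
      obtain ⟨b, hb⟩ := h ψ
      have := congrArg (fun φ : Module.Dual A I => φ x) hb
      simp only [LinearMap.smul_apply, smul_eq_mul, Submodule.subtype_apply] at this
      change ψ x * a ∈ I
      rw [mul_comm, this]
      exact I.mul_mem_left b x.2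
    have h1 : (1 : A) ∈ K := by rw [hK]; trivial
    have : 1 * a ∈ I := h1
    rwa [one_mul] at this

variable (I)

/-- in a ring, a divisor of `h ^ n` is a local generator of the ring on `D(h)` -/
theorem isLocGen_self_of_mul_eq_pow {S : Type*} [CommRing S] {h w y : S} {n : ℕ}
    (hy : w * y = h ^ n) : IsLocGen h w where
  gen x := ⟨n, x * y, by rw [smul_eq_mul, smul_eq_mul, ← hy]; ring⟩
  free a ha := by
    refine ⟨n, ?_⟩
    rw [smul_eq_mul] at ha
    rw [← hy, mul_comm w y, mul_comm, mul_left_comm, ha, mul_zero]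

end Comm

section Eval

variable {A S : Type*} [CommRing A] [CommRing S] (ρ : A →+* S) (I : Ideal A)

/-- the ideal of the `s` for which `s • (ρ ∘ ψ)` is a multiplication -/
def evalIdeal (ψ : Module.Dual A I) : Ideal S where
  carrier := {s | ∃ r : S, ∀ i : I, s * ρ (ψ i) = r * ρ i}
  add_mem' := by
    rintro s s' ⟨r, hr⟩ ⟨r', hr'⟩
    exact ⟨r + r', fun i => by rw [add_mul, add_mul, hr, hr']⟩
  zero_mem' := ⟨0, fun i => by rw [zero_mul, zero_mul]⟩
  smul_mem' := by
    rintro c s ⟨r, hr⟩
    exact ⟨c * r, fun i => by rw [smul_eq_mul, mul_assoc, hr, mul_assoc]⟩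

theorem map_le_evalIdeal (ψ : Module.Dual A I) : I.map ρ ≤ evalIdeal ρ I ψ := by
  rw [Ideal.map_le_iff_le_comap]
  intro x hx
  refine ⟨ρ (ψ ⟨x, hx⟩), fun i => ?_⟩
  rw [← map_mul, ← map_mul]
  congr 1
  have := dual_apply_mul_comm I ψ i ⟨x, hx⟩
  rw [mul_comm, this]

/-- the ideal of the `s` annihilating `r` -/
def annIdeal (r : S) : Ideal S where
  carrier := {s | s * r = 0}
  add_mem' := by
    intro s s' hs hs'
    change (s + s') * r = 0
    rw [add_mul, hs, hs', add_zero]
  zero_mem' := zero_mul r
  smul_mem' := by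
    intro c s hs
    change c • s * r = 0
    rw [smul_eq_mul, mul_assoc, hs, mul_zero]

variable {ρ I}

theorem exists_dualEval (hI : I.map ρ = ⊤) (ψ : Module.Dual A I) :
    ∃ r : S, ∀ i : I, ρ (ψ i) = r * ρ i := by
  have h1 : (1 : S) ∈ evalIdeal ρ I ψ := by
    apply map_le_evalIdeal
    rw [hI]
    trivial
  obtain ⟨r, hr⟩ := h1
  exact ⟨r, fun i => by rw [← hr, one_mul]⟩

theorem dualEval_unique' (hI : I.map ρ = ⊤) {r r' : S} (h : ∀ i : I, r * ρ i = r' * ρ i) :
    r = r' := by
  have hle : I.map ρ ≤ annIdeal (r - r') := by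
    rw [Ideal.map_le_iff_le_comap]
    intro x hx
    change ρ x * (r - r') = 0
    rw [mul_sub, mul_comm, h ⟨x, hx⟩, mul_comm, sub_self]
  have h1 : (1 : S) ∈ annIdeal (r - r') := by
    apply hle
    rw [hI]
    trivial
  have : 1 * (r - r') = 0 := h1
  rw [one_mul] at this
  exact sub_eq_zero.mp this

/-- **the evaluation of the dual of `I` in a ring where `I` becomes the unit ideal** -/
def dualEval (hI : I.map ρ = ⊤) : Module.Dual A I →+ S where
  toFun ψ := (exists_dualEval hI ψ).choose
  map_zero' := by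
    apply dualEval_unique' hI
    intro i
    rw [← (exists_dualEval hI (0 : Module.Dual A I)).choose_spec i, LinearMap.zero_apply, map_zero,
      zero_mul]
  map_add' ψ ψ' := by
    apply dualEval_unique' hI
    intro i
    rw [← (exists_dualEval hI (ψ + ψ')).choose_spec i, add_mul,
      ← (exists_dualEval hI ψ).choose_spec i, ← (exists_dualEval hI ψ').choose_spec i,
      LinearMap.add_apply, map_add]

theorem dualEval_spec (hI : I.map ρ = ⊤) (ψ : Module.Dual A I) (i : I) :
    ρ (ψ i) = dualEval hI ψ * ρ i :=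
  (exists_dualEval hI ψ).choose_spec i

theorem dualEval_unique (hI : I.map ρ = ⊤) (ψ : Module.Dual A I) {r : S}
    (h : ∀ i : I, ρ (ψ i) = r * ρ i) : dualEval hI ψ = r :=
  dualEval_unique' hI fun i => by rw [← dualEval_spec, h]

theorem dualEval_smul (hI : I.map ρ = ⊤) (a : A) (ψ : Module.Dual A I) :
    dualEval hI (a • ψ) = ρ a * dualEval hI ψ := by
  apply dualEval_unique
  intro i
  rw [LinearMap.smul_apply, smul_eq_mul, map_mul, dualEval_spec hI, mul_assoc]

/-- the inclusion `I ⊆ A` evaluates to `1` -/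
theorem dualEval_subtype (hI : I.map ρ = ⊤) :
    dualEval hI (Submodule.subtype I : Module.Dual A I) = 1 := by
  apply dualEval_unique
  intro i
  rw [one_mul]
  rfl

end Eval

section Equiv

variable {A B : Type*} [CommRing A] [CommRing B] (e : A ≃+* B) (I : Ideal A)

/-- transport of a linear form on an ideal along a ring isomorphism -/
def dualOfEquiv (ψ : Module.Dual A I) : Module.Dual B (I.map (e : A →+* B)) where
  toFun y := e (ψ ⟨e.symm y, Ideal.symm_apply_mem_of_equiv_iff.mpr y.2⟩)
  map_add' y y' := by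
    rw [← map_add, ← map_add]
    congr 2
    apply Subtype.ext
    change e.symm ((y : B) + (y' : B)) = e.symm y + e.symm y'
    exact map_add _ _ _
  map_smul' b y := by
    rw [RingHom.id_apply, smul_eq_mul]
    have h : (⟨e.symm ((b • y : I.map (e : A →+* B)) : B),
        Ideal.symm_apply_mem_of_equiv_iff.mpr (b • y).2⟩ : I) =
        e.symm b • ⟨e.symm y, Ideal.symm_apply_mem_of_equiv_iff.mpr y.2⟩ := by
      apply Subtype.ext
      change e.symm (b * (y : B)) = e.symm b * e.symm y
      exact map_mul _ _ _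
    rw [h, map_smul, smul_eq_mul, map_mul, e.apply_symm_apply]

theorem dualOfEquiv_apply (ψ : Module.Dual A I) (x : I) :
    dualOfEquiv e I ψ ⟨e x, Ideal.mem_map_of_mem (e : A →+* B) x.2⟩ = e (ψ x) := by
  change e (ψ ⟨e.symm (e x), _⟩) = e (ψ x)
  congr 2
  apply Subtype.ext
  exact e.symm_apply_apply _

/-- **the trace condition is stable under ring isomorphisms** -/
theorem IsInvIdeal.map_equiv {I : Ideal A} (hI : IsInvIdeal I) :
    IsInvIdeal (I.map (e : A →+* B)) := by
  have h1 : (Ideal.span (Set.range fun p : Module.Dual B (I.map (e : A →+* B)) ×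
      (I.map (e : A →+* B)) => p.1 p.2)).comap (e : A →+* B) = ⊤ := by
    apply hI.eq_top
    intro ψ x
    rw [Ideal.mem_comap]
    apply Ideal.subset_span
    exact ⟨(dualOfEquiv e I ψ, ⟨e x, Ideal.mem_map_of_mem (e : A →+* B) x.2⟩),
      dualOfEquiv_apply e I ψ x⟩
  unfold IsInvIdeal
  rw [Ideal.eq_top_iff_one]
  have h2 : (1 : A) ∈ (Ideal.span (Set.range fun p : Module.Dual B (I.map (e : A →+* B)) ×
      (I.map (e : A →+* B)) => p.1 p.2)).comap (e : A →+* B) := by
    rw [h1]; trivial
  rw [Ideal.mem_comap] at h2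
  simpa using h2

end Equiv

section Map

variable {A A' : Type*} [CommRing A] [CommRing A'] (α : A →+* A') (I : Ideal A)

/-- the presentation `⨁_{i ∈ I} A' → I A'` -/
def mapPres : (I →₀ A') →ₗ[A'] A' := Finsupp.linearCombination A' (fun i : I => α i)

/-- the linear form `⨁_{i ∈ I} A' → A'` induced by a linear form on `I` -/
def mapForm (ψ : Module.Dual A I) : (I →₀ A') →ₗ[A'] A' :=
  Finsupp.linearCombination A' (fun i : I => α (ψ i))

theorem mapPres_single (i : I) (a' : A') : mapPres α I (Finsupp.single i a') = a' * α i := by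
  unfold mapPres
  rw [Finsupp.linearCombination_single, smul_eq_mul]

theorem mapForm_single (ψ : Module.Dual A I) (i : I) (a' : A') :
    mapForm α I ψ (Finsupp.single i a') = a' * α (ψ i) := by
  unfold mapForm
  rw [Finsupp.linearCombination_single, smul_eq_mul]

theorem range_mapPres : LinearMap.range (mapPres α I) = I.map α := by
  unfold mapPres
  rw [Finsupp.range_linearCombination]
  change Ideal.span _ = Ideal.span _
  congr 1
  ext x
  constructor
  · rintro ⟨i, rfl⟩
    exact ⟨i, i.2, rfl⟩
  · rintro ⟨i, hi, rfl⟩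
    exact ⟨⟨i, hi⟩, rfl⟩

theorem mapPres_mem (t : I →₀ A') : mapPres α I t ∈ I.map α := by
  rw [← range_mapPres]
  exact ⟨t, rfl⟩

theorem mapForm_mul (ψ : Module.Dual A I) (y : I) (t : I →₀ A') :
    α y * mapForm α I ψ t = α (ψ y) * mapPres α I t := by
  induction t using Finsupp.induction_linear with
  | zero => rw [map_zero, map_zero, mul_zero, mul_zero]
  | add t t' ht ht' => rw [map_add, map_add, mul_add, mul_add, ht, ht']
  | single i a' =>
    rw [mapForm_single, mapPres_single]
    have h := congrArg α (dual_apply_mul_comm I ψ i y)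
    rw [map_mul, map_mul] at h
    rw [mul_left_comm, mul_comm (α y), h, mul_left_comm]

variable (hI' : IsInvIdeal (I.map α))

include hI' in
theorem mapForm_eq_zero (ψ : Module.Dual A I) (t : I →₀ A') (ht : mapPres α I t = 0) :
    mapForm α I ψ t = 0 := by
  have h1 : ∀ y : I, α y * mapForm α I ψ t = 0 := fun y => by rw [mapForm_mul, ht, mul_zero]
  have h2 : ∀ x' ∈ I.map α, x' * mapForm α I ψ t = 0 := by
    intro x' hx'
    refine Submodule.span_induction ?_ ?_ ?_ ?_ hx'
    · rintro _ ⟨y, hy, rfl⟩
      exact h1 ⟨y, hy⟩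
    · exact zero_mul _
    · intro x y _ _ hx hy
      rw [add_mul, hx, hy, add_zero]
    · intro c x _ hx
      rw [smul_eq_mul, mul_assoc, hx, mul_zero]
  apply hI'.eq_zero_of_forall_mul
  intro x'
  rw [mul_comm]
  exact h2 x' x'.2

include hI' in
theorem mapForm_eq_of_eq (ψ : Module.Dual A I) {t t' : I →₀ A'}
    (h : mapPres α I t = mapPres α I t') : mapForm α I ψ t = mapForm α I ψ t' := by
  have := mapForm_eq_zero α I hI' ψ (t - t') (by rw [map_sub, h, sub_self])
  rw [map_sub] at this
  exact sub_eq_zero.mp this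

/-- a chosen preimage under the presentation -/
def mapLift (x' : I.map α) : I →₀ A' :=
  (show (x' : A') ∈ LinearMap.range (mapPres α I) by rw [range_mapPres]; exact x'.2).choose

theorem mapPres_mapLift (x' : I.map α) : mapPres α I (mapLift α I x') = x' :=
  (show (x' : A') ∈ LinearMap.range (mapPres α I) by rw [range_mapPres]; exact x'.2).choose_spec

/-- **the base change of a linear form on `I` to `I A'`** -/
def dualMapForm (ψ : Module.Dual A I) : Module.Dual A' (I.map α) where
  toFun x' := mapForm α I ψ (mapLift α I x')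
  map_add' x' y' := by
    rw [← map_add]
    apply mapForm_eq_of_eq α I hI'
    rw [map_add, mapPres_mapLift, mapPres_mapLift, mapPres_mapLift]
    rfl
  map_smul' c x' := by
    rw [RingHom.id_apply, ← map_smul]
    apply mapForm_eq_of_eq α I hI'
    rw [map_smul, mapPres_mapLift, mapPres_mapLift]
    rfl

theorem dualMapForm_eq (ψ : Module.Dual A I) (x' : I.map α) (t : I →₀ A')
    (ht : mapPres α I t = x') : dualMapForm α I hI' ψ x' = mapForm α I ψ t := by
  change mapForm α I ψ (mapLift α I x') = _
  apply mapForm_eq_of_eq α I hI'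
  rw [mapPres_mapLift, ht]

/-- `dualMapForm ψ (α i) = α (ψ i)` -/
theorem dualMapForm_apply (ψ : Module.Dual A I) (i : I) :
    dualMapForm α I hI' ψ ⟨α i, Ideal.mem_map_of_mem α i.2⟩ = α (ψ i) := by
  rw [dualMapForm_eq α I hI' ψ _ (Finsupp.single i 1) (by rw [mapPres_single, one_mul]),
    mapForm_single, one_mul]

/-- a linear form on `I A'` is determined by its values on `α I` -/
theorem dual_map_ext {ψ' ψ'' : Module.Dual A' (I.map α)}
    (h : ∀ i : I, ψ' ⟨α i, Ideal.mem_map_of_mem α i.2⟩ = ψ'' ⟨α i, Ideal.mem_map_of_mem α i.2⟩) :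
    ψ' = ψ'' := by
  apply LinearMap.ext
  rintro ⟨x', hx'⟩
  obtain ⟨t, ht⟩ : x' ∈ LinearMap.range (mapPres α I) := by rw [range_mapPres]; exact hx'
  subst ht
  induction t using Finsupp.induction_linear with
  | zero =>
    have : (⟨mapPres α I 0, hx'⟩ : I.map α) = 0 := Subtype.ext (map_zero _)
    rw [this, map_zero, map_zero]
  | add t t' ht ht' =>
    have : (⟨mapPres α I (t + t'), hx'⟩ : I.map α) =
        ⟨mapPres α I t, mapPres_mem α I t⟩ + ⟨mapPres α I t', mapPres_mem α I t'⟩ :=
      Subtype.ext (map_add _ _ _)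
    rw [this, map_add, map_add, ht, ht']
  | single i a' =>
    have : (⟨mapPres α I (Finsupp.single i a'), hx'⟩ : I.map α) =
        a' • ⟨α i, Ideal.mem_map_of_mem α i.2⟩ := Subtype.ext (mapPres_single α I i a')
    rw [this, map_smul, map_smul, h]

/-- **the base change of linear forms**, as an additive map -/
def dualMap : Module.Dual A I →+ Module.Dual A' (I.map α) where
  toFun := dualMapForm α I hI'
  map_zero' := by
    apply dual_map_ext
    intro i
    rw [dualMapForm_apply, LinearMap.zero_apply, LinearMap.zero_apply, map_zero]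
  map_add' ψ ψ' := by
    apply dual_map_ext
    intro i
    rw [LinearMap.add_apply, dualMapForm_apply, dualMapForm_apply, dualMapForm_apply,
      LinearMap.add_apply, map_add]

theorem dualMap_apply (ψ : Module.Dual A I) (i : I) :
    dualMap α I hI' ψ ⟨α i, Ideal.mem_map_of_mem α i.2⟩ = α (ψ i) :=
  dualMapForm_apply α I hI' ψ i

theorem dualMap_smul (a : A) (ψ : Module.Dual A I) :
    dualMap α I hI' (a • ψ) = α a • dualMap α I hI' ψ := by
  apply dual_map_ext
  intro i
  rw [dualMap_apply, LinearMap.smul_apply, LinearMap.smul_apply, dualMap_apply, smul_eq_mul,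
    smul_eq_mul, map_mul]

/-- the inclusion is mapped to the inclusion -/
theorem dualMap_subtype :
    dualMap α I hI' (Submodule.subtype I : Module.Dual A I) =
      (Submodule.subtype (I.map α) : Module.Dual A' (I.map α)) := by
  apply dual_map_ext
  intro i
  rw [dualMap_apply]
  rfl

/-- local generators taking a value `h ^ n` are mapped to local generators -/
theorem isLocGen_dualMap {h : A} {ψ : Module.Dual A I} (y : I) (n : ℕ) (hy : ψ y = h ^ n) :
    IsLocGen (α h) (dualMap α I hI' ψ) :=
  isLocGen_dual_of_apply_eq_pow (I.map α) ⟨α y, Ideal.mem_map_of_mem α y.2⟩ n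
    (by rw [dualMap_apply, hy, map_pow])

/-- for invertible `I`: local generators of the dual are mapped to local generators -/
theorem IsLocGen.dualMap (hI : IsInvIdeal I) {h : A} {ψ : Module.Dual A I}
    (hψ : IsLocGen h ψ) : IsLocGen (α h) (dualMap α I hI' ψ) := by
  obtain ⟨y, n, hy⟩ := exists_apply_eq_pow_of_isLocGen hI hψ
  exact isLocGen_dualMap α I hI' y n hy

end Map

section EvalMap

variable {A A' S S' : Type*} [CommRing A] [CommRing A'] [CommRing S] [CommRing S']
  {ρ : A →+* S} {ρ' : A' →+* S'} (α : A →+* A') (β : S →+* S') (I : Ideal A)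
  (hI' : IsInvIdeal (I.map α))

/-- evaluation commutes with base change -/
theorem dualEval_dualMap (hsq : ρ'.comp α = β.comp ρ) (hI : I.map ρ = ⊤)
    (hIρ' : (I.map α).map ρ' = ⊤) (ψ : Module.Dual A I) :
    dualEval hIρ' (dualMap α I hI' ψ) = β (dualEval hI ψ) := by
  -- both sides are `r` with `ρ' (dualMap ψ x') = r * ρ' x'`; enough on `x' = α i`
  apply dualEval_unique' hIρ'
  intro x'
  rw [← dualEval_spec hIρ']
  obtain ⟨x', hx'⟩ := x'
  have key : ∀ i : I, ρ' (dualMap α I hI' ψ ⟨α i, Ideal.mem_map_of_mem α i.2⟩) =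
      β (dualEval hI ψ) * ρ' (α i) := by
    intro i
    rw [dualMap_apply]
    have h1 : ρ' (α (ψ i)) = β (ρ (ψ i)) := congr($hsq (ψ i))
    have h2 : ρ' (α i) = β (ρ i) := congr($hsq i)
    rw [h1, h2, dualEval_spec hI, map_mul]
  obtain ⟨t, ht⟩ : x' ∈ LinearMap.range (mapPres α I) := by rw [range_mapPres]; exact hx'
  subst ht
  induction t using Finsupp.induction_linear with
  | zero =>
    have : (⟨mapPres α I 0, hx'⟩ : I.map α) = 0 := Subtype.ext (map_zero _)
    rw [this, map_zero, map_zero]
    change (0 : S') = _ * ρ' ((0 : I.map α) : A')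
    rw [Submodule.coe_zero, map_zero, mul_zero]
  | add t t' ht ht' =>
    have e : (⟨mapPres α I (t + t'), hx'⟩ : I.map α) =
        ⟨mapPres α I t, mapPres_mem α I t⟩ + ⟨mapPres α I t', mapPres_mem α I t'⟩ :=
      Subtype.ext (map_add _ _ _)
    rw [e, map_add, map_add, ht (mapPres_mem α I t), ht' (mapPres_mem α I t')]
    change _ = _ * ρ' (mapPres α I t + mapPres α I t')
    rw [map_add, mul_add]
  | single i a' =>
    have e : (⟨mapPres α I (Finsupp.single i a'), hx'⟩ : I.map α) =
        a' • ⟨α i, Ideal.mem_map_of_mem α i.2⟩ := Subtype.ext (mapPres_single α I i a')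
    rw [e, map_smul, smul_eq_mul, map_mul, key]
    change _ = _ * ρ' (a' * α i)
    rw [map_mul]
    ring

end EvalMap

end Fermat.Agent.S25lib.Sec
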