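/-
S25lib / Sec / OD  (helper6)  --  Project L (S25), block `Sec/**`: **the module `O(D_I)`.**
`𝒱 : Charts X` (two affine opens covering `X` with affine overlap), `I` an INVERTIBLE ideal of `Γ(X, V false)`
which becomes the unit ideal on the overlap `V false ⊓ V true` (the closed subscheme `D_I = V(I)` of `V false`
does not meet `V true`).  `OD 𝒱 I hinv hI` is the module glued from `I⁻¹ = Hom(I, Γ(X, V false))` on `V false` and the
structure sheaf on `V true`: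
* `isInvertible_OD`; sections over `V false` are `I⁻¹` (`OD_θ_bijective`);
* `OD.one : Γ(OD, V true)` generator; `OD.sD : Γ(OD, ⊤)` the canonical global section (`= 1 ∈ I⁻¹` on `V false`,
  `= one` on `V true`);
* `OD.exists_iso_unit`: trivial along every morphism landing in `V true` (rigidification);
* `OD.exists_pullback_iso`: **base change** `f^* O(D_I) ≅ O(D_{I'})` for `I' = I·Γ(X', V' false)` invertible,
  mapping `sD` to `sD`.
-/
import Fermat.Agent.S25lib.Sec.OneSidedRecog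
import Fermat.Agent.S25lib.Sec.DualIdeal

set_option autoImplicit false

noncomputable section

universe u

open AlgebraicGeometry CategoryTheory TopologicalSpace

namespace Fermat.Agent.S25lib.Sec

open Fermat.Agent.S25lib.Mod (resO resO_self resO_resO resO_mul resO_one resO_add)

variable {X : Scheme.{u}}

section Def

variable (𝒱 : Charts X) (I : Ideal Γ(X, 𝒱.V false)) (hinv : IsInvIdeal I)
  (hI : I.map (resHom (inf_le_left : 𝒱.V false ⊓ 𝒱.V true ≤ 𝒱.V false)) = ⊤)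

/-- **the one-sided data of `O(D_I)`**: `I⁻¹` on the first chart, trivialised on the overlap by evaluation -/
def TrivData.ofIdeal : TrivData 𝒱 where
  W₁ := ModuleCat.of Γ(X, 𝒱.V false) (Module.Dual Γ(X, 𝒱.V false) I)
  span := hinv.span_isLocGen
  τ := dualEval hI
  τ_smul a ψ := dualEval_smul hI a ψ
  gen h ψ hψ := by
    obtain ⟨y, n, hy⟩ := exists_apply_eq_pow_of_isLocGen hinv hψ
    apply isLocGen_self_of_mul_eq_pow (y := resO inf_le_left (y : Γ(X, 𝒱.V false))) (n := n)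
    have := dualEval_spec hI ψ y
    rw [hy] at this
    rw [← resHom_apply, ← resHom_apply, ← this, map_pow]

/-- **the module `O(D_I)`** -/
def OD : X.Modules := (TrivData.ofIdeal 𝒱 I hinv hI).synth

theorem isInvertible_OD : Scheme.Modules.IsInvertible (OD 𝒱 I hinv hI) :=
  (TrivData.ofIdeal 𝒱 I hinv hI).glueData.isInvertible_synth

namespace OD

/-- the section of `O(D_I)` over the first chart defined by a linear form on `I` -/
def θ (ψ : Module.Dual Γ(X, 𝒱.V false) I) : Γ(OD 𝒱 I hinv hI, 𝒱.V false) :=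
  (TrivData.ofIdeal 𝒱 I hinv hI).glueData.θ false (𝒱.V false) le_rfl ψ

theorem θ_bijective : Function.Bijective (θ 𝒱 I hinv hI) :=
  (TrivData.ofIdeal 𝒱 I hinv hI).glueData.θ_bijective false

theorem θ_add (ψ ψ' : Module.Dual Γ(X, 𝒱.V false) I) :
    θ 𝒱 I hinv hI (ψ + ψ') = θ 𝒱 I hinv hI ψ + θ 𝒱 I hinv hI ψ' :=
  (TrivData.ofIdeal 𝒱 I hinv hI).glueData.θ_add false _ _ ψ ψ'

theorem θ_smul (a : Γ(X, 𝒱.V false)) (ψ : Module.Dual Γ(X, 𝒱.V false) I) :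
    θ 𝒱 I hinv hI (a • ψ) = a • θ 𝒱 I hinv hI ψ := by
  have := (TrivData.ofIdeal 𝒱 I hinv hI).glueData.θ_smul false (𝒱.V false) le_rfl a ψ
  rw [resO_self] at this
  exact this

/-- the canonical generator over the second chart -/
def one : Γ(OD 𝒱 I hinv hI, 𝒱.V true) := (TrivData.ofIdeal 𝒱 I hinv hI).one

theorem isGen_one : Mod.IsGen (OD 𝒱 I hinv hI) (𝒱.V true) (one 𝒱 I hinv hI) :=
  (TrivData.ofIdeal 𝒱 I hinv hI).isGen_one

/-- on the overlap, `θ ψ = (ψ / 1) • one` -/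
theorem res_θ (ψ : Module.Dual Γ(X, 𝒱.V false) I) :
    Mod.res (OD 𝒱 I hinv hI) (inf_le_left : 𝒱.V false ⊓ 𝒱.V true ≤ 𝒱.V false) (θ 𝒱 I hinv hI ψ) =
      dualEval hI ψ •
        Mod.res (OD 𝒱 I hinv hI) (inf_le_right : 𝒱.V false ⊓ 𝒱.V true ≤ 𝒱.V true) (one 𝒱 I hinv hI) := by
  set E := TrivData.ofIdeal 𝒱 I hinv hI with hE
  change Mod.res E.synth _ (E.glueData.θ false (𝒱.V false) le_rfl ψ) =
    dualEval hI ψ • Mod.res E.synth _ (E.glueData.θ true (𝒱.V true) le_rfl (1 : Γ(X, 𝒱.V true)))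
  rw [GlueData.θ_res, GlueData.θ_res,
    E.glueData.θ_eq_θ₁₂ false (𝒱.V false ⊓ 𝒱.V true) le_rfl,
    E.glueData.θ_eq_θ₁₂ true (𝒱.V false ⊓ 𝒱.V true) le_rfl]
  have h1 : E.glueData.ρ true (1 : Γ(X, 𝒱.V true)) = (1 : Γ(X, 𝒱.V false ⊓ 𝒱.V true)) :=
    resO_one _
  have h2 : E.glueData.ρ false ψ = dualEval hI ψ • (1 : Γ(X, 𝒱.V false ⊓ 𝒱.V true)) := by
    rw [smul_eq_mul, mul_one]
    rfl
  rw [h1, h2]
  have := E.glueData.θ₁₂_smul (𝒱.V false ⊓ 𝒱.V true) le_rfl (dualEval hI ψ)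
    (1 : Γ(X, 𝒱.V false ⊓ 𝒱.V true))
  rw [resO_self] at this
  exact this

/-- **the canonical global section** of `O(D_I)` -/
def sD : Γ(OD 𝒱 I hinv hI, ⊤) :=
  (TrivData.ofIdeal 𝒱 I hinv hI).glob (Submodule.subtype I) (dualEval_subtype hI)

theorem sD_res_false :
    Mod.res (OD 𝒱 I hinv hI) le_top (sD 𝒱 I hinv hI) = θ 𝒱 I hinv hI (Submodule.subtype I) :=
  (TrivData.ofIdeal 𝒱 I hinv hI).glob_res_false _ _

theorem sD_res_true : Mod.res (OD 𝒱 I hinv hI) le_top (sD 𝒱 I hinv hI) = one 𝒱 I hinv hI :=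
  (TrivData.ofIdeal 𝒱 I hinv hI).glob_res_true _ _

/-- **the ideal is determined by `(O(D_I), sD)`**: `a ∈ I` iff `a • Γ(O(D_I), V false) ⊆ Γ(X, V false) • sD` -/
theorem mem_iff (a : Γ(X, 𝒱.V false)) :
    a ∈ I ↔ ∀ w : Γ(OD 𝒱 I hinv hI, 𝒱.V false), ∃ b : Γ(X, 𝒱.V false),
      a • w = b • Mod.res (OD 𝒱 I hinv hI) le_top (sD 𝒱 I hinv hI) := by
  rw [hinv.mem_iff_forall_smul, sD_res_false]
  constructor
  · intro h w
    obtain ⟨ψ, rfl⟩ := (θ_bijective 𝒱 I hinv hI).2 w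
    obtain ⟨b, hb⟩ := h ψ
    exact ⟨b, by rw [← θ_smul, ← θ_smul, hb]⟩
  · intro h ψ
    obtain ⟨b, hb⟩ := h (θ 𝒱 I hinv hI ψ)
    refine ⟨b, (θ_bijective 𝒱 I hinv hI).1 ?_⟩
    rw [θ_smul, θ_smul, hb]

/-- **recognition of `O(D_I)`**: an invertible module `M` with a semilinear bijection
`σ : I⁻¹ → Γ(M, V false)` and a generator `s₂` over `V true` agreeing with `σ incl` on the overlap -/
theorem exists_iso_of_section (M : X.Modules) (hM : Scheme.Modules.IsInvertible M)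
    (σ : Module.Dual Γ(X, 𝒱.V false) I →+ Γ(M, 𝒱.V false))
    (σ_smul : ∀ (a : Γ(X, 𝒱.V false)) (ψ : Module.Dual Γ(X, 𝒱.V false) I), σ (a • ψ) = a • σ ψ)
    (hbij : Function.Bijective σ) (s₂ : Γ(M, 𝒱.V true)) (hs₂ : Mod.IsGen M (𝒱.V true) s₂)
    (hσs : Mod.res M (inf_le_left : 𝒱.V false ⊓ 𝒱.V true ≤ 𝒱.V false)
        (σ (Submodule.subtype I)) =
      Mod.res M (inf_le_right : 𝒱.V false ⊓ 𝒱.V true ≤ 𝒱.V true) s₂) :
    ∃ e : OD 𝒱 I hinv hI ≅ M,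
      (∀ ψ, e.hom.app (𝒱.V false) (θ 𝒱 I hinv hI ψ) = σ ψ) ∧
      e.hom.app (𝒱.V true) (one 𝒱 I hinv hI) = s₂ ∧
      ∀ s : Γ(M, ⊤), Mod.res M le_top s = σ (Submodule.subtype I) → Mod.res M le_top s = s₂ →
        e.hom.app ⊤ (sD 𝒱 I hinv hI) = s := by
  have hcomm : ∀ ψ : Module.Dual Γ(X, 𝒱.V false) I,
      Mod.res M (inf_le_left : 𝒱.V false ⊓ 𝒱.V true ≤ 𝒱.V false) (σ ψ) =
        dualEval hI ψ • Mod.res M (inf_le_right : 𝒱.V false ⊓ 𝒱.V true ≤ 𝒱.V true) s₂ := by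
    intro ψ
    -- the difference is killed by `res i`, `i ∈ I`, and these generate the unit ideal
    set d := Mod.res M (inf_le_left : 𝒱.V false ⊓ 𝒱.V true ≤ 𝒱.V false) (σ ψ) -
      dualEval hI ψ • Mod.res M (inf_le_right : 𝒱.V false ⊓ 𝒱.V true ≤ 𝒱.V true) s₂ with hd
    have hkill : ∀ i : I, resO (inf_le_left : 𝒱.V false ⊓ 𝒱.V true ≤ 𝒱.V false) (i : Γ(X, 𝒱.V false)) •
        d = 0 := by
      intro i
      have h1 : (i : Γ(X, 𝒱.V false)) • σ ψ = ψ i • σ (Submodule.subtype I) := by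
        rw [← σ_smul, ← σ_smul, smul_eq_apply_smul_subtype]
      have h2 := congrArg (Mod.res M (inf_le_left : 𝒱.V false ⊓ 𝒱.V true ≤ 𝒱.V false)) h1
      rw [Mod.res_smul, Mod.res_smul, hσs] at h2
      rw [hd, smul_sub, h2, smul_smul, ← resHom_apply, ← resHom_apply, dualEval_spec hI ψ i,
        mul_comm, sub_self]
    let K : Ideal Γ(X, 𝒱.V false ⊓ 𝒱.V true) :=
      { carrier := {r | r • d = 0}
        add_mem' := by
          intro r r' hr hr'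
          change (r + r') • d = 0
          rw [add_smul, hr, hr', add_zero]
        zero_mem' := zero_smul _ _
        smul_mem' := by
          intro c r hr
          change (c • r) • d = 0
          rw [smul_eq_mul, mul_smul, hr, smul_zero] }
    have hK : (1 : Γ(X, 𝒱.V false ⊓ 𝒱.V true)) ∈ K := by
      have hle : I.map (resHom (inf_le_left : 𝒱.V false ⊓ 𝒱.V true ≤ 𝒱.V false)) ≤ K := by
        rw [Ideal.map_le_iff_le_comap]
        intro x hx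
        exact hkill ⟨x, hx⟩
      apply hle
      rw [hI]
      trivial
    have : (1 : Γ(X, 𝒱.V false ⊓ 𝒱.V true)) • d = 0 := hK
    rw [one_smul] at this
    exact sub_eq_zero.mp this
  obtain ⟨e, he1, he2⟩ := (TrivData.ofIdeal 𝒱 I hinv hI).exists_iso_of_bijective M σ s₂ hM
    σ_smul hcomm hs₂ hbij
  refine ⟨e, he1, he2, ?_⟩
  intro s hs1 hs2
  apply Mod.eq_of_res_eq M 𝒱.V ⊤ (fun _ => le_top)
  · rw [← 𝒱.cover]
    exact sup_le (le_iSup 𝒱.V false) (le_iSup 𝒱.V true)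
  · intro b
    rw [← Mod.app_res]
    cases b
    · rw [sD_res_false, hs1]
      exact he1 _
    · rw [sD_res_true, hs2]
      exact he2

/-- **rigidification**: `O(D_I)` is trivial along every morphism landing in the second chart -/
theorem exists_iso_unit {T : Scheme.{u}} (ε : T ⟶ X) (h : ε ⁻¹ᵁ 𝒱.V true = ⊤) :
    Nonempty ((Scheme.Modules.pullback ε).obj (OD 𝒱 I hinv hI) ≅
      SheafOfModules.unit T.ringCatSheaf) :=
  (TrivData.ofIdeal 𝒱 I hinv hI).exists_iso_unit ε h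

end OD

end Def

section Shrink

/-- the charts defined by a pair of affine opens -/
def Charts.ofPair (V₁ V₂ : X.Opens) (h₁ : IsAffineOpen V₁) (h₂ : IsAffineOpen V₂)
    (h₁₂ : IsAffineOpen (V₁ ⊓ V₂)) (hcov : V₁ ⊔ V₂ = ⊤) : Charts X where
  V b := bif b then V₂ else V₁
  aff b := by
    cases b
    · exact h₁
    · exact h₂
  aff₁₂ := h₁₂
  cover := hcov

variable (V₁ V₂ V₂' : X.Opens) (h₁ : IsAffineOpen V₁) (h₂ : IsAffineOpen V₂)
  (h₁₂ : IsAffineOpen (V₁ ⊓ V₂)) (hcov : V₁ ⊔ V₂ = ⊤) (h₂' : IsAffineOpen V₂')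
  (h₁₂' : IsAffineOpen (V₁ ⊓ V₂')) (hcov' : V₁ ⊔ V₂' = ⊤) (hle : V₂' ≤ V₂)
  (I : Ideal Γ(X, V₁)) (hinv : IsInvIdeal I)
  (hI : I.map (resHom (inf_le_left : V₁ ⊓ V₂ ≤ V₁)) = ⊤)
  (hI' : I.map (resHom (inf_le_left : V₁ ⊓ V₂' ≤ V₁)) = ⊤)

include hle in
/-- **shrinking the second chart does not change `O(D_I)`** -/
theorem OD.exists_shrink_iso :
    ∃ e : OD (Charts.ofPair V₁ V₂' h₁ h₂' h₁₂' hcov') I hinv hI' ≅
        OD (Charts.ofPair V₁ V₂ h₁ h₂ h₁₂ hcov) I hinv hI,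
      e.hom.app ⊤ (OD.sD (Charts.ofPair V₁ V₂' h₁ h₂' h₁₂' hcov') I hinv hI') =
        OD.sD (Charts.ofPair V₁ V₂ h₁ h₂ h₁₂ hcov) I hinv hI := by
  let 𝒱 := Charts.ofPair V₁ V₂ h₁ h₂ h₁₂ hcov
  let 𝒱' := Charts.ofPair V₁ V₂' h₁ h₂' h₁₂' hcov'
  let M := OD 𝒱 I hinv hI
  have hle₁₂ : V₁ ⊓ V₂' ≤ V₁ ⊓ V₂ := inf_le_inf le_rfl hle
  have hcomm : ∀ ψ : Module.Dual Γ(X, V₁) I,
      Mod.res M (inf_le_left : V₁ ⊓ V₂' ≤ V₁) (OD.θ 𝒱 I hinv hI ψ) =
        dualEval hI' ψ • Mod.res M (inf_le_right : V₁ ⊓ V₂' ≤ V₂')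
          (Mod.res M hle (OD.one 𝒱 I hinv hI)) := by
    intro ψ
    have h1 : Mod.res M hle₁₂ (Mod.res M (inf_le_left : V₁ ⊓ V₂ ≤ V₁) (OD.θ 𝒱 I hinv hI ψ)) =
        resO hle₁₂ (dualEval hI ψ) •
          Mod.res M hle₁₂ (Mod.res M (inf_le_right : V₁ ⊓ V₂ ≤ V₂) (OD.one 𝒱 I hinv hI)) :=
      (congrArg (Mod.res M hle₁₂) (OD.res_θ 𝒱 I hinv hI ψ)).trans
        (Mod.res_smul M hle₁₂ (dualEval hI ψ) _)
    rw [Mod.res_res, Mod.res_res] at h1
    rw [Mod.res_res, h1]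
    congr 1
    symm
    apply dualEval_unique
    intro i
    rw [← resHom_apply, ← resHom_comp (inf_le_left : V₁ ⊓ V₂ ≤ V₁) hle₁₂]
    change resO hle₁₂ (resO _ (ψ i)) = resO hle₁₂ _ * resO hle₁₂ (resO _ (i : Γ(X, V₁)))
    rw [← resO_mul]
    congr 1
    exact dualEval_spec hI ψ i
  obtain ⟨e, he1, he2⟩ := (TrivData.ofIdeal 𝒱' I hinv hI').exists_iso_of_bijective M
    { toFun := OD.θ 𝒱 I hinv hI
      map_zero' := by
        have := OD.θ_add 𝒱 I hinv hI 0 0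
        rw [add_zero] at this
        exact left_eq_add.mp this
      map_add' := OD.θ_add 𝒱 I hinv hI }
    (Mod.res M hle (OD.one 𝒱 I hinv hI))
    (isInvertible_OD 𝒱 I hinv hI)
    (fun a ψ => OD.θ_smul 𝒱 I hinv hI a ψ)
    hcomm
    ((OD.isGen_one 𝒱 I hinv hI).res hle)
    (OD.θ_bijective 𝒱 I hinv hI)
  refine ⟨e, ?_⟩
  apply Mod.eq_of_res_eq M 𝒱'.V ⊤ (fun _ => le_top)
  · rw [← 𝒱'.cover]
    exact sup_le (le_iSup 𝒱'.V false) (le_iSup 𝒱'.V true)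
  · intro b
    rw [← Mod.app_res]
    cases b
    · rw [OD.sD_res_false]
      refine (he1 _).trans ?_
      exact (OD.sD_res_false 𝒱 I hinv hI).symm
    · rw [OD.sD_res_true]
      refine he2.trans ?_
      have := congrArg (Mod.res M hle) (OD.sD_res_true 𝒱 I hinv hI)
      exact this.symm.trans (Mod.res_res M (le_top : V₂ ≤ ⊤) hle _)

end Shrink

section Pull

variable {X' : Scheme.{u}} (f : X' ⟶ X) (𝒱 : Charts X) (𝒱' : Charts X')
  (hV : ∀ b, 𝒱'.V b ≤ f ⁻¹ᵁ 𝒱.V b)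
  (I : Ideal Γ(X, 𝒱.V false)) (hinv : IsInvIdeal I)
  (hI : I.map (resHom (inf_le_left : 𝒱.V false ⊓ 𝒱.V true ≤ 𝒱.V false)) = ⊤)

/-- the commutative square of restriction and pullback of functions -/
theorem resHom_comp_aLE :
    (resHom (inf_le_left : 𝒱'.V false ⊓ 𝒱'.V true ≤ 𝒱'.V false)).comp
        (aLE f (𝒱.V false) (𝒱'.V false) (hV false)) =
      (aLE f (𝒱.V false ⊓ 𝒱.V true) (𝒱'.V false ⊓ 𝒱'.V true)
        (inf_le_inf (hV false) (hV true))).comp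
        (resHom (inf_le_left : 𝒱.V false ⊓ 𝒱.V true ≤ 𝒱.V false)) := by
  ext r
  rw [RingHom.comp_apply, RingHom.comp_apply, resHom_apply, resHom_apply, resO_aLE, aLE_resO]

/-- `⊤ ≤ f ⁻¹ᵁ ⊤` -/
theorem top_le_preimage_top : (⊤ : X'.Opens) ≤ f ⁻¹ᵁ (⊤ : X.Opens) := fun _ _ => trivial

include hI in
/-- the pushed ideal becomes the unit ideal on the overlap as well -/
theorem map_map_eq_top :
    (I.map (aLE f (𝒱.V false) (𝒱'.V false) (hV false))).map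
      (resHom (inf_le_left : 𝒱'.V false ⊓ 𝒱'.V true ≤ 𝒱'.V false)) = ⊤ := by
  rw [Ideal.map_map, resHom_comp_aLE f 𝒱 𝒱' hV, ← Ideal.map_map, hI, Ideal.map_top]

variable (hinv' : IsInvIdeal (I.map (aLE f (𝒱.V false) (𝒱'.V false) (hV false))))
  (hI' : (I.map (aLE f (𝒱.V false) (𝒱'.V false) (hV false))).map
      (resHom (inf_le_left : 𝒱'.V false ⊓ 𝒱'.V true ≤ 𝒱'.V false)) = ⊤)

/-- **the pullback data of `O(D_I)`** -/
def TrivPull.ofIdeal :
    TrivPull f (TrivData.ofIdeal 𝒱 I hinv hI)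
      (TrivData.ofIdeal 𝒱' (I.map (aLE f (𝒱.V false) (𝒱'.V false) (hV false))) hinv' hI') where
  hV := hV
  φ := dualMap (aLE f (𝒱.V false) (𝒱'.V false) (hV false)) I hinv'
  φ_smul a ψ := dualMap_smul _ I hinv' a ψ
  comm ψ := dualEval_dualMap (aLE f (𝒱.V false) (𝒱'.V false) (hV false))
    (aLE f (𝒱.V false ⊓ 𝒱.V true) (𝒱'.V false ⊓ 𝒱'.V true) (inf_le_inf (hV false) (hV true))) I
    hinv' (resHom_comp_aLE f 𝒱 𝒱' hV) hI hI' ψ
  gen _ _ hψ := IsLocGen.dualMap _ I hinv' hinv hψ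

/-- **base change of `O(D_I)`**: `f^* O(D_I) ≅ O(D_{I'})`, `I' = I·Γ(X', V' false)`, compatibly with the
sections over the first chart, the generators over the second chart and the canonical global sections -/
theorem OD.exists_pullback_iso :
    ∃ e : (Scheme.Modules.pullback f).obj (OD 𝒱 I hinv hI) ≅
        OD 𝒱' (I.map (aLE f (𝒱.V false) (𝒱'.V false) (hV false))) hinv' hI',
      (∀ ψ : Module.Dual Γ(X, 𝒱.V false) I, e.hom.app (𝒱'.V false)
        (pRes f (OD 𝒱 I hinv hI) (hV false) (OD.θ 𝒱 I hinv hI ψ)) =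
          OD.θ 𝒱' _ hinv' hI' (dualMap (aLE f (𝒱.V false) (𝒱'.V false) (hV false)) I hinv' ψ)) ∧
      e.hom.app (𝒱'.V true) (pRes f (OD 𝒱 I hinv hI) (hV true) (OD.one 𝒱 I hinv hI)) = OD.one 𝒱' _ hinv' hI' ∧
      e.hom.app ⊤ (pRes f (OD 𝒱 I hinv hI) (top_le_preimage_top f) (OD.sD 𝒱 I hinv hI)) =
        OD.sD 𝒱' _ hinv' hI' := by
  obtain ⟨e, he1, he2⟩ := (TrivPull.ofIdeal f 𝒱 𝒱' hV I hinv hI hinv' hI').exists_iso
  refine ⟨e, he1, he2, ?_⟩
  apply Mod.eq_of_res_eq _ 𝒱'.V ⊤ (fun _ => le_top)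
  · rw [← 𝒱'.cover]
    exact sup_le (le_iSup 𝒱'.V false) (le_iSup 𝒱'.V true)
  · intro b
    rw [← Mod.app_res, res_pRes]
    cases b
    · rw [OD.sD_res_false, ← pRes_res f (OD 𝒱 I hinv hI) (le_top : 𝒱.V false ≤ ⊤) (hV false),
        OD.sD_res_false]
      refine (he1 _).trans ?_
      exact congrArg ((TrivData.ofIdeal 𝒱' _ hinv' hI').glueData.θ false (𝒱'.V false) le_rfl)
        (dualMap_subtype _ I hinv')
    · rw [OD.sD_res_true, ← pRes_res f (OD 𝒱 I hinv hI) (le_top : 𝒱.V true ≤ ⊤) (hV true),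
        OD.sD_res_true]
      exact he2

end Pull

end Fermat.Agent.S25lib.Sec
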