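/-
S25lib / Sec / BoxCharts  (helper6)  --  Project L (S25), block `Sec/**`: **the charts of `O(D_J)` on `C ×_k T`.**
`Z : ZChart e` (`U₁ = C ∖ e`, `U₂ ∋ e`, `z`), `T` affine, `X = C ×_k T`, `S₁ = Γ(X, U₁ × T)`, `S₂ = Γ(X, U₂ × T)`.
* `zB = π₁^♯ z ∈ S₂`, `box_inf_box : (U₁ × T) ⊓ (U₂ × T) = D(zB)`.
* `Adm J` (`J` an ideal of `S₁`): an ADMISSIBLE function `f ∈ S₂`: `(f, zB) = (1)` and `J` becomes the unit ideal on
  `(U₁ × T) ⊓ D(f)`.  `Adm.charts`: the charts `V false = U₁ × T`, `V true = D(f)`;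
  `Adm.preimage_rigSection`: the section `e × T` lies in `D(f)`.
* `Adm.ofMonic`: an admissible function from a monic `P ∈ Γ(T,⊤)[X]` with `P(π₁^♯ a) ∈ J`, where `a ∈ Γ(C, U₁)`
  has an inverse `ainv ∈ z Γ(C, U₂)` on `U₁ ⊓ U₂`: `f = (rev P)(π₁^♯ ainv)`.
* `Adm.mul`, `Adm.pull` (product of admissible functions, pullback along `T' → T`).
-/
import Fermat.Agent.S25lib.Sec.OD
import Fermat.Agent.S25lib.AffBC.BoxSec
import Fermat.Agent.S25lib.Curve.ZChart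

set_option autoImplicit false

noncomputable section

universe u

open AlgebraicGeometry CategoryTheory CategoryTheory.Limits TopologicalSpace
  AlgebraicGeometry.RelPicard NeronModelInfra

namespace Fermat.Agent.S25lib.Sec

open Fermat.Agent.S25lib.Mod (resO resO_self resO_resO resO_mul resO_one resO_add)
open Fermat.Agent.S26lib.ProdAff Fermat.Agent.S25lib.AffBC

variable {k : Type u} [Field k] {C T : Scheme.{u}} (c : C ⟶ Spec (CommRingCat.of k))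
  (t : T ⟶ Spec (CommRingCat.of k)) {e : C} (Z : Curve.ZChart e)

/-- the pullback of the local parameter to `U₂ × T` -/
abbrev zB : Γ(pullback c t, box c t Z.U₂ ⊤) := fstφ c t Z.U₂ ⊤ Z.z

theorem basicOpen_zB :
    (pullback c t).basicOpen (zB c t Z) = box c t Z.U₁ ⊤ ⊓ box c t Z.U₂ ⊤ := by
  have h := Scheme.basicOpen_appLE (pullback.fst c t) (box c t Z.U₂ ⊤) Z.U₂
    (box_le_fst c t Z.U₂ ⊤) Z.z
  refine h.trans ?_
  rw [← Z.inf_eq]
  ext x
  constructor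
  · rintro ⟨⟨h2, _⟩, h1, _⟩
    exact ⟨⟨h1, trivial⟩, ⟨h2, trivial⟩⟩
  · rintro ⟨⟨h1, _⟩, ⟨h2, _⟩⟩
    exact ⟨⟨h2, trivial⟩, ⟨h1, h2⟩⟩

theorem box_sup_box : box c t Z.U₁ ⊤ ⊔ box c t Z.U₂ ⊤ = ⊤ := by
  rw [eq_top_iff]
  intro x _
  by_cases hx : (pullback.fst c t) x = e
  · exact Or.inr ⟨by change (pullback.fst c t) x ∈ Z.U₂; rw [hx]; exact Z.mem₂, trivial⟩
  · exact Or.inl ⟨(Z.mem₁_iff _).mpr hx, trivial⟩

variable {c t Z}

/-- a point over `e` does not lie in `U₁ × T` -/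
theorem not_mem_box₁ {x : ↥(pullback c t)} (hx : (pullback.fst c t) x = e) :
    x ∉ box c t Z.U₁ ⊤ := by
  rintro ⟨h1, _⟩
  exact (Z.mem₁_iff _).mp h1 hx

variable (c t Z)

/-- **admissible functions** for an ideal `J` of `Γ(X, U₁ × T)` -/
structure Adm (J : Ideal Γ(pullback c t, box c t Z.U₁ ⊤)) where
  /-- the function -/
  f : Γ(pullback c t, box c t Z.U₂ ⊤)
  comax : Ideal.span {f, zB c t Z} = ⊤
  unit : J.map (resHom (inf_le_left :
    box c t Z.U₁ ⊤ ⊓ (pullback c t).basicOpen f ≤ box c t Z.U₁ ⊤)) = ⊤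

namespace Adm

variable {c t Z} {J : Ideal Γ(pullback c t, box c t Z.U₁ ⊤)} (F : Adm c t Z J)

/-- the second chart -/
abbrev V₂ : (pullback c t).Opens := (pullback c t).basicOpen F.f

theorem V₂_le : F.V₂ ≤ box c t Z.U₂ ⊤ := (pullback c t).basicOpen_le F.f

theorem inf_V₂ : box c t Z.U₁ ⊤ ⊓ F.V₂ = (pullback c t).basicOpen (zB c t Z * F.f) := by
  rw [Scheme.basicOpen_mul, basicOpen_zB, inf_assoc, inf_eq_right.mpr F.V₂_le]

variable [IsAffine T]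

theorem isAffineOpen_box₁ : IsAffineOpen (box c t Z.U₁ ⊤) :=
  isAffineOpen_box' c t Z.isAffineOpen₁ (isAffineOpen_top T)

theorem isAffineOpen_box₂ : IsAffineOpen (box c t Z.U₂ ⊤) :=
  isAffineOpen_box' c t Z.isAffineOpen₂ (isAffineOpen_top T)

theorem isAffineOpen_V₂ : IsAffineOpen F.V₂ :=
  (isAffineOpen_box₂ (c := c) (t := t) (Z := Z)).basicOpen F.f

theorem isAffineOpen_inf : IsAffineOpen (box c t Z.U₁ ⊤ ⊓ F.V₂) := by
  rw [F.inf_V₂]
  exact (isAffineOpen_box₂ (c := c) (t := t) (Z := Z)).basicOpen _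

/-- `U₂ × T = D(f) ∪ D(zB)` -/
theorem box₂_le : box c t Z.U₂ ⊤ ≤ F.V₂ ⊔ (pullback c t).basicOpen (zB c t Z) := by
  have h := (isAffineOpen_box₂ (c := c) (t := t) (Z := Z)).self_le_iSup_basicOpen_iff
    (s := ({F.f, zB c t Z} : Set Γ(pullback c t, box c t Z.U₂ ⊤)))
  refine (h.mpr F.comax).trans ?_
  apply iSup_le
  rintro ⟨g, hg⟩
  rcases hg with rfl | hg
  · exact le_sup_left
  · rw [Set.mem_singleton_iff] at hg
    subst hg
    exact le_sup_right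

theorem cover : box c t Z.U₁ ⊤ ⊔ F.V₂ = ⊤ := by
  rw [eq_top_iff, ← box_sup_box c t Z]
  refine sup_le le_sup_left (F.box₂_le.trans (sup_le le_sup_right ?_))
  rw [basicOpen_zB]
  exact inf_le_left.trans le_sup_left

/-- **the charts** `U₁ × T`, `D(f)` -/
def charts : Charts (pullback c t) :=
  Charts.ofPair (box c t Z.U₁ ⊤) F.V₂ isAffineOpen_box₁ F.isAffineOpen_V₂ F.isAffineOpen_inf
    F.cover

/-- a point over `e` lies in `D(f)` -/
theorem mem_V₂ {x : ↥(pullback c t)} (hx : (pullback.fst c t) x = e) : x ∈ F.V₂ := by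
  have h2 : x ∈ box c t Z.U₂ ⊤ :=
    ⟨by change (pullback.fst c t) x ∈ Z.U₂; rw [hx]; exact Z.mem₂, trivial⟩
  rcases F.box₂_le h2 with h | h
  · exact h
  · rw [basicOpen_zB] at h
    exact absurd h.1 (not_mem_box₁ hx)

/-- the section `e × T` lies in `D(f)` -/
theorem preimage_rigSection (ε : SchemeHomOver (𝟙 (Spec (CommRingCat.of k))) c)
    (he : ∀ y, ε.1 y = e) : rigSection c t ε ⁻¹ᵁ F.V₂ = ⊤ := by
  rw [eq_top_iff]
  intro y _
  apply F.mem_V₂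
  change (rigSection c t ε ≫ pullback.fst c t) y = e
  rw [rigSection_fst]
  exact he _

end Adm

section OfMonic

variable {c t Z} {J : Ideal Γ(pullback c t, box c t Z.U₁ ⊤)}

/-- `fstφ` and `boxφ` in terms of `aLE` -/
theorem fstφ_eq_aLE (U : C.Opens) (T' : T.Opens) (s : Γ(C, U)) :
    fstφ c t U T' s = aLE (pullback.fst c t) U (box c t U T') (box_le_fst c t U T') s := rfl

theorem boxφ_eq_aLE (U : C.Opens) (T' : T.Opens) (r : Γ(T, T')) :
    boxφ c t U T' r = aLE (pullback.snd c t) T' (box c t U T') (box_le_snd c t U T') r := rfl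

/-- evaluation of polynomials: the constant term splits off -/
theorem eval₂_sub_coeff_zero_mem {R S : Type*} [CommRing R] [CommRing S] (φ : R →+* S) (x : S)
    (p : Polynomial R) : ∃ g : S, p.eval₂ φ x = g * x + φ (p.coeff 0) := by
  refine ⟨p.divX.eval₂ φ x, ?_⟩
  conv_lhs => rw [← Polynomial.divX_mul_X_add p]
  rw [Polynomial.eval₂_add, Polynomial.eval₂_mul, Polynomial.eval₂_X, Polynomial.eval₂_C]

variable (a : Γ(C, Z.U₁)) (ainv : Γ(C, Z.U₂))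
  (hmul : resO (inf_le_left : Z.U₁ ⊓ Z.U₂ ≤ Z.U₁) a *
    resO (inf_le_right : Z.U₁ ⊓ Z.U₂ ≤ Z.U₂) ainv = 1)
  (hz : ainv ∈ Ideal.span {Z.z})

/-- the function `(rev P)(π₁^♯ a⁻¹)` -/
def revFun (P : Polynomial Γ(T, ⊤)) : Γ(pullback c t, box c t Z.U₂ ⊤) :=
  P.reverse.eval₂ (boxφ c t Z.U₂ ⊤) (fstφ c t Z.U₂ ⊤ ainv)

include hz in
theorem span_revFun_zB (P : Polynomial Γ(T, ⊤)) (hP : P.Monic) :
    Ideal.span {revFun (c := c) (t := t) ainv P, zB c t Z} = ⊤ := by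
  rw [Ideal.eq_top_iff_one]
  obtain ⟨g, hg⟩ := eval₂_sub_coeff_zero_mem (boxφ c t Z.U₂ ⊤) (fstφ c t Z.U₂ ⊤ ainv) P.reverse
  rw [Polynomial.coeff_zero_reverse, hP.leadingCoeff, map_one] at hg
  obtain ⟨w, hw⟩ := Ideal.mem_span_singleton'.mp hz
  have h1 : (1 : Γ(pullback c t, box c t Z.U₂ ⊤)) =
      revFun (c := c) (t := t) ainv P - (g * fstφ c t Z.U₂ ⊤ w) * zB c t Z := by
    unfold revFun
    rw [hg, ← hw, map_mul]
    ring
  rw [h1]
  refine Ideal.sub_mem _ (Ideal.subset_span (Set.mem_insert _ _)) ?_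
  exact Ideal.mul_mem_left _ _ (Ideal.subset_span (Set.mem_insert_of_mem _ rfl))

include hmul in
/-- on every open `W ≤ (U₁ × T) ⊓ (U₂ × T)`: `P(π₁^♯ a) = (rev P)(π₁^♯ a⁻¹) * (π₁^♯ a) ^ deg P` -/
theorem resO_eval₂_eq (P : Polynomial Γ(T, ⊤)) (W : (pullback c t).Opens)
    (h₁ : W ≤ box c t Z.U₁ ⊤) (h₂ : W ≤ box c t Z.U₂ ⊤) :
    resO h₁ (P.eval₂ (boxφ c t Z.U₁ ⊤) (fstφ c t Z.U₁ ⊤ a)) =
      resO h₂ (revFun (c := c) (t := t) ainv P) * resO h₁ (fstφ c t Z.U₁ ⊤ a) ^ P.natDegree := by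
  -- the common coefficient map
  let i : Γ(T, ⊤) →+* Γ(pullback c t, W) :=
    aLE (pullback.snd c t) ⊤ W (h₁.trans (box_le_snd c t Z.U₁ ⊤))
  have hi₁ : (resHom h₁).comp (boxφ c t Z.U₁ ⊤) = i := by
    ext r
    rw [RingHom.comp_apply, resHom_apply, boxφ_eq_aLE, resO_aLE]
  have hi₂ : (resHom h₂).comp (boxφ c t Z.U₂ ⊤) = i := by
    ext r
    rw [RingHom.comp_apply, resHom_apply, boxφ_eq_aLE, resO_aLE]
  set x := resO h₁ (fstφ c t Z.U₁ ⊤ a) with hx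
  set y := resO h₂ (fstφ c t Z.U₂ ⊤ ainv) with hy
  have hW : W ≤ pullback.fst c t ⁻¹ᵁ (Z.U₁ ⊓ Z.U₂) := fun w hw => ⟨(h₁ hw).1, (h₂ hw).1⟩
  have hxy : x * y = 1 := by
    rw [hx, hy, fstφ_eq_aLE, fstφ_eq_aLE, resO_aLE, resO_aLE,
      ← aLE_resO (pullback.fst c t) hW (inf_le_left : Z.U₁ ⊓ Z.U₂ ≤ Z.U₁) a,
      ← aLE_resO (pullback.fst c t) hW (inf_le_right : Z.U₁ ⊓ Z.U₂ ≤ Z.U₂) ainv,
      ← map_mul, hmul, map_one]
  letI : Invertible x := ⟨y, by rw [mul_comm]; exact hxy, hxy⟩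
  have h1 : resO h₁ (P.eval₂ (boxφ c t Z.U₁ ⊤) (fstφ c t Z.U₁ ⊤ a)) = P.eval₂ i x := by
    rw [← resHom_apply, Polynomial.hom_eval₂, hi₁]
    rfl
  have h2 : resO h₂ (revFun (c := c) (t := t) ainv P) = P.reverse.eval₂ i y := by
    unfold revFun
    rw [← resHom_apply, Polynomial.hom_eval₂, hi₂]
    rfl
  rw [h1, h2]
  exact (Polynomial.eval₂_reverse_mul_pow i x P).symm

variable [IsAffine T]

include hmul in
theorem map_eq_top_of_monic (P : Polynomial Γ(T, ⊤))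
    (hPJ : P.eval₂ (boxφ c t Z.U₁ ⊤) (fstφ c t Z.U₁ ⊤ a) ∈ J) :
    J.map (resHom (inf_le_left : box c t Z.U₁ ⊤ ⊓
      (pullback c t).basicOpen (revFun (c := c) (t := t) ainv P) ≤ box c t Z.U₁ ⊤)) = ⊤ := by
  set f := revFun (c := c) (t := t) ainv P with hf
  set W := box c t Z.U₁ ⊤ ⊓ (pullback c t).basicOpen f with hW
  have h₂ : W ≤ box c t Z.U₂ ⊤ := inf_le_right.trans ((pullback c t).basicOpen_le f)
  have key := resO_eval₂_eq a ainv hmul P W inf_le_left h₂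
  apply Ideal.eq_top_of_isUnit_mem _ (Ideal.mem_map_of_mem _ hPJ)
  rw [resHom_apply, key]
  refine IsUnit.mul ?_ (IsUnit.pow _ ?_)
  · have hu := (isAwayHom_resHom (Adm.isAffineOpen_box₂ (c := c) (t := t) (Z := Z)) f).unit
    have := hu.map (resHom (inf_le_right : W ≤ (pullback c t).basicOpen f))
    rwa [resHom_apply, resHom_apply, resO_resO] at this
  · -- `π₁^♯ a` is a unit on `W`
    have hWf : W ≤ pullback.fst c t ⁻¹ᵁ (Z.U₁ ⊓ Z.U₂) :=
      fun w hw => ⟨(inf_le_left (a := box c t Z.U₁ ⊤) hw).1, (h₂ hw).1⟩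
    have hxy : resO (inf_le_left : W ≤ box c t Z.U₁ ⊤) (fstφ c t Z.U₁ ⊤ a) *
        resO h₂ (fstφ c t Z.U₂ ⊤ ainv) = 1 := by
      rw [fstφ_eq_aLE, fstφ_eq_aLE, resO_aLE, resO_aLE,
        ← aLE_resO (pullback.fst c t) hWf (inf_le_left : Z.U₁ ⊓ Z.U₂ ≤ Z.U₁) a,
        ← aLE_resO (pullback.fst c t) hWf (inf_le_right : Z.U₁ ⊓ Z.U₂ ≤ Z.U₂) ainv,
        ← map_mul, hmul, map_one]
    exact IsUnit.of_mul_eq_one _ hxy

/-- **an admissible function from a monic polynomial killing `π₁^♯ a` modulo `J`** -/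
def Adm.ofMonic (P : Polynomial Γ(T, ⊤)) (hP : P.Monic)
    (hPJ : P.eval₂ (boxφ c t Z.U₁ ⊤) (fstφ c t Z.U₁ ⊤ a) ∈ J) : Adm c t Z J where
  f := revFun (c := c) (t := t) ainv P
  comax := span_revFun_zB ainv hz P hP
  unit := map_eq_top_of_monic a ainv hmul P hPJ

end OfMonic

section MulPull

variable {c t Z} {J : Ideal Γ(pullback c t, box c t Z.U₁ ⊤)}

/-- an ideal which becomes the unit ideal on `W` becomes the unit ideal on every smaller open -/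
theorem map_resHom_eq_top_of_le {X : Scheme.{u}} {V W W' : X.Opens} {J : Ideal Γ(X, V)} (hW : W ≤ V)
    (hW' : W' ≤ W) (h : J.map (resHom hW) = ⊤) : J.map (resHom (hW'.trans hW)) = ⊤ := by
  rw [← resHom_comp hW hW', ← Ideal.map_map, h, Ideal.map_top]

theorem span_pair_mul_eq_top {S : Type*} [CommRing S] {f f' z : S} (h : Ideal.span {f, z} = ⊤)
    (h' : Ideal.span {f', z} = ⊤) : Ideal.span {f * f', z} = ⊤ := by
  rw [Ideal.eq_top_iff_one] at h h' ⊢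
  obtain ⟨u, v, huv⟩ := Ideal.mem_span_pair.mp h
  obtain ⟨u', v', huv'⟩ := Ideal.mem_span_pair.mp h'
  rw [Ideal.mem_span_pair]
  refine ⟨u * u', u * f * v' + v * u' * f' + v * v' * z, ?_⟩
  have : (1 : S) = (u * f + v * z) * (u' * f' + v' * z) := by rw [huv, huv', one_mul]
  rw [this]
  ring

theorem span_pair_map_eq_top {S S' : Type*} [CommRing S] [CommRing S'] (φ : S →+* S') {f z : S}
    (h : Ideal.span {f, z} = ⊤) : Ideal.span {φ f, φ z} = ⊤ := by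
  rw [Ideal.eq_top_iff_one] at h ⊢
  obtain ⟨u, v, huv⟩ := Ideal.mem_span_pair.mp h
  rw [Ideal.mem_span_pair]
  refine ⟨φ u, φ v, ?_⟩
  rw [← map_mul, ← map_mul, ← map_add, huv, map_one]

variable [IsAffine T]

/-- the product of two admissible functions -/
def Adm.mul (F F' : Adm c t Z J) : Adm c t Z J where
  f := F.f * F'.f
  comax := span_pair_mul_eq_top F.comax F'.comax
  unit := by
    have hle : box c t Z.U₁ ⊤ ⊓ (pullback c t).basicOpen (F.f * F'.f) ≤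
        box c t Z.U₁ ⊤ ⊓ (pullback c t).basicOpen F.f := by
      rw [Scheme.basicOpen_mul]
      exact inf_le_inf le_rfl inf_le_left
    exact map_resHom_eq_top_of_le inf_le_left hle F.unit

theorem Adm.mul_V₂_le_left (F F' : Adm c t Z J) : (F.mul F').V₂ ≤ F.V₂ := by
  change (pullback c t).basicOpen (F.f * F'.f) ≤ _
  rw [Scheme.basicOpen_mul]
  exact inf_le_left

theorem Adm.mul_V₂_le_right (F F' : Adm c t Z J) : (F.mul F').V₂ ≤ F'.V₂ := by
  change (pullback c t).basicOpen (F.f * F'.f) ≤ _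
  rw [Scheme.basicOpen_mul]
  exact inf_le_right

end MulPull

section Pull

variable {c t Z} {T' : Scheme.{u}} {t' : T' ⟶ Spec (CommRingCat.of k)} (ψ : SchemeHomOver t' t)

theorem top_le_preimage_top' : (⊤ : T'.Opens) ≤ ψ.1 ⁻¹ᵁ (⊤ : T.Opens) := fun _ _ => trivial

/-- the pullback of functions on a box along `C ×_k T' → C ×_k T` -/
abbrev bcφ (U : C.Opens) : Γ(pullback c t, box c t U ⊤) →+* Γ(pullback c t', box c t' U ⊤) :=
  aLE (baseChangeSnd c ψ) (box c t U ⊤) (box c t' U ⊤)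
    (box_le_preimage_box c ψ U ⊤ ⊤ (top_le_preimage_top' ψ))

theorem bcφ_fstφ (U : C.Opens) (s : Γ(C, U)) : bcφ ψ U (fstφ c t U ⊤ s) = fstφ c t' U ⊤ s := by
  have h1 := Scheme.Hom.appLE_comp_appLE (baseChangeSnd c ψ) (pullback.fst c t) U
    (box c t U ⊤) (box c t' U ⊤) (box_le_fst c t U ⊤)
    (box_le_preimage_box c ψ U ⊤ ⊤ (top_le_preimage_top' ψ))
  have h3 := appLE_of_eq (baseChangeSnd_fst c ψ) U (box c t' U ⊤)
    ((box_le_preimage_box c ψ U ⊤ ⊤ (top_le_preimage_top' ψ)).trans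
      ((Opens.map (baseChangeSnd c ψ).base).map (homOfLE (box_le_fst c t U ⊤))).le)
  exact congrArg (fun φ => φ.hom s) (h1.trans h3)

theorem bcφ_boxφ (U : C.Opens) (r : Γ(T, ⊤)) :
    bcφ ψ U (boxφ c t U ⊤ r) = boxφ c t' U ⊤ ((ψ.1.appLE ⊤ ⊤ (top_le_preimage_top' ψ)).hom r) :=
  boxφ_comm c ψ (U := U) (T₁' := ⊤) (T₂' := ⊤) (top_le_preimage_top' ψ) r

variable {J : Ideal Γ(pullback c t, box c t Z.U₁ ⊤)}

theorem basicOpen_bcφ_le (f : Γ(pullback c t, box c t Z.U₂ ⊤)) :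
    (pullback c t').basicOpen (bcφ ψ Z.U₂ f) ≤ baseChangeSnd c ψ ⁻¹ᵁ (pullback c t).basicOpen f := by
  have := Scheme.basicOpen_appLE (baseChangeSnd c ψ) (box c t' Z.U₂ ⊤) (box c t Z.U₂ ⊤)
    (box_le_preimage_box c ψ Z.U₂ ⊤ ⊤ (top_le_preimage_top' ψ)) f
  change (pullback c t').basicOpen (bcφ ψ Z.U₂ f) = _ at this
  rw [this]
  exact inf_le_right

/-- the pullback of an admissible function -/
def Adm.pull (F : Adm c t Z J) : Adm c t' Z (J.map (bcφ ψ Z.U₁)) where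
  f := bcφ ψ Z.U₂ F.f
  comax := by
    have := span_pair_map_eq_top (bcφ ψ Z.U₂) F.comax
    rwa [show bcφ ψ Z.U₂ (zB c t Z) = zB c t' Z from bcφ_fstφ ψ Z.U₂ Z.z] at this
  unit := by
    have hV : box c t' Z.U₁ ⊤ ⊓ (pullback c t').basicOpen (bcφ ψ Z.U₂ F.f) ≤
        baseChangeSnd c ψ ⁻¹ᵁ (box c t Z.U₁ ⊤ ⊓ (pullback c t).basicOpen F.f) :=
      inf_le_inf (box_le_preimage_box c ψ Z.U₁ ⊤ ⊤ (top_le_preimage_top' ψ))
        (basicOpen_bcφ_le ψ F.f)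
    have hsq : (resHom (inf_le_left : box c t' Z.U₁ ⊤ ⊓
          (pullback c t').basicOpen (bcφ ψ Z.U₂ F.f) ≤ box c t' Z.U₁ ⊤)).comp (bcφ ψ Z.U₁) =
        (aLE (baseChangeSnd c ψ) _ _ hV).comp (resHom (inf_le_left :
          box c t Z.U₁ ⊤ ⊓ (pullback c t).basicOpen F.f ≤ box c t Z.U₁ ⊤)) := by
      ext r
      rw [RingHom.comp_apply, RingHom.comp_apply, resHom_apply, resHom_apply, resO_aLE, aLE_resO]
    rw [Ideal.map_map, hsq, ← Ideal.map_map, F.unit, Ideal.map_top]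

theorem Adm.pull_V₂_le (F : Adm c t Z J) :
    (F.pull ψ).V₂ ≤ baseChangeSnd c ψ ⁻¹ᵁ F.V₂ := basicOpen_bcφ_le ψ F.f

end Pull

end Fermat.Agent.S25lib.Sec
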