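/-
S25lib / Sec / ODJ  (helper6)  --  Project L (S25), block `Sec/**`: **the rigidified bundle `O(D_J)` on `C ×_k T`.**
`T` affine, `Z : ZChart e` with `e` the image of the section `ε`, `J` an ideal of `S₁ = Γ(C ×_k T, U₁ × T)` with the
trace condition `IsInvIdeal J` and an admissible function `F : Adm c t Z J`.
* `ODf F : (pullback c t).Modules`, `ODf.rlb : RLB c ε t`;
* `ODf.exists_iso F F'`: independence of the admissible function (canonical sections correspond);
* `ODf.exists_pullback_iso ψ F F'`: base change along `ψ : T' → T`;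
* `ODJ` (choice of `F`), `ODJ.sD`, `ODJ.mem_iff`, `ODJ.exists_iso_of_section` (recognition).
-/
import Fermat.Agent.S25lib.Sec.BoxCharts
import Fermat.Agent.S25lib.Iface

set_option autoImplicit false

noncomputable section

universe u

open AlgebraicGeometry CategoryTheory CategoryTheory.Limits TopologicalSpace
  AlgebraicGeometry.RelPicard NeronModelInfra

namespace Fermat.Agent.S25lib.Sec

open Fermat.Agent.S25lib.Mod (resO resO_self resO_resO resO_mul resO_one resO_add)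
open Fermat.Agent.S26lib.ProdAff Fermat.Agent.S25lib.AffBC

variable {k : Type u} [Field k] {C T : Scheme.{u}} {c : C ⟶ Spec (CommRingCat.of k)}
  {t : T ⟶ Spec (CommRingCat.of k)} {e : C} {Z : Curve.ZChart e} [IsAffine T]
  {J : Ideal Γ(pullback c t, box c t Z.U₁ ⊤)}

/-- **`O(D_J)` with respect to an admissible function** -/
def ODf (hinv : IsInvIdeal J) (F : Adm c t Z J) : (pullback c t).Modules :=
  OD F.charts J hinv F.unit

namespace ODf

variable (hinv : IsInvIdeal J) (F : Adm c t Z J)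

theorem isInvertible : Scheme.Modules.IsInvertible (ODf hinv F) :=
  isInvertible_OD F.charts J hinv F.unit

/-- the canonical global section -/
def sD : Γ(ODf hinv F, ⊤) := OD.sD F.charts J hinv F.unit

/-- sections over `U₁ × T` are the linear forms on `J` -/
def θ (ψ : Module.Dual Γ(pullback c t, box c t Z.U₁ ⊤) J) :
    Γ(ODf hinv F, box c t Z.U₁ ⊤) :=
  OD.θ F.charts J hinv F.unit ψ

theorem θ_bijective : Function.Bijective (θ hinv F) := OD.θ_bijective F.charts J hinv F.unit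

theorem θ_add (ψ ψ' : Module.Dual Γ(pullback c t, box c t Z.U₁ ⊤) J) :
    θ hinv F (ψ + ψ') = θ hinv F ψ + θ hinv F ψ' := OD.θ_add F.charts J hinv F.unit ψ ψ'

theorem θ_smul (a : Γ(pullback c t, box c t Z.U₁ ⊤))
    (ψ : Module.Dual Γ(pullback c t, box c t Z.U₁ ⊤) J) :
    θ hinv F (a • ψ) = a • θ hinv F ψ := OD.θ_smul F.charts J hinv F.unit a ψ

theorem res_sD_box₁ :
    Mod.res (ODf hinv F) le_top (sD hinv F) = θ hinv F (Submodule.subtype J) :=
  OD.sD_res_false F.charts J hinv F.unit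

/-- the canonical section generates over `D(f)` -/
theorem isGen_res_sD :
    Mod.IsGen (ODf hinv F) F.V₂ (Mod.res (ODf hinv F) le_top (sD hinv F)) := by
  have := OD.isGen_one F.charts J hinv F.unit
  rw [← OD.sD_res_true] at this
  exact this

/-- **`J` is determined by `(O(D_J), sD)`** -/
theorem mem_iff (a : Γ(pullback c t, box c t Z.U₁ ⊤)) :
    a ∈ J ↔ ∀ w : Γ(ODf hinv F, box c t Z.U₁ ⊤), ∃ b : Γ(pullback c t, box c t Z.U₁ ⊤),
      a • w = b • Mod.res (ODf hinv F) le_top (sD hinv F) :=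
  OD.mem_iff F.charts J hinv F.unit a

variable {ε : SchemeHomOver (𝟙 (Spec (CommRingCat.of k))) c} (he : ∀ y, ε.1 y = e)

include he in
theorem rigidified : Nonempty ((Scheme.Modules.pullback (rigSection c t ε)).obj (ODf hinv F) ≅
    SheafOfModules.unit T.ringCatSheaf) :=
  OD.exists_iso_unit F.charts J hinv F.unit (rigSection c t ε) (F.preimage_rigSection ε he)

/-- the rigidified bundle -/
def rlb : RLB c ε t where
  L := ODf hinv F
  isInvertible := isInvertible hinv F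
  rigidified := rigidified hinv F he

/-- **independence of the admissible function** -/
theorem exists_iso (F F' : Adm c t Z J) :
    ∃ e : ODf hinv F ≅ ODf hinv F', e.hom.app ⊤ (sD hinv F) = sD hinv F' := by
  obtain ⟨e₁, he₁⟩ := OD.exists_shrink_iso (box c t Z.U₁ ⊤) F.V₂ (F.mul F').V₂
    Adm.isAffineOpen_box₁ F.isAffineOpen_V₂ F.isAffineOpen_inf F.cover
    (F.mul F').isAffineOpen_V₂ (F.mul F').isAffineOpen_inf (F.mul F').cover
    (F.mul_V₂_le_left F') J hinv F.unit (F.mul F').unit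
  obtain ⟨e₂, he₂⟩ := OD.exists_shrink_iso (box c t Z.U₁ ⊤) F'.V₂ (F.mul F').V₂
    Adm.isAffineOpen_box₁ F'.isAffineOpen_V₂ F'.isAffineOpen_inf F'.cover
    (F.mul F').isAffineOpen_V₂ (F.mul F').isAffineOpen_inf (F.mul F').cover
    (F.mul_V₂_le_right F') J hinv F'.unit (F.mul F').unit
  refine ⟨e₁.symm ≪≫ e₂, ?_⟩
  have h1 : e₁.inv.app ⊤ (sD hinv F) = OD.sD (F.mul F').charts J hinv (F.mul F').unit :=
    (congrArg (e₁.inv.app ⊤) he₁).symm.trans (Mod.iso_inv_hom_app e₁ ⊤ _)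
  exact (congrArg (e₂.hom.app ⊤) h1).trans he₂

end ODf

section Recog

variable (hinv : IsInvIdeal J) (F : Adm c t Z J)

/-- **recognition of `O(D_J)`**: an invertible module `N` on `C ×_k T` with a global section `s` which generates
`N` in a neighbourhood of `e × T`, and a semilinear bijection `σ : J⁻¹ → Γ(N, U₁ × T)` with `σ incl = s` -/
theorem ODf.exists_iso_of_section (N : (pullback c t).Modules)
    (hN : Scheme.Modules.IsInvertible N)
    (σ : Module.Dual Γ(pullback c t, box c t Z.U₁ ⊤) J →+ Γ(N, box c t Z.U₁ ⊤))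
    (σ_smul : ∀ (a : Γ(pullback c t, box c t Z.U₁ ⊤))
      (ψ : Module.Dual Γ(pullback c t, box c t Z.U₁ ⊤) J), σ (a • ψ) = a • σ ψ)
    (hbij : Function.Bijective σ) (s : Γ(N, ⊤))
    (hs₁ : Mod.res N le_top s = σ (Submodule.subtype J))
    (V : (pullback c t).Opens) (hV : ∀ x : ↥(pullback c t), (pullback.fst c t) x = e → x ∈ V)
    (hgen : Mod.IsGen N V (Mod.res N le_top s)) :
    ∃ e : ODf hinv F ≅ N,
      (∀ ψ, e.hom.app (box c t Z.U₁ ⊤) (ODf.θ hinv F ψ) = σ ψ) ∧
      e.hom.app ⊤ (ODf.sD hinv F) = s := by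
  -- `s` generates over `D(f)`
  have hgen₂ : Mod.IsGen N F.V₂ (Mod.res N le_top s) := by
    apply isGen_of_cover _ (fun o : Option J =>
      match o with
      | none => F.V₂ ⊓ V
      | some h => F.V₂ ⊓ (pullback c t).basicOpen (h : Γ(pullback c t, box c t Z.U₁ ⊤)))
      (fun o => by cases o <;> exact inf_le_left)
    · intro x hx
      by_cases hxe : (pullback.fst c t) x = e
      · exact (Opens.mem_iSup).mpr ⟨none, ⟨hx, hV x hxe⟩⟩
      · have hx₁ : x ∈ box c t Z.U₁ ⊤ := ⟨(Z.mem₁_iff _).mpr hxe, trivial⟩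
        have hx₁₂ : x ∈ box c t Z.U₁ ⊤ ⊓ F.V₂ := ⟨hx₁, hx⟩
        have hcov := (F.isAffineOpen_inf.self_le_iSup_basicOpen_iff
          (s := (resHom (inf_le_left : box c t Z.U₁ ⊤ ⊓ F.V₂ ≤ box c t Z.U₁ ⊤)) '' (J : Set _))).mpr
          (show Ideal.span ((resHom (inf_le_left : box c t Z.U₁ ⊤ ⊓ F.V₂ ≤ box c t Z.U₁ ⊤)) ''
            (J : Set _)) = ⊤ from F.unit)
        obtain ⟨⟨r, h, hh, rfl⟩, hxr⟩ := (Opens.mem_iSup).mp (hcov hx₁₂)
        have h1 : (pullback c t).basicOpen (resHom (inf_le_left :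
            box c t Z.U₁ ⊤ ⊓ F.V₂ ≤ box c t Z.U₁ ⊤) h) =
            (box c t Z.U₁ ⊤ ⊓ F.V₂) ⊓ (pullback c t).basicOpen h :=
          Scheme.basicOpen_res _ h _
        simp only at hxr
        rw [h1] at hxr
        exact (Opens.mem_iSup).mpr ⟨some ⟨h, hh⟩, ⟨hx, hxr.2⟩⟩
    · intro o
      cases o with
      | none =>
        simp only
        have := hgen.res (inf_le_right : F.V₂ ⊓ V ≤ V)
        rwa [Mod.res_res] at this ⊢
      | some h =>
        simp only
        have hlg : IsLocGen (h : Γ(pullback c t, box c t Z.U₁ ⊤)) (σ (Submodule.subtype J)) :=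
          (isLocGen_dual_of_apply_eq_pow J h 1 (by rw [pow_one]; rfl)).map_equiv
            (AddEquiv.ofBijective σ hbij) σ_smul
        have h2 := isGen_of_isLocGen hN (Adm.isAffineOpen_box₁ (c := c) (t := t) (Z := Z)) hlg
        rw [← hs₁, Mod.res_res] at h2
        have h3 := h2.res (inf_le_right : F.V₂ ⊓ (pullback c t).basicOpen
          (h : Γ(pullback c t, box c t Z.U₁ ⊤)) ≤ _)
        rwa [Mod.res_res] at h3 ⊢
  have hσs : Mod.res N (inf_le_left : box c t Z.U₁ ⊤ ⊓ F.V₂ ≤ box c t Z.U₁ ⊤)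
      (σ (Submodule.subtype J)) =
      Mod.res N (inf_le_right : box c t Z.U₁ ⊤ ⊓ F.V₂ ≤ F.V₂) (Mod.res N le_top s) := by
    rw [← hs₁, Mod.res_res, Mod.res_res]
  obtain ⟨e, he1, -, he3⟩ := OD.exists_iso_of_section F.charts J hinv F.unit N hN σ σ_smul hbij
    (Mod.res N le_top s) hgen₂ hσs
  exact ⟨e, he1, he3 s hs₁ rfl⟩

end Recog

section Pull

variable {T' : Scheme.{u}} [IsAffine T'] {t' : T' ⟶ Spec (CommRingCat.of k)}
  (ψ : SchemeHomOver t' t) (hinv : IsInvIdeal J) (F : Adm c t Z J)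
  (hinv' : IsInvIdeal (J.map (bcφ ψ Z.U₁))) (F' : Adm c t' Z (J.map (bcφ ψ Z.U₁)))

theorem Adm.pull_charts_le (b : Bool) :
    (F.pull ψ).charts.V b ≤ baseChangeSnd c ψ ⁻¹ᵁ F.charts.V b := by
  cases b
  · exact box_le_preimage_box c ψ Z.U₁ ⊤ ⊤ (top_le_preimage_top' ψ)
  · exact F.pull_V₂_le ψ

/-- **base change of `O(D_J)`** along `ψ : T' → T`: `(1 × ψ)^* O(D_J) ≅ O(D_{J'})`, `J' = J·Γ(C ×_k T', U₁ × T')`,
for any admissible functions; the canonical sections correspond -/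
theorem ODf.exists_pullback_iso :
    ∃ e : (Scheme.Modules.pullback (baseChangeSnd c ψ)).obj (ODf hinv F) ≅ ODf hinv' F',
      e.hom.app ⊤ (pRes (baseChangeSnd c ψ) (ODf hinv F)
        (top_le_preimage_top (baseChangeSnd c ψ)) (ODf.sD hinv F)) = ODf.sD hinv' F' := by
  obtain ⟨e₀, -, -, he₀⟩ := OD.exists_pullback_iso (baseChangeSnd c ψ) F.charts (F.pull ψ).charts
    (Adm.pull_charts_le ψ F) J hinv F.unit hinv' (F.pull ψ).unit
  obtain ⟨e₁, he₁⟩ := ODf.exists_iso hinv' (F.pull ψ) F'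
  exact ⟨e₀ ≪≫ e₁, (congrArg (e₁.hom.app ⊤) he₀).trans he₁⟩

end Pull

end Fermat.Agent.S25lib.Sec
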