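/-
S25lib / Sec / ODI  (helper6)  --  Project L (S25), block `Sec/**`: **the functor `I ↦ O(D_I)`.**
`T` affine, `R = Γ(T, ⊤)`, `A = Γ(C, U₁)` (`k`-algebras by `constHomOpen`), `I` an ideal of `R ⊗[k] A` with the
trace condition (`IsInvIdeal I`, e.g. `Module.Invertible _ I`) and `A_R ⧸ I` a finite `R`-module.
* `boxEquiv : R ⊗[k] A ≃+* Γ(C ×_k T, U₁ × T)`, `r ⊗ a ↦ π₂^♯ r * π₁^♯ a`;
* `boxIdeal I := I.map boxEquiv`, `isInvIdeal_boxIdeal`, `nonempty_adm` (an admissible function exists);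
* **`ODI … I hinv hfin : RLB c ε t`**;
* **`ODI_pullbackAlong_iso`** (S-pull): `(ODI t I).pullbackAlong ψ ≅ ODI t' (push φ I)`, `φ = ψ^♯`.
-/
import Fermat.Agent.S25lib.Sec.ODJ
import Fermat.Agent.S25lib.Hilb.Push

set_option autoImplicit false

noncomputable section

universe u

open AlgebraicGeometry CategoryTheory CategoryTheory.Limits TopologicalSpace TensorProduct
  AlgebraicGeometry.RelPicard NeronModelInfra

namespace Fermat.Agent.S25lib.Sec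

open Fermat.Agent.S25lib.Mod (resO resO_self resO_resO resO_mul resO_one resO_add)
open Fermat.Agent.S26lib.ProdAff Fermat.Agent.S25lib.AffBC Fermat.Agent.S26lib.P5a

variable {k : Type u} [Field k] {C T : Scheme.{u}} (c : C ⟶ Spec (CommRingCat.of k))
  (t : T ⟶ Spec (CommRingCat.of k)) {e : C} (Z : Curve.ZChart e) [IsAffine T]
  [Algebra k Γ(C, Z.U₁)] (hA : algebraMap k Γ(C, Z.U₁) = (constHomOpen c Z.U₁).hom)
  [Algebra k Γ(T, ⊤)] (hR : algebraMap k Γ(T, ⊤) = (constHomOpen t ⊤).hom)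

/-- **`R ⊗[k] A ≃ Γ(C ×_k T, U₁ × T)`** -/
def boxEquiv : Γ(T, ⊤) ⊗[k] Γ(C, Z.U₁) ≃+* Γ(pullback c t, box c t Z.U₁ ⊤) :=
  (Algebra.TensorProduct.comm k Γ(T, ⊤) Γ(C, Z.U₁)).toRingEquiv.trans
    (tensorEquiv c t Z.isAffineOpen₁ (isAffineOpen_top T) hA hR).symm

theorem boxEquiv_tmul (r : Γ(T, ⊤)) (a : Γ(C, Z.U₁)) :
    boxEquiv c t Z hA hR (r ⊗ₜ a) = boxφ c t Z.U₁ ⊤ r * fstφ c t Z.U₁ ⊤ a := by
  unfold boxEquiv
  rw [RingEquiv.trans_apply, RingEquiv.symm_apply_eq, map_mul]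
  have h1 := tensorEquiv_fst c t Z.isAffineOpen₁ (isAffineOpen_top T) hA hR a
  have h2 := tensorEquiv_snd c t Z.isAffineOpen₁ (isAffineOpen_top T) hA hR r
  change tensorEquiv c t Z.isAffineOpen₁ (isAffineOpen_top T) hA hR (fstφ c t Z.U₁ ⊤ a) = _ at h1
  change tensorEquiv c t Z.isAffineOpen₁ (isAffineOpen_top T) hA hR (boxφ c t Z.U₁ ⊤ r) = _ at h2
  rw [h1, h2, Algebra.TensorProduct.tmul_mul_tmul, one_mul, mul_one]
  rfl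

/-- the ideal of `Γ(C ×_k T, U₁ × T)` corresponding to an ideal of `R ⊗[k] A` -/
def boxIdeal (I : Ideal (Γ(T, ⊤) ⊗[k] Γ(C, Z.U₁))) : Ideal Γ(pullback c t, box c t Z.U₁ ⊤) :=
  I.map (boxEquiv c t Z hA hR : Γ(T, ⊤) ⊗[k] Γ(C, Z.U₁) →+* Γ(pullback c t, box c t Z.U₁ ⊤))

variable {c t Z}

theorem isInvIdeal_boxIdeal {I : Ideal (Γ(T, ⊤) ⊗[k] Γ(C, Z.U₁))} (hinv : IsInvIdeal I) :
    IsInvIdeal (boxIdeal c t Z hA hR I) :=
  hinv.map_equiv (boxEquiv c t Z hA hR)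

theorem boxIdeal_injective : Function.Injective (boxIdeal c t Z hA hR) := by
  intro I I' h
  unfold boxIdeal at h
  have := congrArg (Ideal.comap (boxEquiv c t Z hA hR : Γ(T, ⊤) ⊗[k] Γ(C, Z.U₁) →+*
    Γ(pullback c t, box c t Z.U₁ ⊤))) h
  have hb : Function.Bijective (boxEquiv c t Z hA hR : Γ(T, ⊤) ⊗[k] Γ(C, Z.U₁) →+*
      Γ(pullback c t, box c t Z.U₁ ⊤)) := (boxEquiv c t Z hA hR).bijective
  rwa [Ideal.comap_map_of_bijective _ hb, Ideal.comap_map_of_bijective _ hb] at this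

/-- the evaluation of a polynomial over `R` at `1 ⊗ a` corresponds to its evaluation at `π₁^♯ a` -/
theorem boxEquiv_aeval (a : Γ(C, Z.U₁)) (P : Polynomial Γ(T, ⊤)) :
    boxEquiv c t Z hA hR (Polynomial.aeval ((1 : Γ(T, ⊤)) ⊗ₜ[k] a) P) =
      P.eval₂ (boxφ c t Z.U₁ ⊤) (fstφ c t Z.U₁ ⊤ a) := by
  rw [Polynomial.aeval_def]
  have h := Polynomial.hom_eval₂ P (algebraMap Γ(T, ⊤) (Γ(T, ⊤) ⊗[k] Γ(C, Z.U₁)))
    (boxEquiv c t Z hA hR : Γ(T, ⊤) ⊗[k] Γ(C, Z.U₁) →+* Γ(pullback c t, box c t Z.U₁ ⊤))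
    ((1 : Γ(T, ⊤)) ⊗ₜ[k] a)
  refine h.trans ?_
  congr 1
  · ext r
    rw [RingHom.comp_apply, Algebra.TensorProduct.algebraMap_apply]
    change boxEquiv c t Z hA hR (r ⊗ₜ 1) = _
    rw [boxEquiv_tmul, map_one, mul_one]
  · change boxEquiv c t Z hA hR (1 ⊗ₜ a) = _
    rw [boxEquiv_tmul, map_one, one_mul]

/-- Cayley–Hamilton: a monic polynomial over `R` killing `x` modulo `I` -/
theorem exists_monic_aeval_mem {R S : Type*} [CommRing R] [CommRing S] [Algebra R S] (I : Ideal S)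
    [Module.Finite R (S ⧸ I)] (x : S) : ∃ P : Polynomial R, P.Monic ∧ Polynomial.aeval x P ∈ I := by
  obtain ⟨P, hP, hPx⟩ := IsIntegral.of_finite R (Ideal.Quotient.mk I x)
  refine ⟨P, hP, ?_⟩
  rw [← Ideal.Quotient.eq_zero_iff_mem]
  have h := Polynomial.aeval_algHom_apply (Ideal.Quotient.mkₐ R I) x P
  rw [← Polynomial.aeval_def] at hPx
  change Ideal.Quotient.mkₐ R I (Polynomial.aeval x P) = 0
  rw [← h]
  exact hPx

variable (a : Γ(C, Z.U₁)) (ainv : Γ(C, Z.U₂))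
  (hmul : resO (inf_le_left : Z.U₁ ⊓ Z.U₂ ≤ Z.U₁) a *
    resO (inf_le_right : Z.U₁ ⊓ Z.U₂ ≤ Z.U₂) ainv = 1)
  (hz : ainv ∈ Ideal.span {Z.z})

include hmul hz in
/-- **an admissible function exists** when `A_R ⧸ I` is a finite `R`-module -/
theorem nonempty_adm (I : Ideal (Γ(T, ⊤) ⊗[k] Γ(C, Z.U₁)))
    [Module.Finite Γ(T, ⊤) ((Γ(T, ⊤) ⊗[k] Γ(C, Z.U₁)) ⧸ I)] :
    Nonempty (Adm c t Z (boxIdeal c t Z hA hR I)) := by
  obtain ⟨P, hP, hPI⟩ := exists_monic_aeval_mem (R := Γ(T, ⊤)) I ((1 : Γ(T, ⊤)) ⊗ₜ[k] a)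
  refine ⟨Adm.ofMonic a ainv hmul hz P hP ?_⟩
  rw [← boxEquiv_aeval hA hR a P]
  exact Ideal.mem_map_of_mem _ hPI

variable (c t Z) (ε : SchemeHomOver (𝟙 (Spec (CommRingCat.of k))) c) (he : ∀ y, ε.1 y = e)

/-- **the rigidified bundle `O(D_I)` on `C ×_k T`** -/
def ODI (I : Ideal (Γ(T, ⊤) ⊗[k] Γ(C, Z.U₁))) (hinv : IsInvIdeal I)
    [Module.Finite Γ(T, ⊤) ((Γ(T, ⊤) ⊗[k] Γ(C, Z.U₁)) ⧸ I)] : RLB c ε t :=
  ODf.rlb (isInvIdeal_boxIdeal hA hR hinv)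
    (Classical.choice (nonempty_adm hA hR a ainv hmul hz I)) he

variable {c t Z}

/-- the admissible function chosen for `ODI` -/
def ODI.adm (I : Ideal (Γ(T, ⊤) ⊗[k] Γ(C, Z.U₁)))
    [Module.Finite Γ(T, ⊤) ((Γ(T, ⊤) ⊗[k] Γ(C, Z.U₁)) ⧸ I)] :
    Adm c t Z (boxIdeal c t Z hA hR I) :=
  Classical.choice (nonempty_adm hA hR a ainv hmul hz I)

theorem ODI_L (I : Ideal (Γ(T, ⊤) ⊗[k] Γ(C, Z.U₁))) (hinv : IsInvIdeal I)
    [Module.Finite Γ(T, ⊤) ((Γ(T, ⊤) ⊗[k] Γ(C, Z.U₁)) ⧸ I)] :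
    (ODI c t Z hA hR a ainv hmul hz ε he I hinv).L =
      ODf (isInvIdeal_boxIdeal hA hR hinv) (ODI.adm hA hR a ainv hmul hz I) := rfl

/-- `O(D_J)` only depends on the ideal -/
theorem ODf.exists_iso_of_eq {J J' : Ideal Γ(pullback c t, box c t Z.U₁ ⊤)} (h : J = J')
    (hinv : IsInvIdeal J) (hinv' : IsInvIdeal J') (F : Adm c t Z J) (F' : Adm c t Z J') :
    ∃ e : ODf hinv F ≅ ODf hinv' F', e.hom.app ⊤ (ODf.sD hinv F) = ODf.sD hinv' F' := by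
  subst h
  exact ODf.exists_iso hinv F F'

section Pull

variable {T' : Scheme.{u}} [IsAffine T'] {t' : T' ⟶ Spec (CommRingCat.of k)}
  (ψ : SchemeHomOver t' t)
  [Algebra k Γ(T', ⊤)] (hR' : algebraMap k Γ(T', ⊤) = (constHomOpen t' ⊤).hom)
  (φ : Γ(T, ⊤) →ₐ[k] Γ(T', ⊤))
  (hφ : ∀ r, φ r = (ψ.1.appLE ⊤ ⊤ (top_le_preimage_top' ψ)).hom r)

include hφ in
theorem bcφ_boxEquiv (x : Γ(T, ⊤) ⊗[k] Γ(C, Z.U₁)) :
    bcφ ψ Z.U₁ (boxEquiv c t Z hA hR x) =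
      boxEquiv c t' Z hA hR' (Hilb.bc k Γ(C, Z.U₁) φ x) := by
  induction x using TensorProduct.induction_on with
  | zero => rw [map_zero, map_zero, map_zero, map_zero]
  | tmul r a =>
    rw [boxEquiv_tmul, Hilb.bc_tmul, boxEquiv_tmul, map_mul, bcφ_boxφ, bcφ_fstφ, hφ]
  | add x y hx hy => rw [map_add, map_add, map_add, map_add, hx, hy]

include hφ in
theorem boxIdeal_push (I : Ideal (Γ(T, ⊤) ⊗[k] Γ(C, Z.U₁))) :
    boxIdeal c t' Z hA hR' (Hilb.push k Γ(C, Z.U₁) φ I) =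
      (boxIdeal c t Z hA hR I).map (bcφ ψ Z.U₁) := by
  unfold boxIdeal Hilb.push
  change Ideal.map _ (Ideal.map ((Hilb.bc k Γ(C, Z.U₁) φ).toRingHom) I) = _
  rw [Ideal.map_map, Ideal.map_map]
  congr 1
  exact RingHom.ext fun x => (bcφ_boxEquiv hA hR ψ hR' φ hφ x).symm

include hφ in
/-- **(S-pull)**: `O(D_I)` commutes with base change -/
theorem ODI_pullbackAlong_iso (I : Ideal (Γ(T, ⊤) ⊗[k] Γ(C, Z.U₁))) (hinv : IsInvIdeal I)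
    [Module.Finite Γ(T, ⊤) ((Γ(T, ⊤) ⊗[k] Γ(C, Z.U₁)) ⧸ I)]
    (hinv' : IsInvIdeal (Hilb.push k Γ(C, Z.U₁) φ I))
    [Module.Finite Γ(T', ⊤) ((Γ(T', ⊤) ⊗[k] Γ(C, Z.U₁)) ⧸ Hilb.push k Γ(C, Z.U₁) φ I)] :
    RLB.Iso ((ODI c t Z hA hR a ainv hmul hz ε he I hinv).pullbackAlong ψ)
      (ODI c t' Z hA hR' a ainv hmul hz ε he (Hilb.push k Γ(C, Z.U₁) φ I) hinv') := by
  have hJ := boxIdeal_push hA hR ψ hR' φ hφ I
  have hinvJ' : IsInvIdeal ((boxIdeal c t Z hA hR I).map (bcφ ψ Z.U₁)) := by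
    rw [← hJ]
    exact isInvIdeal_boxIdeal hA hR' hinv'
  obtain ⟨e₁, -⟩ := ODf.exists_pullback_iso ψ (isInvIdeal_boxIdeal hA hR hinv)
    (ODI.adm hA hR a ainv hmul hz I) hinvJ'
    ((ODI.adm hA hR a ainv hmul hz I).pull ψ)
  obtain ⟨e₂, -⟩ := ODf.exists_iso_of_eq hJ.symm hinvJ' (isInvIdeal_boxIdeal hA hR' hinv')
    ((ODI.adm hA hR a ainv hmul hz I).pull ψ)
    (ODI.adm hA hR' a ainv hmul hz (Hilb.push k Γ(C, Z.U₁) φ I))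
  exact ⟨e₁ ≪≫ e₂⟩

end Pull

end Fermat.Agent.S25lib.Sec
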