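/-
S25lib / Sec / Chart  (helper6)  --  Project L (S25), block `Sec/**` (synthesis on a two-chart cover).
One affine chart: `V` an affine open of `X`, `W` a module over `Γ(X, V)`.
* `LG V W`: the local generators `(h, w)` of `W` (`W[1/h]` free on `w`).
* `cT hV p T hT : W → Γ(X, T)`: the coordinate with respect to `p` on an open `T ≤ D(p.h)`; additive,
  semilinear, `cT p p.w = 1`, compatible with restriction, chain rule, base change to a smaller affine chart.
-/
import Fermat.Agent.S25lib.Sec.LocGen
import Fermat.Agent.S25lib.Mod.CocycleGen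

set_option autoImplicit false

noncomputable section

universe u

open AlgebraicGeometry CategoryTheory TopologicalSpace

namespace Fermat.Agent.S25lib.Sec

open Fermat.Agent.S25lib.Mod (resO resO_self resO_resO resO_mul resO_one resO_add)

variable {X : Scheme.{u}}

/-- restriction of functions, as a ring homomorphism -/
def resHom {U V : X.Opens} (h : V ≤ U) : Γ(X, U) →+* Γ(X, V) :=
  (X.presheaf.map (homOfLE h).op).hom

theorem resHom_apply {U V : X.Opens} (h : V ≤ U) (r : Γ(X, U)) : resHom h r = resO h r := rfl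

theorem resHom_comp {U V T : X.Opens} (h : V ≤ U) (h' : T ≤ V) :
    (resHom h').comp (resHom h) = resHom (h'.trans h) := by
  ext r
  exact resO_resO h h' r

theorem isAwayHom_resHom {V : X.Opens} (hV : IsAffineOpen V) (f : Γ(X, V)) :
    IsAwayHom (resHom (X.basicOpen_le f)) f := by
  have := hV.isLocalization_basicOpen f
  exact isAwayHom_algebraMap (S := Γ(X, X.basicOpen f)) f

/-- the local generators of a module over the functions on `V` -/
structure LG (V : X.Opens) (W : Type u) [AddCommGroup W] [Module Γ(X, V) W] where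
  h : Γ(X, V)
  w : W
  isLocGen : IsLocGen h w

section Single

variable {V : X.Opens} (hV : IsAffineOpen V) {W : Type u} [AddCommGroup W] [Module Γ(X, V) W]

/-- the open set of a local generator -/
abbrev LG.D (p : LG V W) : X.Opens := X.basicOpen p.h

theorem LG.D_le (p : LG V W) : p.D ≤ V := X.basicOpen_le p.h

/-- the coordinate on `D(h)` -/
def LG.c (p : LG V W) (x : W) : Γ(X, p.D) :=
  coord (isAwayHom_resHom hV p.h) p.isLocGen x

/-- the coordinate with respect to `p` on an open `T ≤ D(p.h)` -/
def cT (p : LG V W) (T : X.Opens) (hT : T ≤ p.D) (x : W) : Γ(X, T) :=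
  resO hT (p.c hV x)

theorem cT_self_D (p : LG V W) (x : W) : cT hV p p.D le_rfl x = p.c hV x := resO_self _

theorem cT_add (p : LG V W) (T : X.Opens) (hT : T ≤ p.D) (x y : W) :
    cT hV p T hT (x + y) = cT hV p T hT x + cT hV p T hT y := by
  unfold cT LG.c
  rw [coord_add, resO_add]

theorem cT_zero (p : LG V W) (T : X.Opens) (hT : T ≤ p.D) : cT hV p T hT (0 : W) = 0 := by
  unfold cT LG.c
  rw [coord_zero]
  exact map_zero _

theorem cT_smul (p : LG V W) (T : X.Opens) (hT : T ≤ p.D) (a : Γ(X, V)) (x : W) :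
    cT hV p T hT (a • x) = resO (hT.trans p.D_le) a * cT hV p T hT x := by
  unfold cT LG.c
  rw [coord_smul, resO_mul, resHom_apply, resO_resO]

theorem cT_self (p : LG V W) (T : X.Opens) (hT : T ≤ p.D) : cT hV p T hT p.w = 1 := by
  unfold cT LG.c
  rw [coord_self, resO_one]

theorem cT_res (p : LG V W) (T T' : X.Opens) (hT : T ≤ p.D) (h' : T' ≤ T) (x : W) :
    resO h' (cT hV p T hT x) = cT hV p T' (h'.trans hT) x := by
  unfold cT
  rw [resO_resO]

/-- **chain rule** -/
theorem cT_chain (p q : LG V W) (T : X.Opens) (hp : T ≤ p.D) (hq : T ≤ q.D) (x : W) :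
    cT hV q T hq x = cT hV p T hp x * cT hV q T hq p.w := by
  unfold cT LG.c
  have := coord_chain (isAwayHom_resHom hV p.h) p.isLocGen (isAwayHom_resHom hV q.h) q.isLocGen
    (resHom hp) (resHom hq) (by rw [resHom_comp, resHom_comp]) x
  exact this

/-- the coordinate of a generator with respect to another one is a unit -/
theorem cT_mul_cT (p q : LG V W) (T : X.Opens) (hp : T ≤ p.D) (hq : T ≤ q.D) :
    cT hV p T hp q.w * cT hV q T hq p.w = 1 := by
  rw [← cT_chain hV p q T hp hq q.w, cT_self]

/-- refinement of a local generator -/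
def LG.mul (p : LG V W) (g : Γ(X, V)) : LG V W := ⟨g * p.h, p.w, p.isLocGen.mul_left g⟩

theorem LG.mul_D (p : LG V W) (g : Γ(X, V)) : (p.mul g).D = X.basicOpen g ⊓ p.D :=
  X.basicOpen_mul g p.h

theorem LG.mul_D_le (p : LG V W) (g : Γ(X, V)) : (p.mul g).D ≤ p.D := by
  rw [p.mul_D]
  exact inf_le_right

theorem cT_mul (p : LG V W) (g : Γ(X, V)) (T : X.Opens) (hT : T ≤ (p.mul g).D) (x : W) :
    cT hV (p.mul g) T hT x = cT hV p T (hT.trans (p.mul_D_le g)) x := by
  rw [cT_chain hV p (p.mul g) T (hT.trans (p.mul_D_le g)) hT x]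
  have : cT hV (p.mul g) T hT p.w = 1 := cT_self hV (p.mul g) T hT
  rw [this, mul_one]

/-- vanishing of a coordinate -/
theorem c_eq_zero_iff (p : LG V W) (x : W) : p.c hV x = 0 ↔ ∃ n : ℕ, p.h ^ n • x = 0 :=
  coord_eq_zero_iff _ _ x

theorem exists_c_eq (p : LG V W) (s : Γ(X, p.D)) :
    ∃ (x : W) (n : ℕ), p.c hV x = s * resO p.D_le p.h ^ n :=
  exists_coord_eq (isAwayHom_resHom hV p.h) p.isLocGen s

theorem c_smul (p : LG V W) (a : Γ(X, V)) (x : W) : p.c hV (a • x) = resO p.D_le a * p.c hV x :=
  coord_smul _ _ a x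

theorem c_self (p : LG V W) : p.c hV p.w = 1 := coord_self _ _

include hV in
theorem isUnit_resO_h (p : LG V W) : IsUnit (resO p.D_le p.h) :=
  (isAwayHom_resHom hV p.h).unit

end Single

section BaseChange

variable {V V' : X.Opens} (hV : IsAffineOpen V) (hV' : IsAffineOpen V') (hVV' : V' ≤ V)
  {W W' : Type u} [AddCommGroup W] [Module Γ(X, V) W] [AddCommGroup W'] [Module Γ(X, V') W']

/-- **base change rule**: `ρ : W → W'` semilinear over the restriction `Γ(X, V) → Γ(X, V')`, mapping the
local generator `p` to the local generator `p'`: the coordinates correspond. -/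
theorem cT_map (ρ : W →+ W') (hρ : ∀ (a : Γ(X, V)) (x : W), ρ (a • x) = resO hVV' a • ρ x)
    (p : LG V W) (p' : LG V' W') (hh : p'.h = resO hVV' p.h) (hw : p'.w = ρ p.w)
    (T : X.Opens) (hT : T ≤ p.D) (hT' : T ≤ p'.D) (x : W) :
    cT hV' p' T hT' (ρ x) = cT hV p T hT x := by
  obtain ⟨h', w', hp'⟩ := p'
  simp only at hh hw
  subst hh hw
  have hle : X.basicOpen (resO hVV' p.h) ≤ X.basicOpen p.h := by
    have := X.basicOpen_res p.h (homOfLE hVV').op
    change X.basicOpen (resO hVV' p.h) = _ at this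
    rw [this]
    exact inf_le_right
  have key := coord_map (resHom hVV') ρ hρ (isAwayHom_resHom hV p.h) p.isLocGen
    (isAwayHom_resHom hV' (resO hVV' p.h)) hp' (resHom hle)
    (by rw [resHom_comp, resHom_comp]) x
  unfold cT LG.c
  refine (congrArg (resO hT') key).trans ?_
  rw [resHom_apply, resO_resO]

end BaseChange

end Fermat.Agent.S25lib.Sec
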