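/-
S25lib / Sec / Cech  (helper6)  --  Project L (S25), block `Sec/**` (synthesis on a two-chart cover).
One affine chart `(V, W)`: **an element of `W` is the same as a compatible family of coordinates** with respect
to a family of local generators whose opens cover `V`.
* `eq_zero_of_c_eq_zero`: an element all of whose coordinates vanish is zero.
* `exists_of_compat`: a compatible family of functions is the family of coordinates of an element.
-/
import Fermat.Agent.S25lib.Sec.Chart

set_option autoImplicit false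

noncomputable section

universe u

open AlgebraicGeometry CategoryTheory TopologicalSpace

namespace Fermat.Agent.S25lib.Sec

open Fermat.Agent.S25lib.Mod (resO resO_self resO_resO resO_mul resO_one resO_add)

variable {X : Scheme.{u}} {V : X.Opens} (hV : IsAffineOpen V) {W : Type u} [AddCommGroup W]
  [Module Γ(X, V) W]

/-- the coordinate with respect to `p` on `T`, as an additive map -/
def cTHom (p : LG V W) (T : X.Opens) (hT : T ≤ p.D) : W →+ Γ(X, T) where
  toFun := cT hV p T hT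
  map_zero' := cT_zero hV p T hT
  map_add' := cT_add hV p T hT

theorem cTHom_apply (p : LG V W) (T : X.Opens) (hT : T ≤ p.D) (x : W) :
    cTHom hV p T hT x = cT hV p T hT x := rfl

theorem cT_sub (p : LG V W) (T : X.Opens) (hT : T ≤ p.D) (x y : W) :
    cT hV p T hT (x - y) = cT hV p T hT x - cT hV p T hT y :=
  map_sub (cTHom hV p T hT) x y

theorem cT_neg (p : LG V W) (T : X.Opens) (hT : T ≤ p.D) (x : W) :
    cT hV p T hT (-x) = -cT hV p T hT x :=
  map_neg (cTHom hV p T hT) x

/-- an element all of whose coordinates vanish is zero -/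
theorem eq_zero_of_c_eq_zero (s : Set (LG V W)) (hs : Ideal.span (LG.h '' s) = ⊤) (x : W)
    (H : ∀ p ∈ s, p.c hV x = 0) : x = 0 := by
  apply eq_zero_of_forall_pow_smul (LG.h '' s) hs x
  rintro _ ⟨p, hp, rfl⟩
  exact (c_eq_zero_iff hV p x).mp (H p hp)

include hV in
/-- the opens of a spanning family of local generators cover `V` -/
theorem le_iSup_D (s : Set (LG V W)) (hs : Ideal.span (LG.h '' s) = ⊤) :
    V ≤ ⨆ p : s, (p : LG V W).D := by
  refine (hV.self_le_iSup_basicOpen_iff.mpr hs).trans ?_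
  rw [iSup_le_iff]
  rintro ⟨_, p, hp, rfl⟩
  exact le_iSup (fun p : s => (p : LG V W).D) ⟨p, hp⟩

/-- a finite spanning subfamily -/
theorem exists_finset_span (s : Set (LG V W)) (hs : Ideal.span (LG.h '' s) = ⊤) :
    ∃ F : Finset (LG V W), (F : Set (LG V W)) ⊆ s ∧ Ideal.span (LG.h '' (F : Set (LG V W))) = ⊤ := by
  have h1 : (1 : Γ(X, V)) ∈ Ideal.span (LG.h '' s) := by rw [hs]; trivial
  obtain ⟨F, hF, c, hc⟩ := (Submodule.mem_span_image_iff_exists_fun _).mp h1
  refine ⟨F, hF, ?_⟩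
  rw [Ideal.eq_top_iff_one]
  exact (Submodule.mem_span_image_finset_iff_exists_fun _).mpr ⟨c, hc⟩

/-- torsion criterion on an overlap: if the coordinate with respect to `q` vanishes on `D(p) ⊓ D(q)`, the
element is killed by a power of `p.h * q.h` -/
theorem exists_pow_smul_eq_zero (p q : LG V W) (y : W)
    (hy : cT hV q (p.D ⊓ q.D) inf_le_right y = 0) : ∃ m : ℕ, (p.h * q.h) ^ m • y = 0 := by
  have hD : (q.mul p.h).D = p.D ⊓ q.D := q.mul_D p.h
  have hle : (q.mul p.h).D ≤ p.D ⊓ q.D := le_of_eq hD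
  apply (c_eq_zero_iff hV (q.mul p.h) y).mp
  rw [← cT_self_D, cT_mul hV q p.h _ le_rfl y]
  have := congrArg (resO hle) hy
  rw [cT_res] at this
  rw [this]
  exact map_zero _

/-- a finite spanning subfamily of an indexed family -/
theorem exists_finset_span_idx {κ : Type*} (g : κ → LG V W)
    (hs : Ideal.span (Set.range fun k => (g k).h) = ⊤) :
    ∃ F : Finset κ, Ideal.span ((fun k => (g k).h) '' (F : Set κ)) = ⊤ := by
  have h1 : (1 : Γ(X, V)) ∈ Ideal.span ((fun k => (g k).h) '' Set.univ) := by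
    rw [Set.image_univ, hs]; trivial
  obtain ⟨F, -, c, hc⟩ := (Submodule.mem_span_image_iff_exists_fun _).mp h1
  refine ⟨F, ?_⟩
  rw [Ideal.eq_top_iff_one]
  exact (Submodule.mem_span_image_finset_iff_exists_fun _).mpr ⟨c, hc⟩

include hV in
/-- the opens of a spanning indexed family of local generators cover `V` -/
theorem le_iSup_D_idx {κ : Type*} (g : κ → LG V W)
    (hs : Ideal.span (Set.range fun k => (g k).h) = ⊤) : V ≤ ⨆ k, (g k).D := by
  refine (hV.self_le_iSup_basicOpen_iff.mpr hs).trans ?_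
  rw [iSup_le_iff]
  rintro ⟨_, k, rfl⟩
  exact le_iSup (fun k => (g k).D) k

/-- an element all of whose coordinates in a spanning indexed family vanish is zero -/
theorem eq_zero_of_c_eq_zero_idx {κ : Type*} (g : κ → LG V W)
    (hs : Ideal.span (Set.range fun k => (g k).h) = ⊤) (x : W)
    (H : ∀ k, (g k).c hV x = 0) : x = 0 := by
  apply eq_zero_of_forall_pow_smul _ hs x
  rintro _ ⟨k, rfl⟩
  exact (c_eq_zero_iff hV (g k) x).mp (H k)

/-- **gluing**, indexed form: a compatible family of functions is the family of coordinates of an element -/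
theorem exists_of_compat_idx {κ : Type*} (g : κ → LG V W)
    (hs : Ideal.span (Set.range fun k => (g k).h) = ⊤)
    (a : ∀ k, Γ(X, (g k).D))
    (ha : ∀ k l, resO (inf_le_right : (g k).D ⊓ (g l).D ≤ (g l).D) (a l) =
      resO (inf_le_left : (g k).D ⊓ (g l).D ≤ (g k).D) (a k) *
        cT hV (g l) ((g k).D ⊓ (g l).D) inf_le_right (g k).w) :
    ∃ x : W, ∀ k, (g k).c hV x = a k := by
  classical
  obtain ⟨F, hF⟩ := exists_finset_span_idx g hs
  -- numerators
  choose α n hα using fun k : κ => (isAwayHom_resHom hV (g k).h).surj (a k)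
  simp only [resHom_apply] at hα
  obtain ⟨N, hN⟩ : ∃ N : ℕ, N = F.sup n := ⟨_, rfl⟩
  obtain ⟨α', hα'⟩ : ∃ α' : κ → Γ(X, V), ∀ k, α' k = (g k).h ^ (N - n k) * α k :=
    ⟨_, fun _ => rfl⟩
  have hα'' : ∀ k ∈ F, a k * resO (g k).D_le (g k).h ^ N = resO (g k).D_le (α' k) := by
    intro k hk
    have hle : n k ≤ N := hN ▸ Finset.le_sup hk
    rw [hα', resO_mul, ← hα k]
    have : resO (g k).D_le ((g k).h ^ (N - n k)) = resO (g k).D_le (g k).h ^ (N - n k) :=
      map_pow _ _ _
    rw [this]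
    calc a k * resO (g k).D_le (g k).h ^ N
        = a k * resO (g k).D_le (g k).h ^ (N - n k + n k) := by rw [Nat.sub_add_cancel hle]
      _ = _ := by rw [pow_add]; ring
  obtain ⟨β, hβ⟩ : ∃ β : κ → W, ∀ k, β k = α' k • (g k).w := ⟨_, fun _ => rfl⟩
  have hcβ : ∀ k ∈ F, (g k).c hV (β k) = a k * resO (g k).D_le (g k).h ^ N := by
    intro k hk
    rw [hβ, c_smul, c_self, mul_one, hα'' k hk]
  -- the torsion exponents
  have htors : ∀ k ∈ F, ∀ l ∈ F, ∃ m : ℕ,
      ((g k).h * (g l).h) ^ m • ((g l).h ^ N • β k - (g k).h ^ N • β l) = 0 := by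
    intro k hk l hl
    apply exists_pow_smul_eq_zero hV
    rw [cT_sub, cT_smul, cT_smul,
      cT_chain hV (g k) (g l) ((g k).D ⊓ (g l).D) inf_le_left inf_le_right (β k)]
    have e1 : cT hV (g k) ((g k).D ⊓ (g l).D) inf_le_left (β k) =
        resO inf_le_left (a k) * resO (inf_le_left.trans (g k).D_le) (g k).h ^ N := by
      unfold cT
      rw [hcβ k hk, resO_mul]
      congr 1
      rw [show resO (inf_le_left : (g k).D ⊓ (g l).D ≤ (g k).D) (resO (g k).D_le (g k).h ^ N) =
        resO (inf_le_left : (g k).D ⊓ (g l).D ≤ (g k).D) (resO (g k).D_le (g k).h) ^ N from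
          map_pow _ _ _, resO_resO]
    have e2 : cT hV (g l) ((g k).D ⊓ (g l).D) inf_le_right (β l) =
        resO inf_le_right (a l) * resO (inf_le_right.trans (g l).D_le) (g l).h ^ N := by
      unfold cT
      rw [hcβ l hl, resO_mul]
      congr 1
      rw [show resO (inf_le_right : (g k).D ⊓ (g l).D ≤ (g l).D) (resO (g l).D_le (g l).h ^ N) =
        resO (inf_le_right : (g k).D ⊓ (g l).D ≤ (g l).D) (resO (g l).D_le (g l).h) ^ N from
          map_pow _ _ _, resO_resO]
    rw [e1, e2, ha k l]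
    have e3 : resO (inf_le_right.trans (g l).D_le : (g k).D ⊓ (g l).D ≤ V) ((g l).h ^ N) =
        resO (inf_le_right.trans (g l).D_le : (g k).D ⊓ (g l).D ≤ V) (g l).h ^ N := map_pow _ _ _
    have e4 : resO (inf_le_right.trans (g l).D_le : (g k).D ⊓ (g l).D ≤ V) ((g k).h ^ N) =
        resO (inf_le_left.trans (g k).D_le : (g k).D ⊓ (g l).D ≤ V) (g k).h ^ N := map_pow _ _ _
    rw [e3, e4]
    ring
  choose! m hm using htors
  obtain ⟨M, hM⟩ : ∃ M : ℕ, M = F.sup (fun k => F.sup (m k)) := ⟨_, rfl⟩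
  have hmM : ∀ k ∈ F, ∀ l ∈ F, m k l ≤ M := by
    intro k hk l hl
    rw [hM]
    exact (Finset.le_sup (f := m k) hl).trans (Finset.le_sup (f := fun k => F.sup (m k)) hk)
  have htors' : ∀ k ∈ F, ∀ l ∈ F,
      ((g k).h * (g l).h) ^ M • ((g l).h ^ N • β k - (g k).h ^ N • β l) = 0 := by
    intro k hk l hl
    rw [← Nat.sub_add_cancel (hmM k hk l hl), pow_add, mul_smul, hm k hk l hl, smul_zero]
  -- gluing
  obtain ⟨G, hG⟩ : ∃ G : κ → Γ(X, V), ∀ k, G k = (g k).h ^ (N + M) := ⟨_, fun _ => rfl⟩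
  obtain ⟨γ, hγ⟩ : ∃ γ : κ → W, ∀ k, γ k = (g k).h ^ M • β k := ⟨_, fun _ => rfl⟩
  have hGγ : ∀ k ∈ F, ∀ l ∈ F, G l • γ k = G k • γ l := by
    intro k hk l hl
    rw [← sub_eq_zero, ← htors' k hk l hl, hG, hG, hγ, hγ]
    simp only [smul_sub, smul_smul]
    congr 1 <;> congr 1 <;> ring
  have hspan : Ideal.span (G '' (F : Set κ)) = ⊤ := by
    have := Ideal.span_pow_eq_top _ hF (N + M)
    rw [Set.image_image] at this
    convert this using 2
    ext k
    simp only [hG]
  obtain ⟨x, hx⟩ := exists_glue F G γ hspan hGγ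
  have hxF : ∀ l ∈ F, (g l).c hV x = a l := by
    intro l hl
    have h1 := congrArg ((g l).c hV) (hx l hl)
    rw [hG, hγ, c_smul, c_smul, hcβ l hl] at h1
    have e5 : resO (g l).D_le ((g l).h ^ (N + M)) = resO (g l).D_le (g l).h ^ (N + M) :=
      map_pow _ _ _
    have e6 : resO (g l).D_le ((g l).h ^ M) = resO (g l).D_le (g l).h ^ M := map_pow _ _ _
    rw [e5, e6] at h1
    apply ((isUnit_resO_h hV (g l)).pow (N + M)).mul_left_cancel
    rw [h1, pow_add]
    ring
  refine ⟨x, fun k => ?_⟩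
  -- extension to all indices by the sheaf property of functions
  have hF' : Ideal.span (Set.range fun l : (F : Set κ) => (g l).h) = ⊤ := by
    rw [← hF]
    congr 1
    ext r
    constructor
    · rintro ⟨⟨l, hl⟩, rfl⟩
      exact ⟨l, hl, rfl⟩
    · rintro ⟨l, hl, rfl⟩
      exact ⟨⟨l, hl⟩, rfl⟩
  have hcov : (g k).D ≤ ⨆ l : (F : Set κ), (g l).D ⊓ (g k).D := by
    rw [← iSup_inf_eq]
    exact le_inf ((g k).D_le.trans (le_iSup_D_idx hV (fun l : (F : Set κ) => g l) hF')) le_rfl
  apply Mod.eq_of_resO_eq (fun l : (F : Set κ) => (g l).D ⊓ (g k).D) (g k).D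
    (fun _ => inf_le_right) hcov
  rintro ⟨l, hl⟩
  have hl' : l ∈ F := hl
  change resO _ ((g k).c hV x) = resO _ (a k)
  rw [ha l k, ← hxF l hl']
  exact cT_chain hV (g l) (g k) ((g l).D ⊓ (g k).D) inf_le_left inf_le_right x

/-- **gluing**: a compatible family of functions is the family of coordinates of an element -/
theorem exists_of_compat (s : Set (LG V W)) (hs : Ideal.span (LG.h '' s) = ⊤)
    (a : ∀ p : LG V W, Γ(X, p.D))
    (ha : ∀ p ∈ s, ∀ q ∈ s, resO (inf_le_right : p.D ⊓ q.D ≤ q.D) (a q) =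
      resO (inf_le_left : p.D ⊓ q.D ≤ p.D) (a p) * cT hV q (p.D ⊓ q.D) inf_le_right p.w) :
    ∃ x : W, ∀ p ∈ s, p.c hV x = a p := by
  have hs' : Ideal.span (Set.range fun k : s => (k : LG V W).h) = ⊤ := by
    rw [← hs]
    congr 1
    ext r
    constructor
    · rintro ⟨⟨p, hp⟩, rfl⟩
      exact ⟨p, hp, rfl⟩
    · rintro ⟨p, hp, rfl⟩
      exact ⟨⟨p, hp⟩, rfl⟩
  obtain ⟨x, hx⟩ := exists_of_compat_idx hV (fun k : s => (k : LG V W)) hs' (fun k => a k)
    (fun k l => ha k k.2 l l.2)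
  exact ⟨x, fun p hp => hx ⟨p, hp⟩⟩

end Fermat.Agent.S25lib.Sec
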