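/-
S25lib / Sec / Synth  (helper6)  --  Project L (S25), block `Sec/**`: **(S1) synthesis on a two-chart cover.**
`X` a scheme covered by two affine opens `V false`, `V true` with affine intersection `V₁₂`; `W b` a module over
`Γ(X, V b)` which is locally free of rank one (local generators span the unit ideal), `W₁₂` a module over
`Γ(X, V₁₂)` and semilinear maps `ρ b : W b → W₁₂` mapping local generators to local generators (i.e. `W₁₂` is
the base change of both).  Then `GlueData.synth : X.Modules` is the invertible module glued from the `W b`: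
it is the module of the cocycle, indexed by ALL local generators `(b, h, w)`, of the ratios of generators.
-/
import Fermat.Agent.S25lib.Sec.Cech

set_option autoImplicit false

noncomputable section

universe u

open AlgebraicGeometry CategoryTheory TopologicalSpace

namespace Fermat.Agent.S25lib.Sec

open Fermat.Agent.S25lib.Mod (resO resO_self resO_resO resO_mul resO_one resO_add)

variable {X : Scheme.{u}}

theorem inf_le_bool (V : Bool → X.Opens) (b : Bool) : V false ⊓ V true ≤ V b := by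
  cases b
  · exact inf_le_left
  · exact inf_le_right

theorem le_inf_of_ne (V : Bool → X.Opens) {b c : Bool} (h : b ≠ c) {T : X.Opens} (hb : T ≤ V b)
    (hc : T ≤ V c) : T ≤ V false ⊓ V true := by
  cases b <;> cases c
  · exact absurd rfl h
  · exact le_inf hb hc
  · exact le_inf hc hb
  · exact absurd rfl h

/-- a cover of `X` by two affine opens with affine intersection -/
structure Charts (X : Scheme.{u}) where
  /-- the two charts -/
  V : Bool → X.Opens
  aff : ∀ b, IsAffineOpen (V b)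
  aff₁₂ : IsAffineOpen (V false ⊓ V true)
  cover : V false ⊔ V true = ⊤

/-- **two-chart gluing data** for an invertible module on `X` -/
structure GlueData (𝒱 : Charts X) where
  /-- the modules of sections over the charts -/
  W : ∀ b, ModuleCat.{u} Γ(X, 𝒱.V b)
  /-- the module of sections over the overlap -/
  W₁₂ : ModuleCat.{u} Γ(X, 𝒱.V false ⊓ 𝒱.V true)
  /-- the restriction maps -/
  ρ : ∀ b, W b →+ W₁₂
  ρ_smul : ∀ (b : Bool) (a : Γ(X, 𝒱.V b)) (x : W b),
    ρ b (a • x) = resO (inf_le_bool 𝒱.V b) a • ρ b x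
  /-- `W b` is locally free of rank one -/
  span : ∀ b, Ideal.span {h : Γ(X, 𝒱.V b) | ∃ w : W b, IsLocGen h w} = ⊤
  /-- the restriction maps are base change maps: they preserve local generators -/
  gen : ∀ (b : Bool) (h : Γ(X, 𝒱.V b)) (w : W b), IsLocGen h w →
    IsLocGen (resO (inf_le_bool 𝒱.V b) h) (ρ b w)

namespace GlueData

variable {𝒱 : Charts X} (D : GlueData 𝒱)

/-- the charts -/
abbrev V (_D : GlueData 𝒱) : Bool → X.Opens := 𝒱.V

theorem aff (b : Bool) : IsAffineOpen (D.V b) := 𝒱.aff b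

theorem aff₁₂ : IsAffineOpen (D.V false ⊓ D.V true) := 𝒱.aff₁₂

theorem cover : D.V false ⊔ D.V true = ⊤ := 𝒱.cover

/-- the overlap -/
abbrev V₁₂ : X.Opens := D.V false ⊓ D.V true

theorem V₁₂_le (b : Bool) : D.V₁₂ ≤ D.V b := inf_le_bool D.V b

/-- the index set: all local generators of both charts -/
def Idx : Type u := Σ b : Bool, LG (D.V b) (D.W b)

/-- the chart of an index -/
abbrev Idx.b {𝒱 : Charts X} {D : GlueData 𝒱} (i : D.Idx) : Bool := i.1

/-- the local generator of an index -/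
abbrev Idx.p {𝒱 : Charts X} {D : GlueData 𝒱} (i : D.Idx) : LG (D.V i.1) (D.W i.1) := i.2

/-- the open set of an index -/
abbrev U (i : D.Idx) : X.Opens := i.2.D

theorem U_le (i : D.Idx) : D.U i ≤ D.V i.1 := i.2.D_le

/-- the local generator of the overlap module induced by a local generator of a chart -/
def push {b : Bool} (p : LG (D.V b) (D.W b)) : LG D.V₁₂ D.W₁₂ :=
  ⟨resO (D.V₁₂_le b) p.h, D.ρ b p.w, D.gen b p.h p.w p.isLocGen⟩

theorem push_D {b : Bool} (p : LG (D.V b) (D.W b)) : (D.push p).D = D.V₁₂ ⊓ p.D :=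
  X.basicOpen_res p.h (homOfLE (D.V₁₂_le b)).op

theorem le_push_D {b : Bool} (p : LG (D.V b) (D.W b)) {T : X.Opens} (hT : T ≤ p.D)
    (hT' : T ≤ D.V₁₂) : T ≤ (D.push p).D := by
  rw [D.push_D]
  exact le_inf hT' hT

/-- coordinates of the overlap module with respect to an index -/
def k₁₂ (i : D.Idx) (T : X.Opens) (hT : T ≤ D.U i) (hT' : T ≤ D.V₁₂) (y : D.W₁₂) : Γ(X, T) :=
  cT D.aff₁₂ (D.push i.2) T (D.le_push_D i.2 hT hT') y

/-- **the coordinate of an element of the chart module `W c` with respect to the index `i`**, on an open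
`T ≤ U i ⊓ V c` -/
def kap (i : D.Idx) (c : Bool) (T : X.Opens) (hT : T ≤ D.U i) (hTc : T ≤ D.V c) (x : D.W c) :
    Γ(X, T) :=
  if h : i.1 = c then cT (D.aff c) (h ▸ i.2) T (by subst h; exact hT) x
  else D.k₁₂ i T hT (le_inf_of_ne D.V h (hT.trans (D.U_le i)) hTc) (D.ρ c x)

theorem kap_same (b : Bool) (p : LG (D.V b) (D.W b)) (T : X.Opens) (hT : T ≤ p.D)
    (hTc : T ≤ D.V b) (x : D.W b) :
    D.kap ⟨b, p⟩ b T hT hTc x = cT (D.aff b) p T hT x := by
  unfold kap
  rw [dif_pos rfl]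

theorem kap_ne (i : D.Idx) (c : Bool) (h : i.1 ≠ c) (T : X.Opens) (hT : T ≤ D.U i)
    (hTc : T ≤ D.V c) (x : D.W c) :
    D.kap i c T hT hTc x =
      D.k₁₂ i T hT (le_inf_of_ne D.V h (hT.trans (D.U_le i)) hTc) (D.ρ c x) := by
  unfold kap
  rw [dif_neg h]

/-- on the overlap all coordinates are coordinates of the overlap module -/
theorem kap_eq_k₁₂ (i : D.Idx) (c : Bool) (T : X.Opens) (hT : T ≤ D.U i) (hTc : T ≤ D.V c)
    (hT' : T ≤ D.V₁₂) (x : D.W c) :
    D.kap i c T hT hTc x = D.k₁₂ i T hT hT' (D.ρ c x) := by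
  obtain ⟨b, p⟩ := i
  by_cases h : b = c
  · subst h
    rw [kap_same]
    unfold k₁₂
    exact (cT_map (D.aff b) D.aff₁₂ (D.V₁₂_le b) (D.ρ b) (D.ρ_smul b) p (D.push p) rfl rfl T hT
      (D.le_push_D p hT hT') x).symm
  · rw [D.kap_ne ⟨b, p⟩ c h]

theorem k₁₂_chain (i j : D.Idx) (T : X.Opens) (hi : T ≤ D.U i) (hj : T ≤ D.U j) (hT' : T ≤ D.V₁₂)
    (y : D.W₁₂) :
    D.k₁₂ j T hj hT' y = D.k₁₂ i T hi hT' y * D.k₁₂ j T hj hT' (D.ρ i.1 i.2.w) :=
  cT_chain D.aff₁₂ (D.push i.2) (D.push j.2) T _ _ y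

/-- **the chain rule** for the coordinates `kap` -/
theorem kap_chain (i j : D.Idx) (c : Bool) (T : X.Opens) (hi : T ≤ D.U i) (hj : T ≤ D.U j)
    (hTc : T ≤ D.V c) (x : D.W c) :
    D.kap j c T hj hTc x =
      D.kap i c T hi hTc x * D.kap j i.1 T hj (hi.trans (D.U_le i)) i.2.w := by
  by_cases h : i.1 = c ∧ j.1 = c
  · obtain ⟨b, p⟩ := i
    obtain ⟨b', q⟩ := j
    obtain ⟨h1, h2⟩ := h
    simp only at h1 h2
    subst h1
    subst h2
    rw [kap_same, kap_same, kap_same]
    exact cT_chain (D.aff _) p q T hi hj x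
  · have hT' : T ≤ D.V₁₂ := by
      by_cases h1 : i.1 = c
      · have h2 : j.1 ≠ c := fun h2 => h ⟨h1, h2⟩
        exact le_inf_of_ne D.V h2 (hj.trans (D.U_le j)) hTc
      · exact le_inf_of_ne D.V h1 (hi.trans (D.U_le i)) hTc
    rw [D.kap_eq_k₁₂ j c T hj hTc hT', D.kap_eq_k₁₂ i c T hi hTc hT',
      D.kap_eq_k₁₂ j i.1 T hj _ hT']
    exact D.k₁₂_chain i j T hi hj hT' _

theorem kap_self (i : D.Idx) (T : X.Opens) (hT : T ≤ D.U i) (hTc : T ≤ D.V i.1) :
    D.kap i i.1 T hT hTc i.2.w = 1 := by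
  obtain ⟨b, p⟩ := i
  rw [kap_same]
  exact cT_self (D.aff b) p T hT

theorem kap_res (i : D.Idx) (c : Bool) (T T' : X.Opens) (hT : T ≤ D.U i) (hTc : T ≤ D.V c)
    (h' : T' ≤ T) (x : D.W c) :
    resO h' (D.kap i c T hT hTc x) = D.kap i c T' (h'.trans hT) (h'.trans hTc) x := by
  obtain ⟨b, p⟩ := i
  by_cases h : b = c
  · subst h
    rw [kap_same, kap_same]
    exact cT_res (D.aff b) p T T' hT h' x
  · rw [D.kap_ne ⟨b, p⟩ c h, D.kap_ne ⟨b, p⟩ c h]
    exact cT_res D.aff₁₂ _ T T' _ h' _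

theorem kap_add (i : D.Idx) (c : Bool) (T : X.Opens) (hT : T ≤ D.U i) (hTc : T ≤ D.V c)
    (x y : D.W c) :
    D.kap i c T hT hTc (x + y) = D.kap i c T hT hTc x + D.kap i c T hT hTc y := by
  obtain ⟨b, p⟩ := i
  by_cases h : b = c
  · subst h
    rw [kap_same, kap_same, kap_same]
    exact cT_add (D.aff b) p T hT x y
  · rw [D.kap_ne ⟨b, p⟩ c h, D.kap_ne ⟨b, p⟩ c h, D.kap_ne ⟨b, p⟩ c h, map_add]
    exact cT_add D.aff₁₂ _ T _ _ _

theorem kap_smul (i : D.Idx) (c : Bool) (T : X.Opens) (hT : T ≤ D.U i) (hTc : T ≤ D.V c)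
    (a : Γ(X, D.V c)) (x : D.W c) :
    D.kap i c T hT hTc (a • x) = resO hTc a * D.kap i c T hT hTc x := by
  obtain ⟨b, p⟩ := i
  by_cases h : b = c
  · subst h
    rw [kap_same, kap_same]
    exact cT_smul (D.aff b) p T hT a x
  · rw [D.kap_ne ⟨b, p⟩ c h, D.kap_ne ⟨b, p⟩ c h, D.ρ_smul]
    unfold k₁₂
    rw [cT_smul, resO_resO]

/-- the opens of the indices cover `X` -/
theorem iSup_U : ⨆ i : D.Idx, D.U i = ⊤ := by
  rw [eq_top_iff, ← D.cover, sup_le_iff]
  have key : ∀ b, D.V b ≤ ⨆ i : D.Idx, D.U i := by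
    intro b
    have hs : Ideal.span (LG.h '' (Set.univ : Set (LG (D.V b) (D.W b)))) = ⊤ := by
      rw [← D.span b]
      congr 1
      ext h
      constructor
      · rintro ⟨p, -, rfl⟩
        exact ⟨p.w, p.isLocGen⟩
      · rintro ⟨w, hw⟩
        exact ⟨⟨h, w, hw⟩, trivial, rfl⟩
    refine (le_iSup_D (D.aff b) Set.univ hs).trans ?_
    rw [iSup_le_iff]
    rintro ⟨p, -⟩
    exact le_iSup (fun i : D.Idx => D.U i) ⟨b, p⟩
  exact ⟨key false, key true⟩

/-- **the cocycle of the ratios of local generators** -/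
@[reducible] def cocycle : Mod.Cocycle X D.Idx where
  U := D.U
  hU := D.iSup_U
  u i j := D.kap j i.1 (D.U i ⊓ D.U j) inf_le_right (inf_le_left.trans (D.U_le i)) i.2.w
  u_self i := D.kap_self i _ _ _
  u_mul i j k := by
    rw [kap_res, kap_res, kap_res]
    exact (D.kap_chain j k i.1 (D.U i ⊓ D.U j ⊓ D.U k) _ _ _ _).symm

/-- **(S1)** the module glued from the two-chart data -/
abbrev synth : X.Modules := D.cocycle.toModule

theorem isInvertible_synth : Scheme.Modules.IsInvertible D.synth :=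
  D.cocycle.isInvertible_toModule

end GlueData

end Fermat.Agent.S25lib.Sec
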