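/-
S25lib / Sec / Sections  (helper6)  --  Project L (S25), block `Sec/**`: **the sections of the synthesised
module over the charts are the given modules.**
`D.θ c T hT : W c → Γ(D.synth, T)` for `T ≤ V c` (additive, semilinear, compatible with restriction and with
`ρ`), `D.θ₁₂ T hT : W₁₂ → Γ(D.synth, T)` for `T ≤ V₁₂`; **`D.θ_bijective c : Bijective (θ c (V c))`** and
`D.gen_eq : D.cocycle.gen ⟨b, p⟩ = θ b (D(p.h)) p.w`.
-/
import Fermat.Agent.S25lib.Sec.Synth

set_option autoImplicit false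

noncomputable section

universe u

open AlgebraicGeometry CategoryTheory TopologicalSpace

namespace Fermat.Agent.S25lib.Sec

open Fermat.Agent.S25lib.Mod (resO resO_self resO_resO resO_mul resO_one resO_add)

variable {X : Scheme.{u}}

section CocycleVal

variable {ι : Type u} (c : Mod.Cocycle X ι)

theorem toSec_add_val {V : X.Opens} (s t : Γ(c.toModule, V)) (i : ι) :
    (c.toSec (s + t)).1 i = (c.toSec s).1 i + (c.toSec t).1 i := rfl

theorem toSec_smul_val {V : X.Opens} (r : Γ(X, V)) (s : Γ(c.toModule, V)) (i : ι) :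
    (c.toSec (r • s)).1 i = resO (inf_le_left : V ⊓ c.U i ≤ V) r * (c.toSec s).1 i := rfl

theorem toSec_res_val {V V' : X.Opens} (h : V' ≤ V) (s : Γ(c.toModule, V)) (i : ι) :
    (c.toSec (Mod.res c.toModule h s)).1 i =
      resO (inf_le_inf_right (c.U i) h) ((c.toSec s).1 i) := rfl

end CocycleVal

namespace GlueData

variable {𝒱 : Charts X} (D : GlueData 𝒱)

theorem cocycle_u (i j : D.Idx) : D.cocycle.u i j =
    D.kap j i.1 (D.U i ⊓ D.U j) inf_le_right (inf_le_left.trans (D.U_le i)) i.2.w := rfl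

theorem k₁₂_res (i : D.Idx) (T T' : X.Opens) (hT : T ≤ D.U i) (hT₁₂ : T ≤ D.V₁₂) (h' : T' ≤ T)
    (y : D.W₁₂) :
    resO h' (D.k₁₂ i T hT hT₁₂ y) = D.k₁₂ i T' (h'.trans hT) (h'.trans hT₁₂) y :=
  cT_res D.aff₁₂ _ T T' _ h' y

/-- the family of coordinates of an element of a chart module -/
def fam (c : Bool) (T : X.Opens) (hT : T ≤ D.V c) (x : D.W c) :
    ∀ i : D.Idx, Γ(X, T ⊓ D.cocycle.U i) :=
  fun i => D.kap i c (T ⊓ D.U i) inf_le_right (inf_le_left.trans hT) x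

theorem isSec_fam (c : Bool) (T : X.Opens) (hT : T ≤ D.V c) (x : D.W c) :
    D.cocycle.IsSec T (D.fam c T hT x) := by
  intro i j
  unfold fam
  rw [D.cocycle_u, kap_res, kap_res, kap_res]
  exact D.kap_chain i j c _ _ _ _ x

/-- the family of coordinates of an element of the overlap module -/
def fam₁₂ (T : X.Opens) (hT : T ≤ D.V₁₂) (y : D.W₁₂) : ∀ i : D.Idx, Γ(X, T ⊓ D.cocycle.U i) :=
  fun i => D.k₁₂ i (T ⊓ D.U i) inf_le_right (inf_le_left.trans hT) y

theorem fam_eq_fam₁₂ (c : Bool) (T : X.Opens) (hT : T ≤ D.V₁₂) (x : D.W c) :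
    D.fam c T (hT.trans (D.V₁₂_le c)) x = D.fam₁₂ T hT (D.ρ c x) := by
  funext i
  exact D.kap_eq_k₁₂ i c _ _ _ (inf_le_left.trans hT) x

/-- **the section of the glued module defined by an element of a chart module** -/
def θ (c : Bool) (T : X.Opens) (hT : T ≤ D.V c) (x : D.W c) : Γ(D.synth, T) :=
  D.cocycle.ofSec ⟨D.fam c T hT x, D.isSec_fam c T hT x⟩

theorem θ_val (c : Bool) (T : X.Opens) (hT : T ≤ D.V c) (x : D.W c) (i : D.Idx) :
    (D.cocycle.toSec (D.θ c T hT x)).1 i =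
      D.kap i c (T ⊓ D.U i) inf_le_right (inf_le_left.trans hT) x := rfl

theorem ext_sec {T : X.Opens} {s t : Γ(D.synth, T)}
    (h : ∀ i, (D.cocycle.toSec s).1 i = (D.cocycle.toSec t).1 i) : s = t :=
  Subtype.ext (funext h)

theorem θ_add (c : Bool) (T : X.Opens) (hT : T ≤ D.V c) (x y : D.W c) :
    D.θ c T hT (x + y) = D.θ c T hT x + D.θ c T hT y := by
  apply D.ext_sec
  intro i
  rw [toSec_add_val, θ_val, θ_val, θ_val]
  exact D.kap_add i c _ _ _ x y

theorem θ_smul (c : Bool) (T : X.Opens) (hT : T ≤ D.V c) (a : Γ(X, D.V c)) (x : D.W c) :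
    D.θ c T hT (a • x) = resO hT a • D.θ c T hT x := by
  apply D.ext_sec
  intro i
  rw [toSec_smul_val, θ_val, θ_val, kap_smul, resO_resO]

theorem θ_res (c : Bool) (T T' : X.Opens) (hT : T ≤ D.V c) (h' : T' ≤ T) (x : D.W c) :
    Mod.res D.synth h' (D.θ c T hT x) = D.θ c T' (h'.trans hT) x := by
  apply D.ext_sec
  intro i
  rw [toSec_res_val, θ_val, θ_val, kap_res]

/-- the generator of the cocycle module at the index `i = (b, h, w)` is the section `w` on `D(h)` -/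
theorem gen_eq (i : D.Idx) : D.cocycle.gen i = D.θ i.1 (D.U i) (D.U_le i) i.2.w := by
  apply D.ext_sec
  intro j
  rfl

/-- the section of the glued module defined by an element of the overlap module -/
def θ₁₂ (T : X.Opens) (hT : T ≤ D.V₁₂) (y : D.W₁₂) : Γ(D.synth, T) :=
  D.cocycle.ofSec ⟨D.fam₁₂ T hT y, by
    intro i j
    unfold fam₁₂
    rw [D.cocycle_u, k₁₂_res, k₁₂_res, kap_res,
      D.kap_eq_k₁₂ j i.1 _ _ _ (inf_le_left.trans (inf_le_left.trans hT))]
    exact D.k₁₂_chain i j _ _ _ _ y⟩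

theorem θ_eq_θ₁₂ (c : Bool) (T : X.Opens) (hT : T ≤ D.V₁₂) (x : D.W c) :
    D.θ c T (hT.trans (D.V₁₂_le c)) x = D.θ₁₂ T hT (D.ρ c x) := by
  apply D.ext_sec
  intro i
  exact congrFun (D.fam_eq_fam₁₂ c T hT x) i

theorem θ₁₂_val (T : X.Opens) (hT : T ≤ D.V₁₂) (y : D.W₁₂) (i : D.Idx) :
    (D.cocycle.toSec (D.θ₁₂ T hT y)).1 i =
      D.k₁₂ i (T ⊓ D.U i) inf_le_right (inf_le_left.trans hT) y := rfl

theorem θ₁₂_res (T T' : X.Opens) (hT : T ≤ D.V₁₂) (h' : T' ≤ T) (y : D.W₁₂) :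
    Mod.res D.synth h' (D.θ₁₂ T hT y) = D.θ₁₂ T' (h'.trans hT) y := by
  apply D.ext_sec
  intro i
  rw [toSec_res_val, θ₁₂_val, θ₁₂_val, k₁₂_res]

theorem span_univ (c : Bool) :
    Ideal.span (LG.h '' (Set.univ : Set (LG (D.V c) (D.W c)))) = ⊤ := by
  rw [← D.span c]
  congr 1
  ext h
  constructor
  · rintro ⟨p, -, rfl⟩
    exact ⟨p.w, p.isLocGen⟩
  · rintro ⟨w, hw⟩
    exact ⟨⟨h, w, hw⟩, trivial, rfl⟩

/-- sections of the glued module over `T ≤ V c` are determined by their coordinates at the indices of the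
chart `c` -/
theorem ext_of_chart (c : Bool) {T : X.Opens} (hT : T ≤ D.V c) (s t : Γ(D.synth, T))
    (h : ∀ p : LG (D.V c) (D.W c),
      (D.cocycle.toSec s).1 ⟨c, p⟩ = (D.cocycle.toSec t).1 ⟨c, p⟩) : s = t := by
  apply D.ext_sec
  intro i
  have hcov : T ⊓ D.U i ≤ ⨆ p : (Set.univ : Set (LG (D.V c) (D.W c))),
      T ⊓ D.U i ⊓ (p : LG (D.V c) (D.W c)).D := by
    rw [← inf_iSup_eq]
    exact le_inf le_rfl ((inf_le_left.trans hT).trans
      (le_iSup_D (D.aff c) Set.univ (D.span_univ c)))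
  apply Mod.eq_of_resO_eq (fun p : (Set.univ : Set (LG (D.V c) (D.W c))) =>
    T ⊓ D.U i ⊓ (p : LG (D.V c) (D.W c)).D) (T ⊓ D.U i) (fun _ => inf_le_left) hcov
  rintro ⟨p, -⟩
  have e1 := (D.cocycle.toSec s).2 ⟨c, p⟩ i
  have e2 := (D.cocycle.toSec t).2 ⟨c, p⟩ i
  have hT' : T ⊓ D.U i ⊓ p.D ≤ T ⊓ D.cocycle.U ⟨c, p⟩ ⊓ D.cocycle.U i :=
    le_inf (le_inf (inf_le_left.trans inf_le_left) inf_le_right) (inf_le_left.trans inf_le_right)
  have e1' := congrArg (resO hT') e1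
  have e2' := congrArg (resO hT') e2
  rw [resO_mul, resO_resO, resO_resO, resO_resO] at e1' e2'
  rw [h p] at e1'
  exact e1'.trans e2'.symm

/-- the coordinate of `θ c x` at an index of the same chart is the coordinate of `x` -/
theorem c_eq_resO_θ (c : Bool) (p : LG (D.V c) (D.W c)) (x : D.W c) :
    p.c (D.aff c) x = resO (le_inf p.D_le le_rfl : p.D ≤ D.V c ⊓ p.D)
      ((D.cocycle.toSec (D.θ c (D.V c) le_rfl x)).1 ⟨c, p⟩) := by
  rw [θ_val, kap_same, cT_res, cT_self_D]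

theorem θ_injective (c : Bool) : Function.Injective (D.θ c (D.V c) le_rfl) := by
  intro x y hxy
  rw [← sub_eq_zero]
  apply eq_zero_of_c_eq_zero (D.aff c) Set.univ (D.span_univ c)
  intro p _
  have h1 : p.c (D.aff c) (x - y) = p.c (D.aff c) x - p.c (D.aff c) y := by
    rw [← cT_self_D, ← cT_self_D, ← cT_self_D, cT_sub]
  rw [h1, D.c_eq_resO_θ c p x, D.c_eq_resO_θ c p y, hxy, sub_self]

theorem θ_surjective (c : Bool) : Function.Surjective (D.θ c (D.V c) le_rfl) := by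
  intro t
  obtain ⟨a, rfl⟩ := D.cocycle.ofSec_surjective t
  -- the family of coordinates on the chart `c`
  have hle : ∀ p : LG (D.V c) (D.W c), p.D ≤ D.V c ⊓ p.D := fun p => le_inf p.D_le le_rfl
  obtain ⟨x, hx⟩ := exists_of_compat (D.aff c) Set.univ (D.span_univ c)
    (fun p => resO (hle p) (a.1 ⟨c, p⟩)) (by
      intro p _ q _
      have h := a.2 ⟨c, p⟩ ⟨c, q⟩
      have h2 := congrArg (resO (le_inf (le_inf (inf_le_left.trans p.D_le) inf_le_left) inf_le_right :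
        p.D ⊓ q.D ≤ D.V c ⊓ D.cocycle.U ⟨c, p⟩ ⊓ D.cocycle.U ⟨c, q⟩)) h
      rw [resO_mul, resO_resO, resO_resO, resO_resO] at h2
      rw [resO_resO, resO_resO, h2]
      congr 1
      rw [D.cocycle_u, kap_same, cT_res])
  refine ⟨x, ?_⟩
  -- the coordinates at the indices of the chart `c`
  have hsame : ∀ p : LG (D.V c) (D.W c),
      (D.cocycle.toSec (D.θ c (D.V c) le_rfl x)).1 ⟨c, p⟩ = a.1 ⟨c, p⟩ := by
    intro p
    have h1 := D.c_eq_resO_θ c p x
    rw [hx p trivial] at h1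
    have h2 := congrArg (resO (inf_le_right : D.V c ⊓ p.D ≤ p.D)) h1
    rw [resO_resO, resO_resO, resO_self, resO_self] at h2
    exact h2.symm
  exact D.ext_of_chart c le_rfl _ _ hsame

/-- **(S1)** the sections of the glued module over the chart `V c` are `W c` -/
theorem θ_bijective (c : Bool) : Function.Bijective (D.θ c (D.V c) le_rfl) :=
  ⟨D.θ_injective c, D.θ_surjective c⟩

/-- the pushed local generators of a chart span the unit ideal of the overlap -/
theorem span_push (b : Bool) :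
    Ideal.span (Set.range fun p : LG (D.V b) (D.W b) => (D.push p).h) = ⊤ := by
  have h1 : (Set.range fun p : LG (D.V b) (D.W b) => (D.push p).h) =
      (resHom (D.V₁₂_le b)) '' {h : Γ(X, D.V b) | ∃ w : D.W b, IsLocGen h w} := by
    ext r
    constructor
    · rintro ⟨p, rfl⟩
      exact ⟨p.h, ⟨p.w, p.isLocGen⟩, rfl⟩
    · rintro ⟨h, ⟨w, hw⟩, rfl⟩
      exact ⟨⟨h, w, hw⟩, rfl⟩
  rw [h1, ← Ideal.map_span, D.span b, Ideal.map_top]

theorem push_D_le {b : Bool} (p : LG (D.V b) (D.W b)) :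
    (D.push p).D ≤ D.V₁₂ ⊓ D.cocycle.U ⟨b, p⟩ := le_of_eq (D.push_D p)

/-- the coordinate of `θ₁₂ y` at an index is the coordinate of `y` with respect to the pushed generator -/
theorem c_push_eq_resO_θ₁₂ {b : Bool} (p : LG (D.V b) (D.W b)) (y : D.W₁₂) :
    (D.push p).c D.aff₁₂ y = resO (D.push_D_le p)
      ((D.cocycle.toSec (D.θ₁₂ D.V₁₂ le_rfl y)).1 ⟨b, p⟩) := by
  rw [θ₁₂_val]
  unfold k₁₂
  rw [cT_res, cT_self_D]

theorem θ₁₂_add (T : X.Opens) (hT : T ≤ D.V₁₂) (y y' : D.W₁₂) :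
    D.θ₁₂ T hT (y + y') = D.θ₁₂ T hT y + D.θ₁₂ T hT y' := by
  apply D.ext_sec
  intro i
  rw [toSec_add_val, θ₁₂_val, θ₁₂_val, θ₁₂_val]
  exact cT_add D.aff₁₂ _ _ _ y y'

theorem θ₁₂_smul (T : X.Opens) (hT : T ≤ D.V₁₂) (a : Γ(X, D.V₁₂)) (y : D.W₁₂) :
    D.θ₁₂ T hT (a • y) = resO hT a • D.θ₁₂ T hT y := by
  apply D.ext_sec
  intro i
  rw [toSec_smul_val, θ₁₂_val, θ₁₂_val]
  unfold k₁₂
  rw [cT_smul, resO_resO]

theorem θ₁₂_injective : Function.Injective (D.θ₁₂ D.V₁₂ le_rfl) := by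
  intro y y' hyy'
  rw [← sub_eq_zero]
  apply eq_zero_of_c_eq_zero_idx D.aff₁₂ (fun p : LG (D.V false) (D.W false) => D.push p)
    (D.span_push false)
  intro p
  have h1 : (D.push p).c D.aff₁₂ (y - y') = (D.push p).c D.aff₁₂ y - (D.push p).c D.aff₁₂ y' := by
    rw [← cT_self_D, ← cT_self_D, ← cT_self_D, cT_sub]
  rw [h1, D.c_push_eq_resO_θ₁₂ p y, D.c_push_eq_resO_θ₁₂ p y', hyy', sub_self]

theorem θ₁₂_surjective : Function.Surjective (D.θ₁₂ D.V₁₂ le_rfl) := by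
  intro t
  obtain ⟨a, rfl⟩ := D.cocycle.ofSec_surjective t
  obtain ⟨y, hy⟩ := exists_of_compat_idx D.aff₁₂
    (fun p : LG (D.V false) (D.W false) => D.push p) (D.span_push false)
    (fun p => resO (D.push_D_le p) (a.1 ⟨false, p⟩)) (by
      intro p q
      have h := a.2 ⟨false, p⟩ ⟨false, q⟩
      have hle : (D.push p).D ⊓ (D.push q).D ≤
          D.V₁₂ ⊓ D.cocycle.U ⟨false, p⟩ ⊓ D.cocycle.U ⟨false, q⟩ :=
        le_inf (inf_le_left.trans (D.push_D_le p))
          (inf_le_right.trans ((D.push_D_le q).trans inf_le_right))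
      have h2 := congrArg (resO hle) h
      rw [resO_mul, resO_resO, resO_resO, resO_resO] at h2
      rw [resO_resO, resO_resO, h2]
      congr 1
      rw [D.cocycle_u, kap_same, cT_res]
      exact (cT_map (D.aff false) D.aff₁₂ (D.V₁₂_le false) (D.ρ false) (D.ρ_smul false) q (D.push q)
        rfl rfl _ _ inf_le_right p.w).symm)
  refine ⟨y, ?_⟩
  apply D.ext_of_chart false (D.V₁₂_le false)
  intro p
  have h1 := D.c_push_eq_resO_θ₁₂ p y
  rw [hy p] at h1
  have hle : D.V₁₂ ⊓ D.cocycle.U ⟨false, p⟩ ≤ (D.push p).D := le_of_eq (D.push_D p).symm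
  have h2 := congrArg (resO hle) h1
  rw [resO_resO, resO_resO, resO_self, resO_self] at h2
  exact h2.symm

/-- **(S1)** the sections of the glued module over the overlap are `W₁₂` -/
theorem θ₁₂_bijective : Function.Bijective (D.θ₁₂ D.V₁₂ le_rfl) :=
  ⟨D.θ₁₂_injective, D.θ₁₂_surjective⟩

end GlueData

end Fermat.Agent.S25lib.Sec
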