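/-
S25lib / Sec / Adapt  (helper6)  --  Project L (S25), block `Sec/**`: adapters for the users of `GlueData`.
* `IsLocGen.of_isBaseChange`: a base change map maps local generators to local generators (field `gen`);
* `isLocGen_of_up`: the same from the instance-free semilinear universal property (helper4's
  `affine_existsUnique_lift` shape);
* `isLocGen_one_of_bijective`, `span_of_free`: a module free of rank one on `w₀` (fields `span`);
* `span_of_invertible`: `Module.Invertible A W` gives the field `span`;
* `GlueData.exists_iso_unit`: the pullback of the glued module along a morphism landing in the open of one index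
  is trivial (rigidification).
-/
import Fermat.Agent.S25lib.Sec.Sections
import Fermat.Agent.S25lib.Mod.PullGen

set_option autoImplicit false

noncomputable section

universe u

open AlgebraicGeometry CategoryTheory TopologicalSpace

namespace Fermat.Agent.S25lib.Sec

open Fermat.Agent.S25lib.Mod (resO resO_self resO_resO resO_mul resO_one resO_add)

section Algebra

/-- **a base change map maps local generators to local generators** -/
theorem IsLocGen.of_isBaseChange {A A' : Type*} [CommRing A] [CommRing A'] [Algebra A A']
    {W W' : Type*} [AddCommGroup W] [Module A W] [AddCommGroup W'] [Module A W'] [Module A' W']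
    [IsScalarTower A A' W'] {ρ : W →ₗ[A] W'} (hρ : IsBaseChange A' ρ) {h : A} {w : W}
    (hw : IsLocGen h w) : IsLocGen (algebraMap A A' h) (ρ w) where
  gen x' := by
    induction x' using hρ.inductionOn with
    | zero => exact ⟨0, 0, by rw [smul_zero, zero_smul]⟩
    | tmul x =>
      obtain ⟨n, a, ha⟩ := hw.gen x
      refine ⟨n, algebraMap A A' a, ?_⟩
      rw [← map_pow, algebraMap_smul, algebraMap_smul, ← map_smul, ha, map_smul]
    | smul s y ih =>
      obtain ⟨n, c, hc⟩ := ih
      exact ⟨n, s * c, by rw [smul_comm, hc, mul_smul]⟩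
    | add y z ihy ihz =>
      obtain ⟨n, c, hc⟩ := ihy
      obtain ⟨m, d, hd⟩ := ihz
      refine ⟨n + m, algebraMap A A' h ^ m * c + algebraMap A A' h ^ n * d, ?_⟩
      rw [smul_add, add_smul, mul_smul, mul_smul, ← hc, ← hd, smul_smul, smul_smul, pow_add,
        mul_comm]
  free a' ha' := by
    have hσ : IsAwayHom (algebraMap A (Localization.Away h)) h := isAwayHom_algebraMap h
    let τ : Localization.Away h →+* Localization.Away (algebraMap A A' h) :=
      IsLocalization.Away.map (Localization.Away h) (Localization.Away (algebraMap A A' h))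
        (algebraMap A A') h
    have hτ : ∀ a : A, τ (algebraMap A (Localization.Away h) a) =
        algebraMap A' (Localization.Away (algebraMap A A' h)) (algebraMap A A' a) :=
      fun a => IsLocalization.map_eq _ a
    let g : W →ₗ[A] Localization.Away (algebraMap A A' h) :=
      { toFun := fun x => τ (coord hσ hw x)
        map_add' := fun x y => by rw [coord_add, map_add]
        map_smul' := fun a x => by
          rw [coord_smul, map_mul, hτ, RingHom.id_apply, Algebra.smul_def,
            IsScalarTower.algebraMap_apply A A' (Localization.Away (algebraMap A A' h))] }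
    have h1 : hρ.lift g (a' • ρ w) = algebraMap A' _ a' := by
      rw [map_smul, hρ.lift_eq]
      change a' • τ (coord hσ hw w) = _
      rw [coord_self, map_one, Algebra.smul_def, mul_one]
    rw [ha', map_zero] at h1
    obtain ⟨⟨_, n, rfl⟩, hm⟩ := (IsLocalization.map_eq_zero_iff
      (Submonoid.powers (algebraMap A A' h)) _ a').mp h1.symm
    exact ⟨n, hm⟩

/-- a module which is free of rank one on `w₀` has the global local generator `(1, w₀)` -/
theorem isLocGen_one_of_bijective {A : Type*} [CommRing A] {W : Type*} [AddCommGroup W] [Module A W]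
    (w₀ : W) (hw₀ : Function.Bijective (fun a : A => a • w₀)) : IsLocGen (1 : A) w₀ where
  gen x := by
    obtain ⟨a, ha⟩ := hw₀.2 x
    exact ⟨0, a, by rw [pow_zero, one_smul]; exact ha.symm⟩
  free a ha := by
    refine ⟨0, ?_⟩
    rw [pow_zero, one_mul]
    apply hw₀.1
    simp only
    rw [ha, zero_smul]

theorem span_of_free {A : Type*} [CommRing A] {W : Type*} [AddCommGroup W] [Module A W]
    (w₀ : W) (hw₀ : Function.Bijective (fun a : A => a • w₀)) :
    Ideal.span {h : A | ∃ w : W, IsLocGen h w} = ⊤ := by
  rw [Ideal.eq_top_iff_one]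
  exact Ideal.subset_span ⟨w₀, isLocGen_one_of_bijective w₀ hw₀⟩

section Invertible

open Module

/-- local generators from a free localisation -/
theorem exists_isLocGen_of_free_away {A : Type*} [CommRing A] {W : Type*} [AddCommGroup W]
    [Module A W] [Module.Invertible A W] (r : A)
    (hfree : Module.Free (Localization.Away r) (LocalizedModule.Away r W)) :
    ∃ w : W, IsLocGen r w := by
  classical
  let S := Localization.Away r
  let W' := LocalizedModule.Away r W
  let f : W →ₗ[A] W' := LocalizedModule.mkLinearMap (Submonoid.powers r) W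
  obtain ⟨e⟩ : Nonempty (W' ≃ₗ[S] S) := Module.Invertible.free_iff_linearEquiv.mp hfree
  obtain ⟨⟨m, ⟨_, n, rfl⟩⟩, hm⟩ := IsLocalizedModule.surj (Submonoid.powers r) f (e.symm 1)
  have hm' : f m = (r ^ n) • e.symm 1 := hm.symm
  have hr : IsUnit (algebraMap A S r) := IsLocalization.Away.algebraMap_isUnit r
  -- `e (f m) = r ^ n`
  have hefm : e (f m) = algebraMap A S (r ^ n) := by
    rw [hm', ← algebraMap_smul S (r ^ n) (e.symm 1), map_smul, e.apply_symm_apply, smul_eq_mul,
      mul_one]
  refine ⟨m, ?_, ?_⟩
  · intro x
    -- `e (f x) * r^k = a`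
    obtain ⟨k, a, ha⟩ := IsLocalization.Away.surj r (e (f x))
    -- then `f (r ^ (k + n) • x) = f (a • m)`
    have h1 : f ((r ^ (k + n)) • x) = f (a • m) := by
      apply e.injective
      have e1 : e (f ((r ^ (k + n)) • x)) = algebraMap A S (r ^ (k + n)) * e (f x) := by
        rw [f.map_smul, ← algebraMap_smul S (r ^ (k + n)) (f x), e.map_smul, smul_eq_mul]
      have e2 : e (f (a • m)) = algebraMap A S a * e (f m) := by
        rw [f.map_smul, ← algebraMap_smul S a (f m), e.map_smul, smul_eq_mul]
      rw [e1, e2, hefm, ← ha, map_pow, map_pow, pow_add]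
      ring
    obtain ⟨⟨_, N, rfl⟩, hc⟩ := IsLocalizedModule.exists_of_eq (S := Submonoid.powers r) h1
    refine ⟨N + (k + n), r ^ N * a, ?_⟩
    rw [pow_add, mul_smul, mul_smul]
    exact hc
  · intro a ha
    have h1 : algebraMap A S (a * r ^ n) = 0 := by
      rw [map_mul, ← hefm, ← smul_eq_mul, ← e.map_smul, algebraMap_smul, ← f.map_smul, ha, map_zero,
        map_zero]
    obtain ⟨⟨_, N, rfl⟩, hN⟩ := (IsLocalization.map_eq_zero_iff (Submonoid.powers r) S _).mp h1
    refine ⟨N + n, ?_⟩
    rw [pow_add, mul_assoc, mul_comm (r ^ n) a]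
    exact hN

/-- **an invertible module is locally free of rank one**: the `h` admitting a local generator span the unit
ideal -/
theorem span_of_invertible {A : Type*} [CommRing A] {W : Type*} [AddCommGroup W] [Module A W]
    [Module.Invertible A W] : Ideal.span {h : A | ∃ w : W, IsLocGen h w} = ⊤ := by
  obtain ⟨s, hs, hfree⟩ := Module.Invertible.exists_finset_free_localization (R := A) (M := W)
  rw [eq_top_iff, ← hs]
  apply Ideal.span_mono
  intro r hr
  exact exists_isLocGen_of_free_away r (hfree r hr)

end Invertible

end Algebra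

variable {X : Scheme.{u}}

/-- **from the semilinear universal property to local generators**: if `ρ : W → W'` is semilinear over the
restriction `Γ(X, V) → Γ(X, V')` and has the universal property of the base change, it maps local generators
to local generators -/
theorem isLocGen_of_up {V V' : X.Opens} (hle : V' ≤ V) {W W' : Type u} [AddCommGroup W]
    [Module Γ(X, V) W] [AddCommGroup W'] [Module Γ(X, V') W'] (ρ : W →+ W')
    (hρ : ∀ (a : Γ(X, V)) (x : W), ρ (a • x) = resO hle a • ρ x)
    (hup : ∀ (Q : Type u) [AddCommGroup Q] [Module Γ(X, V') Q] (q : W →+ Q),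
      (∀ (a : Γ(X, V)) (x : W), q (a • x) = resO hle a • q x) →
        ∃! q' : W' →ₗ[Γ(X, V')] Q, ∀ x, q' (ρ x) = q x)
    {h : Γ(X, V)} {w : W} (hw : IsLocGen h w) : IsLocGen (resO hle h) (ρ w) := by
  letI : Algebra Γ(X, V) Γ(X, V') := (resHom hle).toAlgebra
  letI : Module Γ(X, V) W' := Module.compHom W' (resHom hle)
  haveI : IsScalarTower Γ(X, V) Γ(X, V') W' := ⟨fun a b x => by
    change (resO hle a * b) • x = resO hle a • b • x
    rw [mul_smul]⟩
  let ρ' : W →ₗ[Γ(X, V)] W' :=
    { toFun := ρ
      map_add' := map_add ρ
      map_smul' := fun a x => hρ a x }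
  have hbc : IsBaseChange Γ(X, V') ρ' := by
    apply IsBaseChange.of_lift_unique
    intro Q _ _ _ _ g
    letI : AddCommGroup Q := Module.addCommMonoidToAddCommGroup Γ(X, V')
    obtain ⟨q', hq', huniq⟩ := hup Q g.toAddMonoidHom (fun a x => by
      change g (a • x) = _
      rw [map_smul, ← algebraMap_smul Γ(X, V') a (g x)]
      rfl)
    refine ⟨q', ?_, fun q'' hq'' => ?_⟩
    · ext x
      exact hq' x
    · apply huniq
      intro x
      exact congrArg (fun l => l x) hq''
  exact IsLocGen.of_isBaseChange hbc hw

namespace GlueData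

variable {𝒱 : Charts X} (D : GlueData 𝒱)

/-- **rigidification**: the pullback of the glued module along a morphism landing in the open of one index is
trivial -/
theorem exists_iso_unit {T : Scheme.{u}} (ε : T ⟶ X) (i : D.Idx) (h : ε ⁻¹ᵁ D.U i = ⊤) :
    Nonempty ((Scheme.Modules.pullback ε).obj D.synth ≅ SheafOfModules.unit T.ringCatSheaf) := by
  have h1 := Mod.isGen_pullSec ε (D.cocycle.isGen_gen i)
  have hle : (⊤ : T.Opens) ≤ ε ⁻¹ᵁ D.cocycle.U i := le_of_eq h.symm
  have h2 := h1.res hle
  exact ⟨(Mod.isoOfGen _ _ h2).symm⟩

end GlueData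

end Fermat.Agent.S25lib.Sec
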