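/-
S25lib / Sec / Recog  (helper6)  --  Project L (S25), block `Sec/**`: **the recognition theorem.**
`D : GlueData X`, `M : X.Modules` and semilinear maps `σ b : W b → Γ(M, V b)`, `σ₁₂ : W₁₂ → Γ(M, V₁₂)` compatible
with `ρ` and restriction.  If `σ` maps the local generators of a family of indices covering `X` to generators
of `M` (`IsGen`), then `D.synth ≅ M`, by an isomorphism mapping `θ b x` to `σ b x`.
-/
import Fermat.Agent.S25lib.Sec.Sections
import Fermat.Agent.S25lib.Mod.IsoOfTrans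

set_option autoImplicit false

noncomputable section

universe u

open AlgebraicGeometry CategoryTheory TopologicalSpace

namespace Fermat.Agent.S25lib.Sec

open Fermat.Agent.S25lib.Mod (resO resO_self resO_resO resO_mul resO_one resO_add)

variable {X : Scheme.{u}}

section Single

variable {V : X.Opens} (hV : IsAffineOpen V) {W : Type u} [AddCommGroup W] [Module Γ(X, V) W]
  (M : X.Modules)

/-- one chart: a semilinear map `σ : W → Γ(M, V)` maps `x` to `(x / w) • σ w` on `D(h)` -/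
theorem res_σ_eq (σ : W →+ Γ(M, V)) (hσ : ∀ (a : Γ(X, V)) (x : W), σ (a • x) = a • σ x)
    (p : LG V W) (T : X.Opens) (hT : T ≤ p.D) (x : W) :
    Mod.res M (hT.trans p.D_le) (σ x) =
      cT hV p T hT x • Mod.res M (hT.trans p.D_le) (σ p.w) := by
  obtain ⟨n, a, ha⟩ := p.isLocGen.gen x
  have h1 := coord_spec (isAwayHom_resHom hV p.h) p.isLocGen ha
  rw [resHom_apply, resHom_apply] at h1
  have h2 := congrArg (resO hT) h1
  rw [resO_mul, resO_resO,
    show resO hT (resO p.D_le p.h ^ n) = resO hT (resO p.D_le p.h) ^ n from map_pow _ _ _,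
    resO_resO] at h2
  have h3 := congrArg (fun y => Mod.res M (hT.trans p.D_le) (σ y)) ha
  simp only [hσ, Mod.res_smul] at h3
  have hu : IsUnit (resO (hT.trans p.D_le) p.h) := by
    have := (isUnit_resO_h hV p).map (resHom hT)
    rwa [resHom_apply, resO_resO] at this
  have hpow : resO (hT.trans p.D_le) (p.h ^ n) = resO (hT.trans p.D_le) p.h ^ n := map_pow _ _ _
  rw [hpow, ← h2] at h3
  have h4 : resO (hT.trans p.D_le) p.h ^ n • Mod.res M (hT.trans p.D_le) (σ x) =
      resO (hT.trans p.D_le) p.h ^ n •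
        (cT hV p T hT x • Mod.res M (hT.trans p.D_le) (σ p.w)) := by
    rw [h3, smul_smul, mul_comm]
    rfl
  exact (hu.pow n).smul_left_cancel.mp h4

end Single

/-- **section data** of a module `M` with respect to two-chart gluing data -/
structure SecData {𝒱 : Charts X} (D : GlueData 𝒱) (M : X.Modules) where
  σ : ∀ b, D.W b →+ Γ(M, D.V b)
  σ_smul : ∀ (b : Bool) (a : Γ(X, D.V b)) (x : D.W b), σ b (a • x) = a • σ b x
  σ₁₂ : D.W₁₂ →+ Γ(M, D.V₁₂)
  σ₁₂_smul : ∀ (a : Γ(X, D.V₁₂)) (y : D.W₁₂), σ₁₂ (a • y) = a • σ₁₂ y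
  comm : ∀ (b : Bool) (x : D.W b), Mod.res M (D.V₁₂_le b) (σ b x) = σ₁₂ (D.ρ b x)

namespace SecData

variable {𝒱 : Charts X} {D : GlueData 𝒱} {M : X.Modules} (S : SecData D M)

/-- the section of `M` on `U i` defined by the local generator of the index `i` -/
def s (i : D.Idx) : Γ(M, D.U i) := Mod.res M (D.U_le i) (S.σ i.1 i.2.w)

/-- **the transformation rule**: `σ c x = (x / w_j) • σ w_j` on `T ≤ U j ⊓ V c` -/
theorem res_σ_eq_kap (j : D.Idx) (c : Bool) (T : X.Opens) (hT : T ≤ D.U j) (hTc : T ≤ D.V c)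
    (x : D.W c) :
    Mod.res M hTc (S.σ c x) = D.kap j c T hT hTc x • Mod.res M hT (S.s j) := by
  unfold s
  rw [Mod.res_res]
  obtain ⟨b, p⟩ := j
  by_cases h : b = c
  · subst h
    rw [GlueData.kap_same]
    exact res_σ_eq (D.aff b) M (S.σ b) (S.σ_smul b) p T hT x
  · have hT' : T ≤ D.V₁₂ := le_inf_of_ne D.V h (hT.trans p.D_le) hTc
    rw [D.kap_ne ⟨b, p⟩ c h]
    have e1 : Mod.res M hTc (S.σ c x) = Mod.res M hT' (S.σ₁₂ (D.ρ c x)) := by
      rw [← S.comm, Mod.res_res]
    have e2 : Mod.res M (hT.trans (D.U_le ⟨b, p⟩)) (S.σ b p.w) =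
        Mod.res M hT' (S.σ₁₂ (D.ρ b p.w)) := by
      rw [← S.comm, Mod.res_res]
    rw [e1, e2]
    exact res_σ_eq D.aff₁₂ M S.σ₁₂ S.σ₁₂_smul (D.push p) T (D.le_push_D p hT hT') (D.ρ c x)

/-- the sections `s i` have the transition functions of the cocycle -/
theorem res_s (i j : D.Idx) :
    Mod.res M (inf_le_left : D.U i ⊓ D.U j ≤ D.U i) (S.s i) =
      D.cocycle.u i j • Mod.res M (inf_le_right : D.U i ⊓ D.U j ≤ D.U j) (S.s j) := by
  have := S.res_σ_eq_kap j i.1 (D.U i ⊓ D.U j) inf_le_right (inf_le_left.trans (D.U_le i)) i.2.w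
  rw [← this]
  unfold s
  rw [Mod.res_res]

end SecData

namespace GlueData

variable {𝒱 : Charts X} (D : GlueData 𝒱)

/-- the tautological section data of the glued module -/
def secData : SecData D D.synth where
  σ b :=
    { toFun := D.θ b (D.V b) le_rfl
      map_zero' := by
        have := D.θ_add b (D.V b) le_rfl 0 0
        rw [add_zero] at this
        exact left_eq_add.mp this
      map_add' := D.θ_add b (D.V b) le_rfl }
  σ_smul b a x := by
    change D.θ b (D.V b) le_rfl (a • x) = a • D.θ b (D.V b) le_rfl x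
    rw [θ_smul, resO_self]
  σ₁₂ :=
    { toFun := D.θ₁₂ D.V₁₂ le_rfl
      map_zero' := by
        have := D.θ₁₂_add D.V₁₂ le_rfl 0 0
        rw [add_zero] at this
        exact left_eq_add.mp this
      map_add' := D.θ₁₂_add D.V₁₂ le_rfl }
  σ₁₂_smul a y := by
    change D.θ₁₂ D.V₁₂ le_rfl (a • y) = a • D.θ₁₂ D.V₁₂ le_rfl y
    rw [θ₁₂_smul, resO_self]
  comm b x := by
    change Mod.res D.synth (D.V₁₂_le b) (D.θ b (D.V b) le_rfl x) = D.θ₁₂ D.V₁₂ le_rfl (D.ρ b x)
    rw [θ_res, θ_eq_θ₁₂]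

theorem secData_s (i : D.Idx) : D.secData.s i = D.cocycle.gen i := by
  rw [gen_eq]
  change Mod.res D.synth (D.U_le i) (D.θ i.1 (D.V i.1) le_rfl i.2.w) = _
  rw [θ_res]

end GlueData

/-- **the recognition theorem**: section data mapping the local generators of a covering family of indices to
generators of `M` identify `M` with the glued module -/
theorem SecData.exists_iso {𝒱 : Charts X} {D : GlueData 𝒱} {M : X.Modules} (S : SecData D M) (J : Set D.Idx)
    (hJ : ⨆ j : J, D.U j = ⊤) (hgen : ∀ j ∈ J, Mod.IsGen M (D.U j) (S.s j)) :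
    ∃ e : D.synth ≅ M, ∀ (c : Bool) (x : D.W c),
      e.hom.app (D.V c) (D.θ c (D.V c) le_rfl x) = S.σ c x := by
  obtain ⟨e, he⟩ := Mod.nonempty_iso_of_same_trans (M := D.synth) (M' := M)
    (fun j : J => D.U j) hJ (fun j => D.cocycle.gen j) (fun j => D.cocycle.isGen_gen j)
    (fun j => S.s j) (fun j => hgen j j.2) (fun i j => D.cocycle.u i j)
    (fun i j => D.cocycle.res_gen i j) (fun i j => S.res_s i j)
  refine ⟨e, fun c x => ?_⟩
  apply Mod.eq_of_res_eq M (fun j : J => D.V c ⊓ D.U j) (D.V c) (fun _ => inf_le_left)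
    (Mod.le_iSup_inf (fun j : J => D.U j) hJ (D.V c))
  intro j
  rw [← Mod.app_res]
  have h1 := D.secData.res_σ_eq_kap j c (D.V c ⊓ D.U j) inf_le_right inf_le_left x
  rw [D.secData_s] at h1
  change Mod.res D.synth _ (D.θ c (D.V c) le_rfl x) = _ at h1
  rw [h1, Scheme.Modules.Hom.app_smul, Mod.app_res, he j,
    ← S.res_σ_eq_kap j c (D.V c ⊓ D.U j) inf_le_right inf_le_left x]

end Fermat.Agent.S25lib.Sec
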