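/-
S25lib / Sec / Iso  (helper6)  --  Project L (S25), block `Sec/**`: **(S2) faithfulness.**
Two gluing data `D`, `D'` over the same charts: `D.synth ≅ D'.synth` iff the data are isomorphic
(`GlueData.Equiv`): `Equiv.exists_iso` and `Equiv.ofIso`.
-/
import Fermat.Agent.S25lib.Sec.Recog

set_option autoImplicit false

noncomputable section

universe u

open AlgebraicGeometry CategoryTheory TopologicalSpace

namespace Fermat.Agent.S25lib.Sec

open Fermat.Agent.S25lib.Mod (resO resO_self resO_resO resO_mul resO_one resO_add)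

variable {X : Scheme.{u}}

theorem IsLocGen.map_equiv {A : Type*} [CommRing A] {W W' : Type*} [AddCommGroup W] [Module A W]
    [AddCommGroup W'] [Module A W'] {h : A} {w : W} (hw : IsLocGen h w) (φ : W ≃+ W')
    (hφ : ∀ (a : A) (x : W), φ (a • x) = a • φ x) : IsLocGen h (φ w) where
  gen x' := by
    obtain ⟨n, a, ha⟩ := hw.gen (φ.symm x')
    refine ⟨n, a, ?_⟩
    rw [← hφ, ← ha, hφ, φ.apply_symm_apply]
  free a ha := by
    apply hw.free a
    apply φ.injective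
    rw [hφ, ha, map_zero]

namespace GlueData

variable {𝒱 : Charts X}

/-- an isomorphism of gluing data over the same charts -/
structure Equiv (D D' : GlueData 𝒱) where
  φ : ∀ b, D.W b ≃+ D'.W b
  φ_smul : ∀ (b : Bool) (a : Γ(X, 𝒱.V b)) (x : D.W b), φ b (a • x) = a • φ b x
  φ₁₂ : D.W₁₂ ≃+ D'.W₁₂
  φ₁₂_smul : ∀ (a : Γ(X, 𝒱.V false ⊓ 𝒱.V true)) (y : D.W₁₂), φ₁₂ (a • y) = a • φ₁₂ y
  comm : ∀ (b : Bool) (x : D.W b), D'.ρ b (φ b x) = φ₁₂ (D.ρ b x)

variable {D D' : GlueData 𝒱}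

/-- the section data of `D'.synth` with respect to `D` defined by an isomorphism of data -/
def Equiv.secData (E : Equiv D D') : SecData D D'.synth where
  σ b := (D'.secData.σ b).comp (E.φ b).toAddMonoidHom
  σ_smul b a x := by
    change D'.secData.σ b (E.φ b (a • x)) = a • D'.secData.σ b (E.φ b x)
    rw [E.φ_smul, D'.secData.σ_smul]
  σ₁₂ := (D'.secData.σ₁₂).comp E.φ₁₂.toAddMonoidHom
  σ₁₂_smul a y := by
    change D'.secData.σ₁₂ (E.φ₁₂ (a • y)) = a • D'.secData.σ₁₂ (E.φ₁₂ y)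
    rw [E.φ₁₂_smul, D'.secData.σ₁₂_smul]
  comm b x := by
    change Mod.res D'.synth _ (D'.secData.σ b (E.φ b x)) = D'.secData.σ₁₂ (E.φ₁₂ (D.ρ b x))
    rw [D'.secData.comm, E.comm]

/-- the index of `D'` corresponding to an index of `D` -/
def Equiv.idx (E : Equiv D D') (i : D.Idx) : D'.Idx :=
  ⟨i.1, ⟨i.2.h, E.φ i.1 i.2.w, i.2.isLocGen.map_equiv (E.φ i.1) (E.φ_smul i.1)⟩⟩

/-- **(S2)** isomorphic data have isomorphic glued modules -/
theorem Equiv.exists_iso (E : Equiv D D') :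
    ∃ e : D.synth ≅ D'.synth, ∀ (c : Bool) (x : D.W c),
      e.hom.app (D.V c) (D.θ c (D.V c) le_rfl x) = D'.θ c (D'.V c) le_rfl (E.φ c x) := by
  refine E.secData.exists_iso Set.univ ?_ ?_
  · rw [eq_top_iff, ← D.iSup_U, iSup_le_iff]
    intro i
    exact le_iSup (fun j : (Set.univ : Set D.Idx) => D.U j) ⟨i, trivial⟩
  · intro j _
    have h1 : E.secData.s j = D'.cocycle.gen (E.idx j) := by
      rw [D'.gen_eq]
      change Mod.res D'.synth _ (D'.θ j.1 (D'.V j.1) le_rfl (E.φ j.1 j.2.w)) = _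
      rw [θ_res]
      rfl
    rw [h1]
    exact D'.cocycle.isGen_gen (E.idx j)

/-- the sections of the glued module over a chart, as an additive equivalence -/
def θEquiv (D : GlueData 𝒱) (c : Bool) : D.W c ≃+ Γ(D.synth, D.V c) :=
  AddEquiv.ofBijective (D.secData.σ c) (D.θ_bijective c)

theorem θEquiv_apply (D : GlueData 𝒱) (c : Bool) (x : D.W c) :
    D.θEquiv c x = D.θ c (D.V c) le_rfl x := rfl

/-- the sections of the glued module over the overlap, as an additive equivalence -/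
def θ₁₂Equiv (D : GlueData 𝒱) : D.W₁₂ ≃+ Γ(D.synth, D.V₁₂) :=
  AddEquiv.ofBijective D.secData.σ₁₂ D.θ₁₂_bijective

theorem θ₁₂Equiv_apply (D : GlueData 𝒱) (y : D.W₁₂) :
    D.θ₁₂Equiv y = D.θ₁₂ D.V₁₂ le_rfl y := rfl

/-- a morphism of modules on sections, as an additive map -/
def appHom {M N : X.Modules} (f : M ⟶ N) (T : X.Opens) : Γ(M, T) →+ Γ(N, T) where
  toFun := f.app T
  map_zero' := map_zero _
  map_add' := map_add _

/-- an isomorphism of modules on sections, as an additive equivalence -/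
def appEquiv {M N : X.Modules} (e : M ≅ N) (T : X.Opens) : Γ(M, T) ≃+ Γ(N, T) where
  toFun := e.hom.app T
  invFun := e.inv.app T
  left_inv s := by
    rw [← ConcreteCategory.comp_apply, ← Scheme.Modules.Hom.comp_app, e.hom_inv_id]
    rfl
  right_inv s := by
    rw [← ConcreteCategory.comp_apply, ← Scheme.Modules.Hom.comp_app, e.inv_hom_id]
    rfl
  map_add' := map_add _

/-- **(S2)** an isomorphism of the glued modules gives an isomorphism of the data -/
def Equiv.ofIso (e : D.synth ≅ D'.synth) : Equiv D D' where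
  φ b := ((D.θEquiv b).trans (appEquiv e (D.V b))).trans (D'.θEquiv b).symm
  φ_smul b a x := by
    apply (D'.θEquiv b).injective
    change D'.θEquiv b ((D'.θEquiv b).symm (e.hom.app (D.V b) (D.θEquiv b (a • x)))) =
      D'.θEquiv b (a • (D'.θEquiv b).symm (e.hom.app (D.V b) (D.θEquiv b x)))
    rw [AddEquiv.apply_symm_apply, θEquiv_apply, θEquiv_apply, θEquiv_apply, θ_smul, θ_smul,
      resO_self, Scheme.Modules.Hom.app_smul, ← θEquiv_apply D' b,
      AddEquiv.apply_symm_apply]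
  φ₁₂ := (D.θ₁₂Equiv.trans (appEquiv e D.V₁₂)).trans D'.θ₁₂Equiv.symm
  φ₁₂_smul a y := by
    apply D'.θ₁₂Equiv.injective
    change D'.θ₁₂Equiv (D'.θ₁₂Equiv.symm (e.hom.app D.V₁₂ (D.θ₁₂Equiv (a • y)))) =
      D'.θ₁₂Equiv (a • D'.θ₁₂Equiv.symm (e.hom.app D.V₁₂ (D.θ₁₂Equiv y)))
    rw [AddEquiv.apply_symm_apply, θ₁₂Equiv_apply, θ₁₂Equiv_apply, θ₁₂Equiv_apply, θ₁₂_smul,
      θ₁₂_smul, resO_self, Scheme.Modules.Hom.app_smul, ← θ₁₂Equiv_apply D',
      AddEquiv.apply_symm_apply]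
  comm b x := by
    apply D'.θ₁₂Equiv.injective
    change D'.θ₁₂Equiv (D'.ρ b ((D'.θEquiv b).symm (e.hom.app (D.V b) (D.θEquiv b x)))) =
      D'.θ₁₂Equiv (D'.θ₁₂Equiv.symm (e.hom.app D.V₁₂ (D.θ₁₂Equiv (D.ρ b x))))
    rw [AddEquiv.apply_symm_apply, θ₁₂Equiv_apply, θ₁₂Equiv_apply, ← θ_eq_θ₁₂, ← θ_eq_θ₁₂,
      ← θ_res D' b (D'.V b) D'.V₁₂ le_rfl (D'.V₁₂_le b), ← θEquiv_apply D' b,
      AddEquiv.apply_symm_apply, ← θ_res D b (D.V b) D.V₁₂ le_rfl (D.V₁₂_le b), Mod.app_res]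
    rfl

theorem Equiv.ofIso_φ (e : D.synth ≅ D'.synth) (b : Bool) (x : D.W b) :
    D'.θ b (D'.V b) le_rfl ((Equiv.ofIso e).φ b x) =
      e.hom.app (D.V b) (D.θ b (D.V b) le_rfl x) :=
  (D'.θEquiv b).apply_symm_apply _

/-- **(S2)** the glued modules are isomorphic iff the data are -/
theorem nonempty_iso_iff : Nonempty (D.synth ≅ D'.synth) ↔ Nonempty (Equiv D D') :=
  ⟨fun ⟨e⟩ => ⟨Equiv.ofIso e⟩, fun ⟨E⟩ => ⟨E.exists_iso.choose⟩⟩

end GlueData

end Fermat.Agent.S25lib.Sec
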