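/-
S25lib / Sec / Bridge  (helper6)  --  Project L (S25), block `Sec/**`: **analysis ∘ synthesis.**
For an invertible module `M` on `X` and charts `𝒱`, the sections of `M` over the charts form gluing data
`dataOf 𝒱 M hM` (helper4's `AffBC`: restriction between affine opens is a base change, sections over a basic open
are the localisation), and **`(dataOf 𝒱 M hM).synth ≅ M`** (`exists_iso_dataOf`).  Hence two invertible modules are
isomorphic iff their two-chart data are (`nonempty_iso_iff_dataOf`).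
-/
import Fermat.Agent.S25lib.Sec.Iso
import Fermat.Agent.S25lib.Sec.Adapt
import Fermat.Agent.S25lib.AffBC.Proj

set_option autoImplicit false

noncomputable section

universe u

open AlgebraicGeometry CategoryTheory TopologicalSpace

namespace Fermat.Agent.S25lib.Sec

open Fermat.Agent.S25lib.Mod (resO resO_self resO_resO resO_mul resO_one resO_add)

variable {X : Scheme.{u}}

/-- a unit multiple of a generator is a generator -/
theorem isGen_smul_of_isUnit {M : X.Modules} {U : X.Opens} {σ : Γ(M, U)} (hσ : Mod.IsGen M U σ)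
    {u : Γ(X, U)} (hu : IsUnit u) : Mod.IsGen M U (u • σ) := by
  intro V h
  have h1 := hσ V h
  have hu' : IsUnit (resO h u) := hu.map (resHom h)
  have h2 : (fun r : Γ(X, V) => r • Mod.res M h (u • σ)) =
      (fun r : Γ(X, V) => r • Mod.res M h σ) ∘ (fun r : Γ(X, V) => r * resO h u) := by
    funext r
    simp only [Function.comp]
    rw [Mod.res_smul, smul_smul]
  rw [h2]
  refine h1.comp ⟨fun a b hab => hu'.mul_left_injective hab, fun a => ?_⟩
  obtain ⟨v, hv⟩ := hu'.exists_left_inv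
  exact ⟨a * v, by simp only; rw [mul_assoc, hv, mul_one]⟩

/-- **a section over an affine open whose restriction to `D(g)` generates is a local generator** -/
theorem isLocGen_of_isGen {M : X.Modules} (hM : Scheme.Modules.IsInvertible M) {B : X.Opens}
    (hB : IsAffineOpen B) (g : Γ(X, B)) (s : Γ(M, B))
    (hs : Mod.IsGen M (X.basicOpen g) (Mod.res M (X.basicOpen_le g) s)) : IsLocGen g s where
  gen x := by
    obtain ⟨-, hker⟩ := AffBC.exists_res_eq_pow_smul_and M hM hB g
    have hσ := isAwayHom_resHom hB g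
    -- the coordinate of `x` on `D(g)`
    obtain ⟨r, hr⟩ := (hs (X.basicOpen g) le_rfl).2 (Mod.res M (X.basicOpen_le g) x)
    simp only [Mod.res_self] at hr
    obtain ⟨a, k, ha⟩ := hσ.surj r
    rw [resHom_apply, resHom_apply] at ha
    have h0 : Mod.res M (X.basicOpen_le g) (g ^ k • x - a • s) = 0 := by
      have e1 : Mod.res M (X.basicOpen_le g) (g ^ k • x - a • s) =
          Mod.res M (X.basicOpen_le g) (g ^ k • x) - Mod.res M (X.basicOpen_le g) (a • s) :=
        map_sub _ _ _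
      rw [e1, Mod.res_smul, Mod.res_smul, ← hr, smul_smul, ← ha,
        show resO (X.basicOpen_le g) (g ^ k) = resO (X.basicOpen_le g) g ^ k from map_pow _ _ _,
        mul_comm, sub_self]
    obtain ⟨n, hn⟩ := hker _ h0
    refine ⟨n + k, g ^ n * a, ?_⟩
    rw [smul_sub, sub_eq_zero] at hn
    rw [pow_add, mul_smul, hn, mul_smul]
  free a ha := by
    have hσ := isAwayHom_resHom hB g
    apply hσ.ker a
    rw [resHom_apply]
    apply (hs (X.basicOpen g) le_rfl).1
    simp only [Mod.res_self]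
    rw [zero_smul, ← Mod.res_smul, ha]
    exact map_zero _

section DataOf

variable (𝒱 : Charts X) (M : X.Modules) (hM : Scheme.Modules.IsInvertible M)

/-- **the two-chart data of an invertible module** -/
def dataOf : GlueData 𝒱 where
  W b := ModuleCat.of Γ(X, 𝒱.V b) Γ(M, 𝒱.V b)
  W₁₂ := ModuleCat.of Γ(X, 𝒱.V false ⊓ 𝒱.V true) Γ(M, 𝒱.V false ⊓ 𝒱.V true)
  ρ b :=
    { toFun := Mod.res M (inf_le_bool 𝒱.V b)
      map_zero' := Mod.res_zero M _
      map_add' := Mod.res_add M _ }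
  ρ_smul b a x := Mod.res_smul M _ a x
  span b := by
    rw [eq_top_iff, ← AffBC.span_genSet M hM (𝒱.aff b)]
    apply Ideal.span_mono
    rintro g ⟨σ, hσ⟩
    obtain ⟨hsurj, -⟩ := AffBC.exists_res_eq_pow_smul_and M hM (𝒱.aff b) g
    obtain ⟨n, s, hs⟩ := hsurj σ
    refine ⟨s, isLocGen_of_isGen hM (𝒱.aff b) g s ?_⟩
    rw [hs]
    exact isGen_smul_of_isUnit hσ ((isAwayHom_resHom (𝒱.aff b) g).unit.pow n)
  gen b h w hw :=
    isLocGen_of_up (inf_le_bool 𝒱.V b)
      { toFun := Mod.res M (inf_le_bool 𝒱.V b)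
        map_zero' := Mod.res_zero M _
        map_add' := Mod.res_add M _ }
      (fun a x => Mod.res_smul M _ a x)
      (fun Q _ _ q hq =>
        AffBC.res_existsUnique_lift M hM (𝒱.aff b) 𝒱.aff₁₂ (inf_le_bool 𝒱.V b) Q q hq) hw

/-- the tautological section data -/
def secDataOf : SecData (dataOf 𝒱 M hM) M where
  σ b := AddMonoidHom.id _
  σ_smul _ _ _ := rfl
  σ₁₂ := AddMonoidHom.id _
  σ₁₂_smul _ _ := rfl
  comm _ _ := rfl

/-- **every invertible module is the module glued from its two-chart data** -/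
theorem exists_iso_dataOf :
    ∃ e : (dataOf 𝒱 M hM).synth ≅ M, ∀ (c : Bool) (x : Γ(M, 𝒱.V c)),
      e.hom.app (𝒱.V c) ((dataOf 𝒱 M hM).θ c (𝒱.V c) le_rfl x) = x := by
  refine (secDataOf 𝒱 M hM).exists_iso
    {j | Mod.IsGen M ((dataOf 𝒱 M hM).U j) ((secDataOf 𝒱 M hM).s j)} ?_ (fun j hj => hj)
  rw [eq_top_iff, ← 𝒱.cover, sup_le_iff]
  have key : ∀ b, 𝒱.V b ≤ ⨆ j : {j | Mod.IsGen M ((dataOf 𝒱 M hM).U j)
      ((secDataOf 𝒱 M hM).s j)}, (dataOf 𝒱 M hM).U j := by
    intro b x hx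
    obtain ⟨g, hxg, σ, hσ⟩ := AffBC.exists_basicOpen_isGen M hM (𝒱.aff b) x hx
    obtain ⟨hsurj, -⟩ := AffBC.exists_res_eq_pow_smul_and M hM (𝒱.aff b) g
    obtain ⟨n, s, hs⟩ := hsurj σ
    have hgen : Mod.IsGen M (X.basicOpen g) (Mod.res M (X.basicOpen_le g) s) := by
      rw [hs]
      exact isGen_smul_of_isUnit hσ ((isAwayHom_resHom (𝒱.aff b) g).unit.pow n)
    exact Opens.mem_iSup.mpr
      ⟨⟨⟨b, ⟨g, s, isLocGen_of_isGen hM (𝒱.aff b) g s hgen⟩⟩, hgen⟩, hxg⟩
  exact ⟨key false, key true⟩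

end DataOf

/-- **(S2) for arbitrary invertible modules**: two invertible modules are isomorphic iff their two-chart data
are isomorphic -/
theorem nonempty_iso_iff_dataOf (𝒱 : Charts X) (M M' : X.Modules)
    (hM : Scheme.Modules.IsInvertible M) (hM' : Scheme.Modules.IsInvertible M') :
    Nonempty (M ≅ M') ↔ Nonempty (GlueData.Equiv (dataOf 𝒱 M hM) (dataOf 𝒱 M' hM')) := by
  obtain ⟨e, -⟩ := exists_iso_dataOf 𝒱 M hM
  obtain ⟨e', -⟩ := exists_iso_dataOf 𝒱 M' hM'
  rw [← GlueData.nonempty_iso_iff]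
  exact ⟨fun ⟨i⟩ => ⟨e ≪≫ i ≪≫ e'.symm⟩, fun ⟨i⟩ => ⟨e.symm ≪≫ i ≪≫ e'⟩⟩

end Fermat.Agent.S25lib.Sec
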