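/-
S25lib / Sec / GenLocal  (helper6)  --  Project L (S25), block `Sec/**`.
* `isGen_of_cover`: being a generator (`Mod.IsGen`) is local.
* `isGen_of_isLocGen`: for an invertible module `M` and an affine open `B`, a local generator `s ∈ Γ(M, B)` on
  `D(g)` (in the sense of modules, `IsLocGen g s`) restricts to a generator of `M` over `D(g)` -- the converse of
  `isLocGen_of_isGen`.
-/
import Fermat.Agent.S25lib.Sec.Bridge

set_option autoImplicit false

noncomputable section

universe u

open AlgebraicGeometry CategoryTheory TopologicalSpace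

namespace Fermat.Agent.S25lib.Sec

open Fermat.Agent.S25lib.Mod (resO resO_self resO_resO resO_mul resO_one resO_add)

variable {X : Scheme.{u}}

/-- **being a generator is local** -/
theorem isGen_of_cover {M : X.Modules} {U : X.Opens} (s : Γ(M, U)) {κ : Type*} (W : κ → X.Opens)
    (hW : ∀ k, W k ≤ U) (hcov : U ≤ ⨆ k, W k)
    (h : ∀ k, Mod.IsGen M (W k) (Mod.res M (hW k) s)) : Mod.IsGen M U s := by
  intro V hV
  have hcovV : V ≤ ⨆ k, V ⊓ W k := by
    rw [← inf_iSup_eq]
    exact le_inf le_rfl (hV.trans hcov)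
  have hk : ∀ k, Mod.IsGen M (V ⊓ W k) (Mod.res M ((inf_le_left : V ⊓ W k ≤ V).trans hV) s) := by
    intro k
    have := (h k).res (inf_le_right : V ⊓ W k ≤ W k)
    rwa [Mod.res_res] at this
  have hk' : ∀ (k : κ) (T : X.Opens) (hT : T ≤ V ⊓ W k) (a b : Γ(X, T)),
      a • Mod.res M ((hT.trans inf_le_left).trans hV) s =
        b • Mod.res M ((hT.trans inf_le_left).trans hV) s → a = b := by
    intro k T hT a b hab
    have := (hk k T hT).1
    apply this
    simp only [Mod.res_res]
    exact hab
  constructor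
  · intro r r' hrr'
    simp only at hrr'
    apply Mod.eq_of_resO_eq (fun k => V ⊓ W k) V (fun k => inf_le_left) hcovV
    intro k
    have h1 := congrArg (Mod.res M (inf_le_left : V ⊓ W k ≤ V)) hrr'
    rw [Mod.res_smul, Mod.res_smul, Mod.res_res] at h1
    exact hk' k (V ⊓ W k) le_rfl _ _ h1
  · intro t
    have hy : ∀ k, ∃ y : Γ(X, V ⊓ W k),
        y • Mod.res M ((inf_le_left : V ⊓ W k ≤ V).trans hV) s =
          Mod.res M (inf_le_left : V ⊓ W k ≤ V) t := by
      intro k
      obtain ⟨y, hy⟩ := (hk k (V ⊓ W k) le_rfl).2 (Mod.res M (inf_le_left : V ⊓ W k ≤ V) t)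
      simp only [Mod.res_self] at hy
      exact ⟨y, hy⟩
    choose y hy using hy
    obtain ⟨r, hr, -⟩ := Mod.exists_unique_glueO (fun k => V ⊓ W k) V (fun k => inf_le_left)
      hcovV y (by
        intro k l
        apply hk' k _ (inf_le_left : (V ⊓ W k) ⊓ (V ⊓ W l) ≤ V ⊓ W k)
        have e1 := congrArg (Mod.res M (inf_le_left : (V ⊓ W k) ⊓ (V ⊓ W l) ≤ V ⊓ W k)) (hy k)
        have e2 := congrArg (Mod.res M (inf_le_right : (V ⊓ W k) ⊓ (V ⊓ W l) ≤ V ⊓ W l)) (hy l)
        rw [Mod.res_smul, Mod.res_res, Mod.res_res] at e1 e2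
        rw [e1, e2])
    refine ⟨r, ?_⟩
    apply Mod.eq_of_res_eq M (fun k => V ⊓ W k) V (fun k => inf_le_left) hcovV
    intro k
    simp only
    rw [Mod.res_smul, hr k, Mod.res_res, hy k]

/-- **a local generator of the module of sections over an affine open generates the sheaf** -/
theorem isGen_of_isLocGen {M : X.Modules} (hM : Scheme.Modules.IsInvertible M) {B : X.Opens}
    (hB : IsAffineOpen B) {g : Γ(X, B)} {s : Γ(M, B)} (hs : IsLocGen g s) :
    Mod.IsGen M (X.basicOpen g) (Mod.res M (X.basicOpen_le g) s) := by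
  -- cover `D(g)` by the `D(g) ⊓ D(g')`, `g'` with a generator `σ` over `D(g')`
  have hle : ∀ p : AffBC.genSet M B, X.basicOpen g ⊓ X.basicOpen p.1 ≤ X.basicOpen g :=
    fun _ => inf_le_left
  apply isGen_of_cover _ (fun p : AffBC.genSet M B => X.basicOpen g ⊓ X.basicOpen p.1) hle
  · intro x hx
    obtain ⟨g', hxg', hg'⟩ := AffBC.exists_basicOpen_isGen M hM hB x (X.basicOpen_le g hx)
    exact (Opens.mem_iSup).mpr ⟨⟨g', hg'⟩, ⟨hx, hxg'⟩⟩
  · rintro ⟨g', σ, hσ⟩
    simp only
    rw [Mod.res_res]
    set T : X.Opens := X.basicOpen g ⊓ X.basicOpen g' with hT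
    have hTB : T ≤ B := inf_le_left.trans (X.basicOpen_le g)
    -- lift `σ` to `B` up to a power of `g'`
    obtain ⟨hsurj, -⟩ := AffBC.exists_res_eq_pow_smul_and M hM hB g'
    obtain ⟨k, σ', hσ'⟩ := hsurj σ
    -- `g ^ n • σ' = a • s`
    obtain ⟨n, a, ha⟩ := hs.gen σ'
    -- the coordinate of `s` with respect to `σ` on `T`
    have hσT := hσ.res (inf_le_right : T ≤ X.basicOpen g')
    obtain ⟨r, hr⟩ := (hσT T le_rfl).2 (Mod.res M hTB s)
    simp only [Mod.res_self] at hr
    -- `res g ^ n * res g' ^ k = res a * r`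
    have hunit : IsUnit r := by
      have e1 := congrArg (Mod.res M hTB) ha
      rw [Mod.res_smul, Mod.res_smul, ← hr, smul_smul] at e1
      have e2 : Mod.res M hTB σ' = resO (inf_le_right : T ≤ X.basicOpen g')
          (resO (X.basicOpen_le g') g' ^ k) • Mod.res M (inf_le_right : T ≤ X.basicOpen g') σ := by
        rw [← Mod.res_smul, ← hσ', Mod.res_res]
      rw [e2, smul_smul] at e1
      have e3 := (hσT T le_rfl).1 (by simpa only [Mod.res_self] using e1)
      have hu1 : IsUnit (resO hTB g) := by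
        have := (isAwayHom_resHom hB g).unit.map (resHom (inf_le_left : T ≤ X.basicOpen g))
        rwa [resHom_apply, resHom_apply, resO_resO] at this
      have hu2 : IsUnit (resO hTB g') := by
        have := (isAwayHom_resHom hB g').unit.map (resHom (inf_le_right : T ≤ X.basicOpen g'))
        rwa [resHom_apply, resHom_apply, resO_resO] at this
      have hu : IsUnit (resO hTB (g ^ n) * resO (inf_le_right : T ≤ X.basicOpen g')
          (resO (X.basicOpen_le g') g' ^ k)) := by
        refine IsUnit.mul ?_ ?_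
        · rw [show resO hTB (g ^ n) = resO hTB g ^ n from map_pow _ _ _]
          exact hu1.pow n
        · rw [show resO (inf_le_right : T ≤ X.basicOpen g') (resO (X.basicOpen_le g') g' ^ k) =
            resO (inf_le_right : T ≤ X.basicOpen g') (resO (X.basicOpen_le g') g') ^ k from
            map_pow _ _ _, resO_resO]
          exact hu2.pow k
      rw [e3] at hu
      exact isUnit_of_mul_isUnit_right hu
    rw [← hr]
    exact isGen_smul_of_isUnit hσT hunit

end Fermat.Agent.S25lib.Sec
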