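/-
S25lib / Sec / Pull  (helper6)  --  Project L (S25), block `Sec/**`: **(S4) synthesis commutes with pullback.**
`f : X' ⟶ X`, `D` gluing data on `X`, `D'` gluing data on `X'` over charts `V' b ≤ f⁻¹ (V b)`, and semilinear maps
`φ b : W b → W' b`, `φ₁₂ : W₁₂ → W'₁₂` compatible with the `ρ`'s and mapping local generators to local generators
(`PullData`).  Then `f^* (D.synth) ≅ D'.synth`, by an isomorphism mapping the pullback of the section `θ b x` to
`θ' b (φ b x)`.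
-/
import Fermat.Agent.S25lib.Sec.Recog
import Fermat.Agent.S25lib.Mod.CocyclePull

set_option autoImplicit false

noncomputable section

universe u

open AlgebraicGeometry CategoryTheory TopologicalSpace

namespace Fermat.Agent.S25lib.Sec

open Fermat.Agent.S25lib.Mod (resO resO_self resO_resO resO_mul resO_one resO_add)

variable {X X' : Scheme.{u}} (f : X' ⟶ X)

/-- `f^♯` followed by restriction, as a ring homomorphism -/
def aLE (U : X.Opens) (V : X'.Opens) (e : V ≤ f ⁻¹ᵁ U) : Γ(X, U) →+* Γ(X', V) :=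
  (f.appLE U V e).hom

theorem aLE_resO {U U' : X.Opens} {V : X'.Opens} (e : V ≤ f ⁻¹ᵁ U) (h : U ≤ U') (r : Γ(X, U')) :
    aLE f U V e (resO h r) = aLE f U' V (e.trans (Mod.preimage_mono f h)) r := by
  have := f.map_appLE e (homOfLE h).op
  exact congr($this r)

theorem resO_aLE {U : X.Opens} {V V' : X'.Opens} (e : V ≤ f ⁻¹ᵁ U) (h : V' ≤ V) (r : Γ(X, U)) :
    resO h (aLE f U V e r) = aLE f U V' (h.trans e) r := by
  have := f.appLE_map e (homOfLE h).op
  exact congr($this r)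

theorem aLE_app (U : X.Opens) (r : Γ(X, U)) : aLE f U (f ⁻¹ᵁ U) le_rfl r = f.app U r := by
  unfold aLE
  rw [Scheme.Hom.appLE_eq_app]

/-- pullback of sections followed by restriction -/
def pRes (M : X.Modules) {B : X.Opens} {B' : X'.Opens} (hle : B' ≤ f ⁻¹ᵁ B) (s : Γ(M, B)) :
    Γ((Scheme.Modules.pullback f).obj M, B') :=
  Mod.res _ hle (Mod.pullSec f M B s)

theorem pRes_smul (M : X.Modules) {B : X.Opens} {B' : X'.Opens} (hle : B' ≤ f ⁻¹ᵁ B)
    (a : Γ(X, B)) (s : Γ(M, B)) :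
    pRes f M hle (a • s) = aLE f B B' hle a • pRes f M hle s := by
  unfold pRes
  rw [Mod.pullSec_smul, Mod.res_smul]
  rfl

theorem pRes_res (M : X.Modules) {B T : X.Opens} {B' : X'.Opens} (h : T ≤ B)
    (hle : B' ≤ f ⁻¹ᵁ T) (s : Γ(M, B)) :
    pRes f M hle (Mod.res M h s) = pRes f M (hle.trans (Mod.preimage_mono f h)) s := by
  unfold pRes
  rw [Mod.pullSec_res', Mod.res_res]

theorem res_pRes (M : X.Modules) {B : X.Opens} {B' T' : X'.Opens} (hle : B' ≤ f ⁻¹ᵁ B)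
    (h' : T' ≤ B') (s : Γ(M, B)) :
    Mod.res _ h' (pRes f M hle s) = pRes f M (h'.trans hle) s := by
  unfold pRes
  rw [Mod.res_res]

section Single

variable {V : X.Opens} {V' : X'.Opens} (hV : IsAffineOpen V) (hV' : IsAffineOpen V')
  (hle : V' ≤ f ⁻¹ᵁ V) {W W' : Type u} [AddCommGroup W] [Module Γ(X, V) W] [AddCommGroup W']
  [Module Γ(X', V') W']

/-- **coordinates commute with pullback** (one chart) -/
theorem cT_pull (φ : W →+ W') (hφ : ∀ (a : Γ(X, V)) (x : W), φ (a • x) = aLE f V V' hle a • φ x)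
    (p : LG V W) (p' : LG V' W') (hh : p'.h = aLE f V V' hle p.h) (hw : p'.w = φ p.w)
    (T : X.Opens) (T' : X'.Opens) (hT : T ≤ p.D) (hT' : T' ≤ p'.D) (hTT' : T' ≤ f ⁻¹ᵁ T) (x : W) :
    cT hV' p' T' hT' (φ x) = aLE f T T' hTT' (cT hV p T hT x) := by
  obtain ⟨h', w', hp'⟩ := p'
  simp only at hh hw
  subst hh hw
  have hD : X'.basicOpen (aLE f V V' hle p.h) ≤ f ⁻¹ᵁ X.basicOpen p.h := by
    have := Scheme.basicOpen_appLE f V' V hle p.h
    change X'.basicOpen (aLE f V V' hle p.h) = _ at this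
    rw [this]
    exact inf_le_right
  have key := coord_map (aLE f V V' hle) φ hφ (isAwayHom_resHom hV p.h) p.isLocGen
    (isAwayHom_resHom hV' (aLE f V V' hle p.h)) hp' (aLE f p.D _ hD) (by
      ext r
      change aLE f p.D _ hD (resO _ r) = resO _ (aLE f V V' hle r)
      rw [aLE_resO, resO_aLE]) x
  unfold cT LG.c
  refine (congrArg (resO hT') key).trans ?_
  rw [resO_aLE, aLE_resO]

end Single

/-- **pullback data**: the gluing data `D'` on `X'` is the pullback of the gluing data `D` on `X` -/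
structure PullData {𝒱 : Charts X} {𝒱' : Charts X'} (D : GlueData 𝒱) (D' : GlueData 𝒱') where
  hV : ∀ b, 𝒱'.V b ≤ f ⁻¹ᵁ 𝒱.V b
  φ : ∀ b, D.W b →+ D'.W b
  φ_smul : ∀ (b : Bool) (a : Γ(X, 𝒱.V b)) (x : D.W b),
    φ b (a • x) = aLE f (𝒱.V b) (𝒱'.V b) (hV b) a • φ b x
  φ₁₂ : D.W₁₂ →+ D'.W₁₂
  φ₁₂_smul : ∀ (a : Γ(X, 𝒱.V false ⊓ 𝒱.V true)) (y : D.W₁₂),
    φ₁₂ (a • y) = aLE f (𝒱.V false ⊓ 𝒱.V true) (𝒱'.V false ⊓ 𝒱'.V true)
      (inf_le_inf (hV false) (hV true)) a • φ₁₂ y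
  comm : ∀ (b : Bool) (x : D.W b), D'.ρ b (φ b x) = φ₁₂ (D.ρ b x)
  gen : ∀ (b : Bool) (h : Γ(X, 𝒱.V b)) (w : D.W b), IsLocGen h w →
    IsLocGen (aLE f (𝒱.V b) (𝒱'.V b) (hV b) h) (φ b w)

namespace PullData

variable {f} {𝒱 : Charts X} {𝒱' : Charts X'} {D : GlueData 𝒱} {D' : GlueData 𝒱'}
  (P : PullData f D D')

include P in
theorem hV₁₂ : D'.V₁₂ ≤ f ⁻¹ᵁ D.V₁₂ := inf_le_inf (P.hV false) (P.hV true)

/-- the local generator of `D'` above a local generator of `D` -/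
def lg (b : Bool) (p : LG (D.V b) (D.W b)) : LG (D'.V b) (D'.W b) :=
  ⟨aLE f (𝒱.V b) (𝒱'.V b) (P.hV b) p.h, P.φ b p.w, P.gen b p.h p.w p.isLocGen⟩

/-- the index of `D'` above an index of `D` -/
def idx (i : D.Idx) : D'.Idx := ⟨i.1, P.lg i.1 i.2⟩

theorem idx_mk (b : Bool) (p : LG (D.V b) (D.W b)) : P.idx ⟨b, p⟩ = ⟨b, P.lg b p⟩ := rfl

theorem U_idx_le (i : D.Idx) : D'.U (P.idx i) ≤ f ⁻¹ᵁ D.U i := by
  have := Scheme.basicOpen_appLE f (𝒱'.V i.1) (𝒱.V i.1) (P.hV i.1) i.2.h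
  change D'.U (P.idx i) = _ at this
  rw [this]
  exact inf_le_right

/-- **coordinates commute with pullback** -/
theorem kap_pull (j : D.Idx) (c : Bool) (T : X.Opens) (T' : X'.Opens) (hT : T ≤ D.U j)
    (hTc : T ≤ D.V c) (hT' : T' ≤ D'.U (P.idx j)) (hTc' : T' ≤ D'.V c) (hTT' : T' ≤ f ⁻¹ᵁ T)
    (x : D.W c) :
    D'.kap (P.idx j) c T' hT' hTc' (P.φ c x) = aLE f T T' hTT' (D.kap j c T hT hTc x) := by
  obtain ⟨b, p⟩ := j
  by_cases h : b = c
  · subst h
    have e1 : D'.kap (P.idx ⟨b, p⟩) b T' hT' hTc' (P.φ b x) =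
        cT (D'.aff b) (P.lg b p) T' hT' (P.φ b x) := D'.kap_same b _ T' hT' hTc' _
    rw [e1, GlueData.kap_same]
    exact cT_pull f (D.aff b) (D'.aff b) (P.hV b) (P.φ b) (P.φ_smul b) p (P.lg b p) rfl rfl
      T T' hT hT' hTT' x
  · have h' : (P.idx ⟨b, p⟩).1 ≠ c := h
    rw [D'.kap_ne (P.idx ⟨b, p⟩) c h', D.kap_ne ⟨b, p⟩ c h, P.comm]
    unfold GlueData.k₁₂
    refine cT_pull f D.aff₁₂ D'.aff₁₂ P.hV₁₂ P.φ₁₂ P.φ₁₂_smul (D.push p)
      (D'.push (P.lg b p)) ?_ ?_ T T' _ _ hTT' (D.ρ c x)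
    · change resO _ (aLE f _ _ _ p.h) = aLE f _ _ _ (resO _ p.h)
      rw [resO_aLE, aLE_resO]
    · exact P.comm b p.w

/-- the opens of the pushed indices cover `X'` -/
theorem iSup_U_idx : ⨆ i : D.Idx, D'.U (P.idx i) = ⊤ := by
  rw [eq_top_iff, ← D'.cover, sup_le_iff]
  have key : ∀ b, D'.V b ≤ ⨆ i : D.Idx, D'.U (P.idx i) := by
    intro b
    have hs : Ideal.span (Set.range fun p : LG (D.V b) (D.W b) => (P.lg b p).h) = ⊤ := by
      have h1 : (Set.range fun p : LG (D.V b) (D.W b) => (P.lg b p).h) =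
          (aLE f (𝒱.V b) (𝒱'.V b) (P.hV b)) '' {h : Γ(X, D.V b) | ∃ w : D.W b, IsLocGen h w} := by
        ext r
        constructor
        · rintro ⟨p, rfl⟩
          exact ⟨p.h, ⟨p.w, p.isLocGen⟩, rfl⟩
        · rintro ⟨h, ⟨w, hw⟩, rfl⟩
          exact ⟨⟨h, w, hw⟩, rfl⟩
      rw [h1, ← Ideal.map_span, D.span b, Ideal.map_top]
    refine (le_iSup_D_idx (D'.aff b) (fun p : LG (D.V b) (D.W b) => P.lg b p) hs).trans ?_
    rw [iSup_le_iff]
    intro p
    exact le_iSup (fun i : D.Idx => D'.U (P.idx i)) ⟨b, p⟩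
  exact ⟨key false, key true⟩

/-- **(S4)** the pullback of the glued module is the module glued from the pulled-back data -/
theorem exists_iso :
    ∃ e : (Scheme.Modules.pullback f).obj D.synth ≅ D'.synth, ∀ (c : Bool) (x : D.W c),
      e.hom.app (D'.V c) (pRes f D.synth (P.hV c) (D.θ c (D.V c) le_rfl x)) =
        D'.θ c (D'.V c) le_rfl (P.φ c x) := by
  obtain ⟨e, he⟩ := Mod.nonempty_iso_of_same_trans
    (M := (Scheme.Modules.pullback f).obj D.synth) (M' := D'.synth)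
    (fun i : D.Idx => D'.U (P.idx i)) P.iSup_U_idx
    (fun i => pRes f D.synth (P.U_idx_le i) (D.cocycle.gen i))
    (fun i => (Mod.isGen_pullSec f (D.cocycle.isGen_gen i)).res (P.U_idx_le i))
    (fun i => D'.cocycle.gen (P.idx i)) (fun i => D'.cocycle.isGen_gen (P.idx i))
    (fun i j => D'.cocycle.u (P.idx i) (P.idx j))
    (by
      intro i j
      rw [res_pRes, res_pRes]
      have h := congrArg (pRes f D.synth (le_inf (inf_le_left.trans (P.U_idx_le i))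
        (inf_le_right.trans (P.U_idx_le j)) :
          D'.U (P.idx i) ⊓ D'.U (P.idx j) ≤ f ⁻¹ᵁ (D.U i ⊓ D.U j))) (D.cocycle.res_gen i j)
      rw [pRes_smul, pRes_res, pRes_res] at h
      rw [h]
      congr 1
      rw [D.cocycle_u, D'.cocycle_u]
      exact (P.kap_pull j i.1 _ _ _ _ _ _ _ i.2.w).symm)
    (fun i j => D'.cocycle.res_gen (P.idx i) (P.idx j))
  refine ⟨e, fun c x => ?_⟩
  apply Mod.eq_of_res_eq D'.synth (fun i : D.Idx => D'.V c ⊓ D'.U (P.idx i)) (D'.V c)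
    (fun _ => inf_le_left) (Mod.le_iSup_inf (fun i : D.Idx => D'.U (P.idx i)) P.iSup_U_idx (D'.V c))
  intro i
  rw [← Mod.app_res, res_pRes]
  -- the left hand side
  have hT' : D'.V c ⊓ D'.U (P.idx i) ≤ f ⁻¹ᵁ (D.V c ⊓ D.U i) :=
    le_inf (inf_le_left.trans (P.hV c)) (inf_le_right.trans (P.U_idx_le i))
  have h1 := D.secData.res_σ_eq_kap i c (D.V c ⊓ D.U i) inf_le_right inf_le_left x
  rw [D.secData_s] at h1
  change Mod.res D.synth _ (D.θ c (D.V c) le_rfl x) = _ at h1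
  have h2 := congrArg (pRes f D.synth hT') h1
  rw [pRes_res, pRes_smul, pRes_res] at h2
  rw [h2, Scheme.Modules.Hom.app_smul]
  have h3 : e.hom.app (D'.V c ⊓ D'.U (P.idx i))
      (pRes f D.synth (hT'.trans (Mod.preimage_mono f inf_le_right)) (D.cocycle.gen i)) =
      Mod.res D'.synth inf_le_right (D'.cocycle.gen (P.idx i)) := by
    rw [← he i, ← Mod.app_res, res_pRes]
  rw [h3]
  -- the right hand side
  have h4 := D'.secData.res_σ_eq_kap (P.idx i) c (D'.V c ⊓ D'.U (P.idx i)) inf_le_right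
    inf_le_left (P.φ c x)
  rw [D'.secData_s] at h4
  change Mod.res D'.synth _ (D'.θ c (D'.V c) le_rfl (P.φ c x)) = _ at h4
  rw [h4]
  congr 1
  exact (P.kap_pull i c _ _ _ _ _ _ hT' x).symm

end PullData

end Fermat.Agent.S25lib.Sec
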