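/-
S25lib / Sec / OneSided  (helper6)  --  Project L (S25), block `Sec/**`: **gluing data which are trivial on the
second chart.**
`𝒱 : Charts X`, `W₁` a locally free module of rank one over `Γ(X, V false)` and a semilinear map
`τ : W₁ → Γ(X, V₁₂)` mapping local generators to (local) units: the module `W₁~` on `V false` glued with the
structure sheaf of `V true` along `τ`.  `GlueData.ofTriv`, its canonical generator over `V true`, its
rigidification along any morphism landing in `V true`, and its pullback.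
-/
import Fermat.Agent.S25lib.Sec.Pull
import Fermat.Agent.S25lib.Sec.Adapt

set_option autoImplicit false

noncomputable section

universe u

open AlgebraicGeometry CategoryTheory TopologicalSpace

namespace Fermat.Agent.S25lib.Sec

open Fermat.Agent.S25lib.Mod (resO resO_self resO_resO resO_mul resO_one resO_add)

/-- for a ring as a module over itself, a ring homomorphism maps local generators to local generators -/
theorem IsLocGen.ring_map {A A' : Type*} [CommRing A] [CommRing A'] (α : A →+* A') {h w : A}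
    (hw : IsLocGen h w) : IsLocGen (α h) (α w) where
  gen x' := by
    obtain ⟨n, a, ha⟩ := hw.gen 1
    refine ⟨n, x' * α a, ?_⟩
    have := congrArg α ha
    simp only [smul_eq_mul, mul_one, map_pow, map_mul] at this
    rw [smul_eq_mul, smul_eq_mul, this]
    ring
  free a' ha' := by
    obtain ⟨n, a, ha⟩ := hw.gen 1
    refine ⟨n, ?_⟩
    have := congrArg α ha
    simp only [smul_eq_mul, mul_one, map_pow, map_mul] at this
    rw [smul_eq_mul] at ha'
    rw [this, mul_comm, ← mul_assoc, mul_comm a', mul_assoc, ha', mul_zero]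

/-- a ring is free of rank one over itself, on `1` -/
theorem bijective_smul_one (A : Type*) [CommRing A] :
    Function.Bijective (fun a : A => a • (1 : A)) := by
  constructor
  · intro a b hab
    simpa only [smul_eq_mul, mul_one] using hab
  · intro a
    exact ⟨a, by simp only [smul_eq_mul, mul_one]⟩

variable {X : Scheme.{u}}

/-- **one-sided data**: a module on the first chart with a trivialisation on the overlap -/
structure TrivData (𝒱 : Charts X) where
  W₁ : ModuleCat.{u} Γ(X, 𝒱.V false)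
  span : Ideal.span {h : Γ(X, 𝒱.V false) | ∃ w : W₁, IsLocGen h w} = ⊤
  τ : W₁ →+ Γ(X, 𝒱.V false ⊓ 𝒱.V true)
  τ_smul : ∀ (a : Γ(X, 𝒱.V false)) (x : W₁),
    τ (a • x) = resO (inf_le_left : 𝒱.V false ⊓ 𝒱.V true ≤ 𝒱.V false) a * τ x
  gen : ∀ (h : Γ(X, 𝒱.V false)) (w : W₁), IsLocGen h w →
    IsLocGen (resO (inf_le_left : 𝒱.V false ⊓ 𝒱.V true ≤ 𝒱.V false) h) (τ w)

namespace TrivData

variable {𝒱 : Charts X} (E : TrivData 𝒱)

/-- the modules on the two charts -/
def W : ∀ b : Bool, ModuleCat.{u} Γ(X, 𝒱.V b)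
  | false => E.W₁
  | true => ModuleCat.of Γ(X, 𝒱.V true) Γ(X, 𝒱.V true)

/-- the restriction maps -/
def ρ : ∀ b : Bool, E.W b →+ Γ(X, 𝒱.V false ⊓ 𝒱.V true)
  | false => E.τ
  | true => (resHom (inf_le_right : 𝒱.V false ⊓ 𝒱.V true ≤ 𝒱.V true)).toAddMonoidHom

/-- **the gluing data of one-sided data** -/
def glueData : GlueData 𝒱 where
  W := E.W
  W₁₂ := ModuleCat.of Γ(X, 𝒱.V false ⊓ 𝒱.V true) Γ(X, 𝒱.V false ⊓ 𝒱.V true)
  ρ := E.ρ
  ρ_smul b a x := by
    cases b
    · exact E.τ_smul a x
    · exact resO_mul _ a x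
  span b := by
    cases b
    · exact E.span
    · exact span_of_free (1 : Γ(X, 𝒱.V true)) (bijective_smul_one _)
  gen b h w hw := by
    cases b
    · exact E.gen h w hw
    · exact IsLocGen.ring_map (resHom (inf_le_right : 𝒱.V false ⊓ 𝒱.V true ≤ 𝒱.V true)) hw

/-- the glued module -/
abbrev synth : X.Modules := E.glueData.synth

/-- the index of the canonical generator on the second chart -/
def idx₁ : E.glueData.Idx :=
  ⟨true, ⟨(1 : Γ(X, 𝒱.V true)), (1 : Γ(X, 𝒱.V true)),
    isLocGen_one_of_bijective (1 : Γ(X, 𝒱.V true)) (bijective_smul_one _)⟩⟩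

theorem U_idx₁ : E.glueData.U E.idx₁ = 𝒱.V true := X.basicOpen_one

/-- **the canonical generator over the second chart** -/
def one : Γ(E.synth, 𝒱.V true) :=
  E.glueData.θ true (𝒱.V true) le_rfl (1 : Γ(X, 𝒱.V true))

theorem isGen_one : Mod.IsGen E.synth (𝒱.V true) E.one := by
  have h := E.glueData.cocycle.isGen_gen E.idx₁
  rw [E.glueData.gen_eq] at h
  have hle : 𝒱.V true ≤ E.glueData.U E.idx₁ := le_of_eq E.U_idx₁.symm
  have h2 := h.res hle
  rw [GlueData.θ_res] at h2
  exact h2

/-- **rigidification**: the pullback of the glued module along a morphism landing in the second chart is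
trivial -/
theorem exists_iso_unit {T : Scheme.{u}} (ε : T ⟶ X) (h : ε ⁻¹ᵁ 𝒱.V true = ⊤) :
    Nonempty ((Scheme.Modules.pullback ε).obj E.synth ≅ SheafOfModules.unit T.ringCatSheaf) :=
  E.glueData.exists_iso_unit ε E.idx₁ (by rw [E.U_idx₁]; exact h)

end TrivData

/-- **pullback of one-sided data** -/
structure TrivPull {X' : Scheme.{u}} (f : X' ⟶ X) {𝒱 : Charts X} {𝒱' : Charts X'} (E : TrivData 𝒱)
    (E' : TrivData 𝒱') where
  hV : ∀ b, 𝒱'.V b ≤ f ⁻¹ᵁ 𝒱.V b
  φ : E.W₁ →+ E'.W₁
  φ_smul : ∀ (a : Γ(X, 𝒱.V false)) (x : E.W₁),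
    φ (a • x) = aLE f (𝒱.V false) (𝒱'.V false) (hV false) a • φ x
  comm : ∀ x : E.W₁, E'.τ (φ x) = aLE f (𝒱.V false ⊓ 𝒱.V true) (𝒱'.V false ⊓ 𝒱'.V true)
    (inf_le_inf (hV false) (hV true)) (E.τ x)
  gen : ∀ (h : Γ(X, 𝒱.V false)) (w : E.W₁), IsLocGen h w →
    IsLocGen (aLE f (𝒱.V false) (𝒱'.V false) (hV false) h) (φ w)

namespace TrivPull

variable {X' : Scheme.{u}} {f : X' ⟶ X} {𝒱 : Charts X} {𝒱' : Charts X'} {E : TrivData 𝒱}
  {E' : TrivData 𝒱'} (P : TrivPull f E E')

/-- the maps between the chart modules -/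
def φb : ∀ b : Bool, E.W b →+ E'.W b
  | false => P.φ
  | true => (aLE f (𝒱.V true) (𝒱'.V true) (P.hV true)).toAddMonoidHom

/-- the pullback data of the gluing data -/
def pullData : PullData f E.glueData E'.glueData where
  hV := P.hV
  φ := P.φb
  φ_smul b a x := by
    cases b
    · exact P.φ_smul a x
    · exact map_mul (aLE f (𝒱.V true) (𝒱'.V true) (P.hV true)) a x
  φ₁₂ := (aLE f (𝒱.V false ⊓ 𝒱.V true) (𝒱'.V false ⊓ 𝒱'.V true)
    (inf_le_inf (P.hV false) (P.hV true))).toAddMonoidHom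
  φ₁₂_smul a y := map_mul (aLE f (𝒱.V false ⊓ 𝒱.V true) (𝒱'.V false ⊓ 𝒱'.V true)
    (inf_le_inf (P.hV false) (P.hV true))) a y
  comm b x := by
    cases b
    · exact P.comm x
    · have h1 := resO_aLE f (P.hV true)
        (inf_le_right : 𝒱'.V false ⊓ 𝒱'.V true ≤ 𝒱'.V true) x
      have h2 := aLE_resO f (inf_le_inf (P.hV false) (P.hV true))
        (inf_le_right : 𝒱.V false ⊓ 𝒱.V true ≤ 𝒱.V true) x
      exact h1.trans h2.symm
  gen b h w hw := by
    cases b
    · exact P.gen h w hw
    · exact IsLocGen.ring_map (aLE f (𝒱.V true) (𝒱'.V true) (P.hV true)) hw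

/-- **the pullback of the module glued from one-sided data** -/
theorem exists_iso :
    ∃ e : (Scheme.Modules.pullback f).obj E.synth ≅ E'.synth,
      (∀ x : E.W₁, e.hom.app (𝒱'.V false)
        (pRes f E.synth (P.hV false) (E.glueData.θ false (𝒱.V false) le_rfl x)) =
          E'.glueData.θ false (𝒱'.V false) le_rfl (P.φ x)) ∧
      e.hom.app (𝒱'.V true) (pRes f E.synth (P.hV true) E.one) = E'.one := by
  obtain ⟨e, he⟩ := P.pullData.exists_iso
  refine ⟨e, fun x => he false x, ?_⟩
  have := he true (1 : Γ(X, 𝒱.V true))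
  refine this.trans ?_
  change E'.glueData.θ true (𝒱'.V true) le_rfl (aLE f _ _ _ (1 : Γ(X, 𝒱.V true))) = _
  rw [map_one]
  rfl

end TrivPull

end Fermat.Agent.S25lib.Sec
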