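/-
S25lib / Sec / OneSidedRecog  (helper6)  --  Project L (S25), block `Sec/**`: one-sided data, continued.
* `TrivData.glob s₁ hs : Γ(E.synth, ⊤)`: the global section glued from `s₁ ∈ W₁` with `τ s₁ = 1` and the
  canonical generator `one` over the second chart.
* `TrivData.exists_iso_of_sections`: **recognition**: an invertible module `M` with a semilinear map
  `σ : W₁ → Γ(M, V false)` (mapping local generators to generators) and a generator `s₂` over `V true` such that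
  `σ x = τ x • s₂` on the overlap is the module glued from `E`.
-/
import Fermat.Agent.S25lib.Sec.OneSided
import Fermat.Agent.S25lib.Sec.GenLocal

set_option autoImplicit false

noncomputable section

universe u

open AlgebraicGeometry CategoryTheory TopologicalSpace

namespace Fermat.Agent.S25lib.Sec

open Fermat.Agent.S25lib.Mod (resO resO_self resO_resO resO_mul resO_one resO_add)

variable {X : Scheme.{u}}

/-- a local generator of a ring over itself is a unit on its basic open -/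
theorem isUnit_resO_of_isLocGen {V : X.Opens} (hV : IsAffineOpen V) {h w : Γ(X, V)}
    (hw : IsLocGen h w) : IsUnit (resO (X.basicOpen_le h) w) := by
  obtain ⟨n, a, ha⟩ := hw.gen 1
  rw [smul_eq_mul, mul_one, smul_eq_mul] at ha
  have h1 := congrArg (resO (X.basicOpen_le h)) ha
  rw [resO_mul, show resO (X.basicOpen_le h) (h ^ n) = resO (X.basicOpen_le h) h ^ n from
    map_pow _ _ _] at h1
  have hu : IsUnit (resO (X.basicOpen_le h) h ^ n) := ((isAwayHom_resHom hV h).unit).pow n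
  rw [h1] at hu
  exact isUnit_of_mul_isUnit_right hu

namespace TrivData

variable {𝒱 : Charts X} (E : TrivData 𝒱)

/-- the pair `(s₁, 1)` -/
def pair (s₁ : E.W₁) : ∀ b : Bool, E.glueData.W b
  | false => s₁
  | true => (1 : Γ(X, 𝒱.V true))

theorem θ_pair_eq (s₁ : E.W₁) (hs : E.τ s₁ = 1) (T : X.Opens) (hT : T ≤ 𝒱.V false ⊓ 𝒱.V true) :
    E.glueData.θ false T (hT.trans inf_le_left) (E.pair s₁ false) =
      E.glueData.θ true T (hT.trans inf_le_right) (E.pair s₁ true) := by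
  rw [E.glueData.θ_eq_θ₁₂ false T hT, E.glueData.θ_eq_θ₁₂ true T hT]
  congr 1
  change E.τ s₁ = resO _ (1 : Γ(X, 𝒱.V true))
  rw [hs, resO_one]

theorem θ_pair_compat (s₁ : E.W₁) (hs : E.τ s₁ = 1) (b b' : Bool) (T : X.Opens) (hT : T ≤ 𝒱.V b)
    (hT' : T ≤ 𝒱.V b') :
    E.glueData.θ b T hT (E.pair s₁ b) = E.glueData.θ b' T hT' (E.pair s₁ b') := by
  cases b <;> cases b'
  · rfl
  · exact E.θ_pair_eq s₁ hs T (le_inf hT hT')
  · exact (E.θ_pair_eq s₁ hs T (le_inf hT' hT)).symm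
  · rfl

theorem exists_glob (s₁ : E.W₁) (hs : E.τ s₁ = 1) :
    ∃! t : Γ(E.synth, ⊤), ∀ b, Mod.res E.synth le_top t =
      E.glueData.θ b (𝒱.V b) le_rfl (E.pair s₁ b) := by
  apply Mod.exists_unique_glue E.synth 𝒱.V ⊤ (fun _ => le_top)
  · rw [← 𝒱.cover]
    refine sup_le ?_ ?_
    · exact le_iSup 𝒱.V false
    · exact le_iSup 𝒱.V true
  · intro b b'
    rw [GlueData.θ_res, GlueData.θ_res]
    exact E.θ_pair_compat s₁ hs b b' _ _ _

/-- **the global section** glued from `s₁` (with `τ s₁ = 1`) and the canonical generator -/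
def glob (s₁ : E.W₁) (hs : E.τ s₁ = 1) : Γ(E.synth, ⊤) := (E.exists_glob s₁ hs).choose

theorem glob_res_false (s₁ : E.W₁) (hs : E.τ s₁ = 1) :
    Mod.res E.synth le_top (E.glob s₁ hs) = E.glueData.θ false (𝒱.V false) le_rfl s₁ :=
  (E.exists_glob s₁ hs).choose_spec.1 false

theorem glob_res_true (s₁ : E.W₁) (hs : E.τ s₁ = 1) :
    Mod.res E.synth le_top (E.glob s₁ hs) = E.one :=
  (E.exists_glob s₁ hs).choose_spec.1 true

/-- the global section generates over the second chart -/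
theorem isGen_glob (s₁ : E.W₁) (hs : E.τ s₁ = 1) :
    Mod.IsGen E.synth (𝒱.V true) (Mod.res E.synth le_top (E.glob s₁ hs)) := by
  rw [E.glob_res_true]
  exact E.isGen_one

section Recog

/-- `a ↦ a • s` -/
def smulSec (M : X.Modules) {V : X.Opens} (s : Γ(M, V)) : Γ(X, V) →+ Γ(M, V) where
  toFun a := a • s
  map_zero' := zero_smul _ _
  map_add' a b := add_smul a b s

variable (M : X.Modules) (σ : E.W₁ →+ Γ(M, 𝒱.V false)) (s₂ : Γ(M, 𝒱.V true))

/-- the maps on the two charts -/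
def σb : ∀ b : Bool, E.glueData.W b →+ Γ(M, 𝒱.V b)
  | false => σ
  | true => smulSec M s₂

/-- **the section data** defined by `σ` and `s₂` -/
def secDataOfSections
    (σ_smul : ∀ (a : Γ(X, 𝒱.V false)) (x : E.W₁), σ (a • x) = a • σ x)
    (comm : ∀ x : E.W₁, Mod.res M (inf_le_left : 𝒱.V false ⊓ 𝒱.V true ≤ 𝒱.V false) (σ x) =
      E.τ x • Mod.res M (inf_le_right : 𝒱.V false ⊓ 𝒱.V true ≤ 𝒱.V true) s₂) :
    SecData E.glueData M where
  σ := E.σb M σ s₂
  σ_smul b a x := by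
    cases b
    · exact σ_smul a x
    · exact mul_smul a (x : Γ(X, 𝒱.V true)) s₂
  σ₁₂ := smulSec M (Mod.res M (inf_le_right : 𝒱.V false ⊓ 𝒱.V true ≤ 𝒱.V true) s₂)
  σ₁₂_smul a y := mul_smul a (y : Γ(X, 𝒱.V false ⊓ 𝒱.V true)) _
  comm b x := by
    cases b
    · exact comm x
    · exact Mod.res_smul M _ (x : Γ(X, 𝒱.V true)) s₂

/-- **recognition**: `M ≅ E.synth` -/
theorem exists_iso_of_sections
    (σ_smul : ∀ (a : Γ(X, 𝒱.V false)) (x : E.W₁), σ (a • x) = a • σ x)
    (comm : ∀ x : E.W₁, Mod.res M (inf_le_left : 𝒱.V false ⊓ 𝒱.V true ≤ 𝒱.V false) (σ x) =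
      E.τ x • Mod.res M (inf_le_right : 𝒱.V false ⊓ 𝒱.V true ≤ 𝒱.V true) s₂)
    (hs₂ : Mod.IsGen M (𝒱.V true) s₂)
    (hσ : ∀ p : LG (𝒱.V false) E.W₁, Mod.IsGen M p.D (Mod.res M p.D_le (σ p.w))) :
    ∃ e : E.synth ≅ M,
      (∀ x : E.W₁, e.hom.app (𝒱.V false) (E.glueData.θ false (𝒱.V false) le_rfl x) = σ x) ∧
      e.hom.app (𝒱.V true) E.one = s₂ := by
  obtain ⟨e, he⟩ := (E.secDataOfSections M σ s₂ σ_smul comm).exists_iso Set.univ
    (by
      rw [iSup_subtype]
      simp only [Set.mem_univ, iSup_pos]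
      exact E.glueData.iSup_U)
    (by
      rintro ⟨b, p⟩ -
      cases b
      · exact hσ p
      · have hu := isUnit_resO_of_isLocGen (𝒱.aff true) p.isLocGen
        have h1 := isGen_smul_of_isUnit (hs₂.res p.D_le) hu
        rw [← Mod.res_smul] at h1
        exact h1)
  refine ⟨e, fun x => he false x, ?_⟩
  have := he true (1 : Γ(X, 𝒱.V true))
  refine this.trans ?_
  change (1 : Γ(X, 𝒱.V true)) • s₂ = s₂
  rw [one_smul]

/-- **recognition** for a bijective `σ` and an invertible `M` -/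
theorem exists_iso_of_bijective (hM : Scheme.Modules.IsInvertible M)
    (σ_smul : ∀ (a : Γ(X, 𝒱.V false)) (x : E.W₁), σ (a • x) = a • σ x)
    (comm : ∀ x : E.W₁, Mod.res M (inf_le_left : 𝒱.V false ⊓ 𝒱.V true ≤ 𝒱.V false) (σ x) =
      E.τ x • Mod.res M (inf_le_right : 𝒱.V false ⊓ 𝒱.V true ≤ 𝒱.V true) s₂)
    (hs₂ : Mod.IsGen M (𝒱.V true) s₂) (hbij : Function.Bijective σ) :
    ∃ e : E.synth ≅ M,
      (∀ x : E.W₁, e.hom.app (𝒱.V false) (E.glueData.θ false (𝒱.V false) le_rfl x) = σ x) ∧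
      e.hom.app (𝒱.V true) E.one = s₂ := by
  apply E.exists_iso_of_sections M σ s₂ σ_smul comm hs₂
  intro p
  apply isGen_of_isLocGen hM (𝒱.aff false)
  exact p.isLocGen.map_equiv (AddEquiv.ofBijective σ hbij) σ_smul

end Recog

end TrivData

end Fermat.Agent.S25lib.Sec
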